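import Fermat.Prelude.Def_GroupCohomology_ContinuousUnramified

/-!
# P-S56, block (B) GREENBERG-WILES: the interface consumed by block (C)

Everything is stated in the formalism of the Prelude (`groupCohomology.H1` of the abstract group
`Gal(Qbar/ℚ)`, `continuousH1S`, `continuousH1`, `extArithLoc`, `selmer`, `orthogonal`), for
coefficient modules `M : Rep (ZMod p) Gal(Qbar/ℚ)` which are finite, discrete and unramified
outside a finite set `S ∋ p` of primes (`IsGoodModule`).

Block (B) produces ONE term `gwPackage : GWPackage p` (file `S56x/GW/Main.lean`, last);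
block (C) takes `(B : GWPackage p)` as a hypothesis until then.
-/

set_option autoImplicit false

open CategoryTheory groupCohomology ExtCitation Module

namespace Fermat.Agent.S56x.GW

local notation "Qbar" => AlgebraicClosure ℚ
local notation "Γℚ" => (AlgebraicClosure ℚ ≃ₐ[ℚ] AlgebraicClosure ℚ)

variable (p : ℕ) [Fact p.Prime]

/-- `M` is a discrete Galois module unramified outside `S` (the hypotheses `hsm`, `hMur` of the
frozen S55). -/
structure IsGoodModule (S : Finset Nat.Primes) (M : Rep (ZMod p) Γℚ) : Prop where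
  smooth : ∀ m : M, ∃ F : IntermediateField ℚ Qbar, FiniteDimensional ℚ F ∧
    ∀ s ∈ F.fixingSubgroup, M.ρ s m = m
  unram : ∀ q : Nat.Primes, q ∉ S → ∀ A : ValuationSubring Qbar,
    A.LiesOverPrime (q : ℕ) → ∀ g ∈ A.inertiaSubgroupIn ℚ, M.ρ g = 1

/-- The Tate dual `M^*(1) = Hom(M, μ_p)`. -/
noncomputable abbrev tateDual (M : Rep (ZMod p) Γℚ) : Rep (ZMod p) Γℚ :=
  M.dualTwist (cycloChar p)

variable {p}

/-- The continuous local `H¹` at the place `v` of `extArithIndex S`. -/
noncomputable abbrev locH1 (S : Finset Nat.Primes) (M : Rep (ZMod p) Γℚ) (v : extArithIndex S) :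
    Submodule (ZMod p) (H1 (Rep.res (extArithLoc S v) M)) :=
  continuousH1 (extArithLoc S v) (Rep.res (extArithLoc S v) M)

/-- The local invariants `H⁰(G_v, M)`. -/
noncomputable abbrev locH0 (S : Finset Nat.Primes) (M : Rep (ZMod p) Γℚ) (v : extArithIndex S) :
    Submodule (ZMod p) M :=
  (Rep.res (extArithLoc S v) M).ρ.invariants

/-- The Selmer group of the local conditions `L`: continuous classes unramified outside `S`
whose localisations lie in `L v`. -/
noncomputable def Sel (S : Finset Nat.Primes) (M : Rep (ZMod p) Γℚ)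
    (L : ∀ v : extArithIndex S, Submodule (ZMod p) (H1 (Rep.res (extArithLoc S v) M))) :
    Submodule (ZMod p) (H1 M) :=
  continuousH1S S M ⊓ selmer (extArithLoc S) M L

/-- The family of local pairings at the places of `extArithIndex S` from the pairings at the
primes (the archimedean one is zero: `H¹(G_∞, M) = 0` for `p` odd). -/
noncomputable def pairingOf
    (P : ∀ (q : Nat.Primes) (M : Rep (ZMod p) Γℚ),
      H1 (Rep.res (primeLocalToGlobal q) M) →ₗ[ZMod p]
        H1 (Rep.res (primeLocalToGlobal q) (tateDual p M)) →ₗ[ZMod p] ZMod p)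
    (S : Finset Nat.Primes) (M : Rep (ZMod p) Γℚ) :
    ∀ v : extArithIndex S, H1 (Rep.res (extArithLoc S v) M) →ₗ[ZMod p]
      H1 (Rep.res (extArithLoc S v) (tateDual p M)) →ₗ[ZMod p] ZMod p
  | Sum.inl _ => 0
  | Sum.inr q => P q.1 M

/-- The dual local conditions: the orthogonal complement of `L v` inside the continuous local
`H¹` of the Tate dual. -/
noncomputable def dualCond
    (P : ∀ (q : Nat.Primes) (M : Rep (ZMod p) Γℚ),
      H1 (Rep.res (primeLocalToGlobal q) M) →ₗ[ZMod p]
        H1 (Rep.res (primeLocalToGlobal q) (tateDual p M)) →ₗ[ZMod p] ZMod p)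
    (S : Finset Nat.Primes) (M : Rep (ZMod p) Γℚ)
    (L : ∀ v : extArithIndex S, Submodule (ZMod p) (H1 (Rep.res (extArithLoc S v) M))) :
    ∀ v : extArithIndex S, Submodule (ZMod p) (H1 (Rep.res (extArithLoc S v) (tateDual p M))) :=
  fun v => orthogonal (pairingOf P S M v) (L v) ⊓ locH1 S (tateDual p M) v

variable (p)

/-- **The output of block (B).** -/
structure GWPackage where
  /-- the local Tate pairing at the prime `q` (cup product + invariant map), on the abstract
  `H¹`; only its restriction to continuous classes matters -/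
  pairingAt : ∀ (q : Nat.Primes) (M : Rep (ZMod p) Γℚ),
    H1 (Rep.res (primeLocalToGlobal q) M) →ₗ[ZMod p]
      H1 (Rep.res (primeLocalToGlobal q) (tateDual p M)) →ₗ[ZMod p] ZMod p
  /-- finiteness of the continuous local `H¹` -/
  finite_locH1 : ∀ (S : Finset Nat.Primes), pPrime p ∈ S → ∀ (M : Rep (ZMod p) Γℚ)
    [FiniteDimensional (ZMod p) M], IsGoodModule p S M → ∀ v, Module.Finite (ZMod p) (locH1 S M v)
  /-- finiteness of the global `H¹(G_S, M)` -/
  finite_H1S : ∀ (S : Finset Nat.Primes), pPrime p ∈ S → ∀ (M : Rep (ZMod p) Γℚ)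
    [FiniteDimensional (ZMod p) M], IsGoodModule p S M → Module.Finite (ZMod p) (continuousH1S S M)
  /-- local Tate duality in degree `(1,1)`: right nondegeneracy on continuous classes -/
  nondeg_right : ∀ (S : Finset Nat.Primes) (q : Nat.Primes) (M : Rep (ZMod p) Γℚ)
    [FiniteDimensional (ZMod p) M], IsGoodModule p S M →
    ∀ y ∈ continuousH1 (primeLocalToGlobal q) (Rep.res (primeLocalToGlobal q) (tateDual p M)),
      (∀ x ∈ continuousH1 (primeLocalToGlobal q) (Rep.res (primeLocalToGlobal q) M),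
        pairingAt q M x y = 0) → y = 0
  /-- local Tate duality in degree `(1,1)`: left nondegeneracy on continuous classes -/
  nondeg_left : ∀ (S : Finset Nat.Primes) (q : Nat.Primes) (M : Rep (ZMod p) Γℚ)
    [FiniteDimensional (ZMod p) M], IsGoodModule p S M →
    ∀ x ∈ continuousH1 (primeLocalToGlobal q) (Rep.res (primeLocalToGlobal q) M),
      (∀ y ∈ continuousH1 (primeLocalToGlobal q) (Rep.res (primeLocalToGlobal q) (tateDual p M)),
        pairingAt q M x y = 0) → x = 0
  /-- the archimedean `H¹` vanishes (`p` odd) -/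
  arch : p ≠ 2 → ∀ (S : Finset Nat.Primes) (M : Rep (ZMod p) Γℚ) (u : Unit),
    Subsingleton (H1 (Rep.res (extArithLoc S (Sum.inl u)) M))
  /-- the TAME local Euler characteristic formula at `q ∈ S`, `q ≠ p`:
  `h¹(G_q, M) = h⁰(G_q, M) + h⁰(G_q, M^*(1))` -/
  localEuler_ne : ∀ (S : Finset Nat.Primes) (M : Rep (ZMod p) Γℚ)
    [FiniteDimensional (ZMod p) M], IsGoodModule p S M → ∀ q : S, q.1 ≠ pPrime p →
    finrank (ZMod p) (locH1 S M (Sum.inr q)) =
      finrank (ZMod p) (locH0 S M (Sum.inr q)) +
        finrank (ZMod p) (locH0 S (tateDual p M) (Sum.inr q))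
  /-- **the Greenberg-Wiles inequality** (upper bound for the Selmer group):
  `h¹_L(M) + h⁰(M^*(1)) + ∑_v h⁰(G_v, M) ≤ h¹_{L^⊥}(M^*(1)) + h⁰(M) + ∑_v dim L_v`,
  `v` running over `extArithIndex S = {∞} ⊔ S`. -/
  gw_le : p ≠ 2 → ∀ (S : Finset Nat.Primes), pPrime p ∈ S → ∀ (M : Rep (ZMod p) Γℚ)
    [FiniteDimensional (ZMod p) M], IsGoodModule p S M →
    ∀ L : ∀ v : extArithIndex S, Submodule (ZMod p) (H1 (Rep.res (extArithLoc S v) M)),
    (∀ v, L v ≤ locH1 S M v) →
    finrank (ZMod p) (Sel S M L) + finrank (ZMod p) (tateDual p M).ρ.invariants +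
        ∑ v, finrank (ZMod p) (locH0 S M v) ≤
      finrank (ZMod p) (Sel S (tateDual p M) (dualCond pairingAt S M L)) +
        finrank (ZMod p) M.ρ.invariants + ∑ v, finrank (ZMod p) (L v)

/-- (optional export, NOT needed for `gw_le`) the local Euler characteristic formula at `p`:
`h¹(G_p, M) = h⁰(G_p, M) + h⁰(G_p, M^*(1)) + dim M`. -/
def LocalEulerAtP : Prop :=
  ∀ (S : Finset Nat.Primes) (hpS : pPrime p ∈ S) (M : Rep (ZMod p) Γℚ)
    [FiniteDimensional (ZMod p) M], IsGoodModule p S M →
    finrank (ZMod p) (locH1 S M (Sum.inr ⟨pPrime p, hpS⟩)) =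
      finrank (ZMod p) (locH0 S M (Sum.inr ⟨pPrime p, hpS⟩)) +
        finrank (ZMod p) (locH0 S (tateDual p M) (Sum.inr ⟨pPrime p, hpS⟩)) +
        finrank (ZMod p) M

/-- (MONO) A continuous class unramified outside `S ∪ Q` which is locally trivial at the primes
of `Q` is unramified outside `S` (for `M` unramified outside `S`).  Elementary; part of
block (B)'s deliverables (`S56x/GW/Mono.lean`). -/
def MonoStatement : Prop :=
  ∀ (S Q : Finset Nat.Primes) (M : Rep (ZMod p) Γℚ), IsGoodModule p S M →
    ∀ x ∈ continuousH1S (S ∪ Q) M,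
      (∀ q ∈ Q, (locRes (fun q : Nat.Primes => primeLocalToGlobal q) M q).hom x = 0) →
      x ∈ continuousH1S S M

end Fermat.Agent.S56x.GW
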