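/-
P-S56, block (B) (Greenberg-Wiles), file (F3) of board S56_B_OWNERS (helper34):
the LOCAL fields of `GWPackage p` (`S56x/GW/Interface.lean`), hypothesis-style in the inputs
`B : ∀ q, LocalBase p q` (local Tate duality inputs at every prime) and `I : GlobalInput p S`
(both are produced unconditionally for `p` odd by `S56x/GW/GlobalInputArith.arithGlobalInput`).

* `levH q M n`        : the level cohomology `Hⁿ(G_q, M|G_q)` of the library (all open subgroups);
* `locIota q M`       : `levH q M 1 → H1 (Rep.res (primeLocalToGlobal q) M)`, injective, with range the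
                        Prelude's `continuousH1` (for smooth `M`);
* `pairingAtOf B q M` : the local Tate pairing on the ABSTRACT `H1`'s: a linear retraction onto the
                        continuous classes followed by `lamRes` (cup product + `(B q).inv`);
* `pairingAtOf_locIota` : on continuous classes it IS `lamRes`;
* `nondeg_right_of`, `nondeg_left_of`, `finite_locH1_of`, `finite_H1S_of` : the package fields;
* `LocalBase.exists_inv_eq_smul`, `pairingAtOf_eq_smul` : two inputs `B`, `B'` give pairings which
  differ by a NONZERO scalar at each prime, hence the same orthogonal complements.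
-/
import Fermat.Agent.S56x.GW.Interface
import Fermat.Agent.Lib.CFT.Duality.PoitouTate

set_option autoImplicit false
set_option linter.unusedSectionVars false

open CategoryTheory groupCohomology ExtCitation Module

namespace Fermat.Agent.S56x.GW

open Fermat.Agent.Lib.CFT.Profinite Fermat.Agent.Lib.CFT.Profinite.LevelFamily
open Fermat.Agent.Lib.CFT.Profinite.Bridge
open Fermat.Agent.Lib.CFT.Duality Fermat.Agent.Lib.CFT.Duality.LocalTate
open Fermat.Agent.Lib.CFT.Duality.PoitouTate

local notation "Qbar" => AlgebraicClosure ℚ
local notation "Γℚ" => (AlgebraicClosure ℚ ≃ₐ[ℚ] AlgebraicClosure ℚ)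

variable {p : ℕ} [Fact p.Prime]

/-! ### Level cohomology of the local Galois group and the Prelude's `continuousH1` -/

section Iota

variable (q : Nat.Primes) (M : Rep (ZMod p) Γℚ)

/-- The level cohomology `Hⁿ(G_q, M|G_q)` (levels = all open subgroups of `G_q`). -/
noncomputable abbrev levH (n : ℕ) : Type :=
  (primeLocalLevels q).levelCohomology (Rep.res (primeLocalToGlobal q) M) n

/-- The comparison map from the level `H¹` of `G_q` to the abstract `H¹`. -/
noncomputable def locIota : levH q M 1 →ₗ[ZMod p] H1 (Rep.res (primeLocalToGlobal q) M) :=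
  ((primeLocalLevels q).toGroupCohomology (Rep.res (primeLocalToGlobal q) M) 1).hom

theorem locIota_injective : Function.Injective (locIota q M) :=
  (primeLocalLevels q).toGroupCohomology_one_injective (Rep.res (primeLocalToGlobal q) M)

/-- The level cochains of `G_q` for the pulled back global levels and for all open subgroups
coincide. -/
theorem levelCochains_galLevels_eq_primeLocalLevels (A : Rep (ZMod p) (primeLocalGaloisGroup q))
    (n : ℕ) :
    (galLevels (primeLocalToGlobal q)).levelCochains A n = (primeLocalLevels q).levelCochains A n :=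
  levelCochains_eq_of_mutual (isCompatible_localLevelsP_galLevels q)
    (isCompatible_galLevels_localLevelsP q) A n

/-- The range of the comparison map in degree one does not depend on the choice among the two
mutually cofinal level families of `G_q`. -/
theorem range_toGroupCohomology_galLevels_eq (A : Rep (ZMod p) (primeLocalGaloisGroup q)) :
    LinearMap.range ((galLevels (primeLocalToGlobal q)).toGroupCohomology A 1).hom =
      LinearMap.range ((primeLocalLevels q).toGroupCohomology A 1).hom := by
  ext x
  rw [mem_range_toGroupCohomology_one_iff, mem_range_toGroupCohomology_one_iff]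
  have h := levelCochains_galLevels_eq_primeLocalLevels q A 1
  constructor
  · rintro ⟨c, hc, rfl⟩
    refine ⟨c, ?_, rfl⟩
    have : (fun g : Fin 1 → primeLocalGaloisGroup q => c.1 (g 0)) ∈
        (galLevels (primeLocalToGlobal q)).levelCochains A 1 := hc
    rw [h] at this
    exact this
  · rintro ⟨c, hc, rfl⟩
    refine ⟨c, ?_, rfl⟩
    have : (fun g : Fin 1 → primeLocalGaloisGroup q => c.1 (g 0)) ∈
        (primeLocalLevels q).levelCochains A 1 := hc
    rw [← h] at this
    exact this

variable {M}

/-- **The Prelude's continuous local `H¹` is the image of the level `H¹`** (for smooth `M`). -/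
theorem continuousH1_eq_range_locIota
    (hsm : ∀ m : M, ∃ F : IntermediateField ℚ Qbar, FiniteDimensional ℚ F ∧
      ∀ s ∈ F.fixingSubgroup, M.ρ s m = m) :
    continuousH1 (primeLocalToGlobal q) (Rep.res (primeLocalToGlobal q) M) =
      LinearMap.range (locIota q M) := by
  rw [continuousH1_eq_range (primeLocalToGlobal q) _ (isDiscrete_galLevels_res _ M hsm)]
  exact range_toGroupCohomology_galLevels_eq q _

/-- A smooth module restricted to `G_q` is discrete for the level family of all open subgroups. -/
theorem isDiscrete_res_primeLocal
    (hsm : ∀ m : M, ∃ F : IntermediateField ℚ Qbar, FiniteDimensional ℚ F ∧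
      ∀ s ∈ F.fixingSubgroup, M.ρ s m = m) :
    (primeLocalLevels q).IsDiscrete (Rep.res (primeLocalToGlobal q) M) := by
  intro m
  obtain ⟨U, hU, h⟩ := isDiscrete_galLevels_res (primeLocalToGlobal q) M hsm m
  obtain ⟨U', hU', hle⟩ := isCompatible_localLevelsP_galLevels q U hU
  exact ⟨U', hU', fun s hs => h s (hle hs)⟩

end Iota

/-! ### The pairing on the abstract `H¹` -/

section Pairing

variable (q : Nat.Primes) (M : Rep (ZMod p) Γℚ)

/-- A linear retraction of the abstract `H¹` onto the level `H¹` (coefficients in a field). -/
noncomputable def locRetract : H1 (Rep.res (primeLocalToGlobal q) M) →ₗ[ZMod p] levH q M 1 :=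
  ((locIota q M).exists_leftInverse_of_injective
    (LinearMap.ker_eq_bot.2 (locIota_injective q M))).choose

@[simp]
theorem locRetract_locIota (x : levH q M 1) : locRetract q M (locIota q M x) = x :=
  LinearMap.congr_fun ((locIota q M).exists_leftInverse_of_injective
    (LinearMap.ker_eq_bot.2 (locIota_injective q M))).choose_spec x

variable (B : ∀ q : Nat.Primes, LocalBase p q)

/-- **The local Tate pairing at `q` on the abstract `H¹`'s**: retraction onto the continuous
classes, cup product, invariant map `(B q).inv`. -/
noncomputable def pairingAtOf :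
    H1 (Rep.res (primeLocalToGlobal q) M) →ₗ[ZMod p]
      H1 (Rep.res (primeLocalToGlobal q) (tateDual p M)) →ₗ[ZMod p] ZMod p :=
  (lamRes (r := 1) (cycloChar p) (primeLocalToGlobal q) (primeLocalLevels q) (B q).inv
    (rfl : 1 + 1 = 1 + 1) M).compl₁₂ (locRetract q M) (locRetract q (tateDual p M))

/-- On continuous classes the pairing is the cup product pairing `lamRes` of the library. -/
theorem pairingAtOf_locIota (x : levH q M 1) (y : levH q (tateDual p M) 1) :
    pairingAtOf q M B (locIota q M x) (locIota q (tateDual p M) y) =
      lamRes (r := 1) (cycloChar p) (primeLocalToGlobal q) (primeLocalLevels q) (B q).inv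
        (rfl : 1 + 1 = 1 + 1) M x y := by
  rw [pairingAtOf, LinearMap.compl₁₂_apply, locRetract_locIota, locRetract_locIota]

end Pairing

/-! ### Good modules: discreteness of `M` and of its Tate dual -/

section Good

variable {S : Finset Nat.Primes} {M : Rep (ZMod p) Γℚ}

theorem IsGoodModule.mono {S' : Finset Nat.Primes} (h : S ⊆ S') (hM : IsGoodModule p S M) :
    IsGoodModule p S' M :=
  ⟨hM.smooth, fun q hq A hA g hg => hM.unram q (fun hqS => hq (h hqS)) A hA g hg⟩

theorem IsGoodModule.isDiscrete (hM : IsGoodModule p S M) : (levelsS S).IsDiscrete M :=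
  isDiscrete_levelsS S M hM.smooth hM.unram

theorem IsGoodModule.isDiscrete_tateDual [Finite M] (hM : IsGoodModule p S M)
    (hpS : pPrime p ∈ S) : (levelsS S).IsDiscrete (tateDual p M) :=
  DualTwist.isDiscrete_dualTwist (cycloChar p) (levelsS S) M hM.isDiscrete
    (exists_level_cycloChar_eq_one hpS)

variable (q : Nat.Primes)

/-- A module which is discrete for the `S`-levels is discrete, after restriction to `G_q`, for
the pulled back global levels (`q` ANY prime). -/
theorem isDiscrete_galLevels_res_of_levelsS (hM : (levelsS S).IsDiscrete M) :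
    (galLevels (primeLocalToGlobal q)).IsDiscrete (Rep.res (primeLocalToGlobal q) M) := by
  intro m
  obtain ⟨U, hU, h⟩ := hM m
  obtain ⟨U', hU', hle⟩ := isCompatible_galLevels_levelsS S (primeLocalToGlobal q) U hU
  exact ⟨U', hU', fun s hs => h _ (hle hs)⟩

/-- ... and for the level family of all open subgroups of `G_q`. -/
theorem isDiscrete_primeLocal_res_of_levelsS (hM : (levelsS S).IsDiscrete M) :
    (primeLocalLevels q).IsDiscrete (Rep.res (primeLocalToGlobal q) M) := by
  intro m
  obtain ⟨U, hU, h⟩ := hM m
  obtain ⟨U', hU', hle⟩ := isCompatible_primeLocalLevels S q U hU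
  exact ⟨U', hU', fun s hs => h _ (hle hs)⟩

/-- The Prelude's continuous local `H¹` is the image of the level `H¹`, for modules discrete for
the `S`-levels. -/
theorem continuousH1_eq_range_locIota_of_levelsS (hM : (levelsS S).IsDiscrete M) :
    continuousH1 (primeLocalToGlobal q) (Rep.res (primeLocalToGlobal q) M) =
      LinearMap.range (locIota q M) := by
  rw [continuousH1_eq_range (primeLocalToGlobal q) _ (isDiscrete_galLevels_res_of_levelsS q hM)]
  exact range_toGroupCohomology_galLevels_eq q _

end Good

/-! ### Nondegeneracy on continuous classes -/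

section Nondeg

variable (B : ∀ q : Nat.Primes, LocalBase p q)

/-- local Tate duality in degree `(1,1)` on level classes, for a good module and ANY prime `q`. -/
theorem bijective_lamRes_of_good (S : Finset Nat.Primes) (q : Nat.Primes) (M : Rep (ZMod p) Γℚ)
    [FiniteDimensional (ZMod p) M] (hM : IsGoodModule p S M) :
    Function.Bijective (lamRes (r := 1) (cycloChar p) (primeLocalToGlobal q) (primeLocalLevels q)
      (B q).inv (rfl : 1 + 1 = 1 + 1) M) ∧
    Function.Bijective (lamRes (r := 1) (cycloChar p) (primeLocalToGlobal q) (primeLocalLevels q)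
      (B q).inv (rfl : 2 + 0 = 1 + 1) M) := by
  have : Finite M := Module.finite_of_finite (ZMod p)
  exact (B q).localTate_res M (isDiscrete_primeLocal_res_of_levelsS q hM.isDiscrete)

/-- **Right nondegeneracy** of the local pairing on continuous classes
(the field `GWPackage.nondeg_right`). -/
theorem nondeg_right_of (S : Finset Nat.Primes) (q : Nat.Primes) (M : Rep (ZMod p) Γℚ)
    [FiniteDimensional (ZMod p) M] (hM : IsGoodModule p S M) :
    ∀ y ∈ continuousH1 (primeLocalToGlobal q) (Rep.res (primeLocalToGlobal q) (tateDual p M)),
      (∀ x ∈ continuousH1 (primeLocalToGlobal q) (Rep.res (primeLocalToGlobal q) M),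
        pairingAtOf q M B x y = 0) → y = 0 := by
  have : Finite M := Module.finite_of_finite (ZMod p)
  have hM' : IsGoodModule p (S ∪ {pPrime p}) M := hM.mono Finset.subset_union_left
  have hpS : pPrime p ∈ S ∪ {pPrime p} :=
    Finset.mem_union_right _ (Finset.mem_singleton_self _)
  intro y hy h
  rw [continuousH1_eq_range_locIota_of_levelsS q (hM'.isDiscrete_tateDual hpS)] at hy
  obtain ⟨y₀, rfl⟩ := hy
  have hsurj := (bijective_lamRes_of_good B S q M hM).1.2
  have hy₀ : y₀ = 0 := by
    refine (Module.forall_dual_apply_eq_zero_iff (ZMod p) y₀).1 fun ψ => ?_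
    obtain ⟨x₀, rfl⟩ := hsurj ψ
    rw [← pairingAtOf_locIota]
    refine h _ ?_
    rw [continuousH1_eq_range_locIota_of_levelsS q hM'.isDiscrete]
    exact ⟨x₀, rfl⟩
  rw [hy₀, map_zero]

/-- **Left nondegeneracy** of the local pairing on continuous classes
(the field `GWPackage.nondeg_left`). -/
theorem nondeg_left_of (S : Finset Nat.Primes) (q : Nat.Primes) (M : Rep (ZMod p) Γℚ)
    [FiniteDimensional (ZMod p) M] (hM : IsGoodModule p S M) :
    ∀ x ∈ continuousH1 (primeLocalToGlobal q) (Rep.res (primeLocalToGlobal q) M),
      (∀ y ∈ continuousH1 (primeLocalToGlobal q) (Rep.res (primeLocalToGlobal q) (tateDual p M)),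
        pairingAtOf q M B x y = 0) → x = 0 := by
  have : Finite M := Module.finite_of_finite (ZMod p)
  have hM' : IsGoodModule p (S ∪ {pPrime p}) M := hM.mono Finset.subset_union_left
  have hpS : pPrime p ∈ S ∪ {pPrime p} :=
    Finset.mem_union_right _ (Finset.mem_singleton_self _)
  intro x hx h
  rw [continuousH1_eq_range_locIota_of_levelsS q hM'.isDiscrete] at hx
  obtain ⟨x₀, rfl⟩ := hx
  have hinj := (bijective_lamRes_of_good B S q M hM).1.1
  have hx₀ : x₀ = 0 := by
    apply hinj
    rw [map_zero]
    refine LinearMap.ext fun y₀ => ?_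
    rw [← pairingAtOf_locIota, LinearMap.zero_apply]
    refine h _ ?_
    rw [continuousH1_eq_range_locIota_of_levelsS q (hM'.isDiscrete_tateDual hpS)]
    exact ⟨y₀, rfl⟩
  rw [hx₀, map_zero]

end Nondeg

/-! ### Finiteness -/

section Finiteness

/-- `H¹` of a finite group with coefficients in a finite module is finite. -/
theorem finite_H1_of_finite {k G : Type} [CommRing k] [Group G] [Finite G] (A : Rep k G)
    [Finite A] : Finite (H1 A) := by
  have hsurj : Function.Surjective (H1π A).hom :=
    (ModuleCat.epi_iff_surjective (H1π A)).1 inferInstance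
  have : Finite (cocycles₁ A) :=
    Finite.of_injective (fun c : cocycles₁ A => (c.1 : G → A)) Subtype.val_injective
  exact Finite.of_surjective _ hsurj

/-- The archimedean local `H¹` is finite. -/
theorem finite_continuousH1_arch (M : Rep (ZMod p) Γℚ) [Finite M] :
    Module.Finite (ZMod p) (continuousH1 archimedeanLoc (Rep.res archimedeanLoc M)) := by
  have : Finite (Rep.res archimedeanLoc M) := ‹Finite M›
  have : Finite (H1 (Rep.res archimedeanLoc M)) := finite_H1_of_finite _
  have : Module.Finite (ZMod p) (H1 (Rep.res archimedeanLoc M)) := Module.Finite.of_finite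
  infer_instance

/-- **Finiteness of the continuous local `H¹`** (the field `GWPackage.finite_locH1`). -/
theorem finite_locH1_of (B : ∀ q : Nat.Primes, LocalBase p q) (S : Finset Nat.Primes) (_hpS : pPrime p ∈ S) (M : Rep (ZMod p) Γℚ)
    [FiniteDimensional (ZMod p) M] (hM : IsGoodModule p S M) (v : extArithIndex S) :
    Module.Finite (ZMod p) (locH1 S M v) := by
  have : Finite M := Module.finite_of_finite (ZMod p)
  rcases v with u | q
  · exact finite_continuousH1_arch M
  · show Module.Finite (ZMod p)
      (continuousH1 (primeLocalToGlobal q.1) (Rep.res (primeLocalToGlobal q.1) M))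
    rw [continuousH1_eq_range_locIota_of_levelsS q.1 hM.isDiscrete]
    have : Finite (Rep.res (primeLocalToGlobal q.1) M) := ‹Finite M›
    have := ((B q.1).finite (Rep.res (primeLocalToGlobal q.1) M)
      (isDiscrete_primeLocal_res_of_levelsS q.1 hM.isDiscrete)).1
    exact Module.Finite.range (locIota q.1 M)

/-- **Finiteness of `H¹(G_S, M)`** (the field `GWPackage.finite_H1S`). -/
theorem finite_H1S_of (S : Finset Nat.Primes) (I : GlobalInput p S) (M : Rep (ZMod p) Γℚ)
    [FiniteDimensional (ZMod p) M] (hM : IsGoodModule p S M) :
    Module.Finite (ZMod p) (continuousH1S S M) := by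
  have : Finite M := Module.finite_of_finite (ZMod p)
  rw [continuousH1S_eq_range S M hM.isDiscrete]
  have : Module.Finite (ZMod p) ((levelsS S).levelCohomology M 1) := I.fin M hM.isDiscrete
  exact Module.Finite.range ((levelsS S).toGroupCohomology M 1).hom

end Finiteness

end Fermat.Agent.S56x.GW
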