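/-
helper89.  P-S56, block (B): `MonoStatement p` of `S56x/GW/Interface.lean`.

A continuous class `x ∈ H¹(G_ℚ, M)` unramified outside `S ∪ Q` which is locally trivial at the
primes of `Q` is unramified outside `S` (for `M` unramified outside `S`).

Design: for a cocycle `c`, `cocycleKer c := {h | c h = 0}` is a subgroup and `c` is constant on its
left cosets.  If `c` is constant modulo `F.fixingSubgroup` (`F/ℚ` finite) and `cocycleKer c`
contains the inertia groups at all places over all primes outside `S`, then `c` is constant modulo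
the fixing subgroup of the fixed field of `cocycleKer c`, which is finite and unramified outside
`S` (`isLevelConstantS₁_of_inertia_le`).  The local triviality at `q` gives the vanishing of `c` on
the inertia group of `padicPlace q` (density of the local Galois group in the decomposition group,
`Cheb/DecompDense.lean`), and conjugation gives the other places over `q`.
-/
import Mathlib
import Fermat.Agent.S56x.GW.Interface
import Fermat.Agent.S56x.Cheb.ValConj
import Fermat.Agent.S56x.Cheb.DecompDense
import Fermat.Agent.S48x.Lift.Place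

set_option autoImplicit false

open CategoryTheory groupCohomology ExtCitation

open scoped Pointwise

namespace Fermat.Agent.S56x.GW

open Fermat.Agent.Lib Fermat.Agent.Lib.CFT.Profinite.Bridge Fermat.Agent.S56x.Cheb

local notation "Qbar" => AlgebraicClosure ℚ
local notation "Γℚ" => (AlgebraicClosure ℚ ≃ₐ[ℚ] AlgebraicClosure ℚ)

/-! ### The kernel subgroup of a cocycle -/

section Abstract

variable {k G : Type} [CommRing k] [Group G] {M : Rep k G}

/-- The subgroup on which a `1`-cocycle vanishes. -/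
def cocycleKer (c : cocycles₁ M) : Subgroup G where
  carrier := {h | c h = 0}
  one_mem' := cocycles₁_map_one c
  mul_mem' {a b} ha hb := by
    show c (a * b) = 0
    have ha' : c a = 0 := ha
    have hb' : c b = 0 := hb
    rw [(mem_cocycles₁_iff c).1 c.2 a b, ha', hb', map_zero, add_zero]
  inv_mem' {a} ha := by
    show c a⁻¹ = 0
    have ha' : c a = 0 := ha
    have h1 := cocycles₁_map_inv c a
    rw [ha', neg_zero] at h1
    have h2 := congrArg (M.ρ a⁻¹) h1
    rw [← Module.End.mul_apply, ← map_mul, inv_mul_cancel, map_one, Module.End.one_apply,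
      map_zero] at h2
    exact h2

theorem mem_cocycleKer_iff (c : cocycles₁ M) (h : G) : h ∈ cocycleKer c ↔ c h = 0 := Iff.rfl

/-- A cocycle is constant on the left cosets of its kernel subgroup. -/
theorem cocycle_mul_of_mem_cocycleKer (c : cocycles₁ M) (g : G) {s : G} (hs : s ∈ cocycleKer c) :
    c (g * s) = c g := by
  have hs' : c s = 0 := hs
  rw [(mem_cocycles₁_iff c).1 c.2 g s, hs', map_zero, zero_add]

/-- If `c` vanishes at `ι`, and `ι` acts trivially, then `c` vanishes at every conjugate of `ι`. -/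
theorem cocycle_conj_eq_zero (c : cocycles₁ M) (τ ι : G) (hι : c ι = 0) (hρ : M.ρ ι = 1) :
    c (τ * ι * τ⁻¹) = 0 := by
  have hc := (mem_cocycles₁_iff c).1 c.2
  rw [hc (τ * ι) τ⁻¹, hc τ ι, hι, map_zero, zero_add, map_mul, hρ, mul_one,
    cocycles₁_map_inv c τ, neg_add_cancel]

/-- The restriction of the class of `c` along `f` vanishes iff the restricted cocycle is a
coboundary. -/
theorem exists_of_map_H1π_eq_zero {k G H : Type} [Field k] [Group G] [Group H] (f : H →* G)
    (M : Rep k G) (c : cocycles₁ M)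
    (h0 : (groupCohomology.map f (𝟙 (Rep.res f M)) 1).hom ((H1π M).hom c) = 0) :
    ∃ m : M, ∀ h : H, c (f h) = M.ρ (f h) m - m := by
  have h1 : (groupCohomology.map f (𝟙 (Rep.res f M)) 1).hom ((H1π M).hom c) =
      (H1π (Rep.res f M)).hom ((mapCocycles₁ f (𝟙 (Rep.res f M))).hom c) :=
    H1π_comp_map_apply f (𝟙 (Rep.res f M)) c
  rw [h1] at h0
  obtain ⟨m, hm⟩ := (H1π_eq_zero_iff _).mp h0
  refine ⟨m, fun h => ?_⟩
  have h3 := congr_fun hm h
  simp only [d₀₁_hom_apply] at h3
  have h4 : ((mapCocycles₁ f (𝟙 (Rep.res f M))).hom c) h = c (f h) := rfl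
  rw [h4] at h3
  exact h3.symm

end Abstract

/-! ### From vanishing on inertia to unramifiedness of the level -/

section Level

local instance isAlgebraicQbar_mono : Algebra.IsAlgebraic ℚ (AlgebraicClosure ℚ) :=
  AlgebraicClosure.isAlgebraic ℚ
local instance isAlgClosureQbar_mono : IsAlgClosure ℚ (AlgebraicClosure ℚ) :=
  ⟨inferInstance, inferInstance⟩
local instance normalQbar_mono : Normal ℚ (AlgebraicClosure ℚ) :=
  IsAlgClosure.normal ℚ (AlgebraicClosure ℚ)
local instance isGaloisQbar_mono : IsGalois ℚ (AlgebraicClosure ℚ) := ⟨⟩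

variable {k : Type} [CommRing k] {M : Rep k Γℚ}

/-- If the cocycle `c` is constant modulo `F.fixingSubgroup` (`F/ℚ` finite) and vanishes on the
inertia groups of all places over all primes outside `S`, then it is level-constant for a level
field unramified outside `S`. -/
theorem isLevelConstantS₁_of_inertia_le (S : Finset Nat.Primes) (c : cocycles₁ M)
    (F : IntermediateField ℚ Qbar) [FiniteDimensional ℚ F]
    (hF : ∀ g s : Γℚ, s ∈ F.fixingSubgroup → c (g * s) = c g)
    (hI : ∀ q : Nat.Primes, q ∉ S → ∀ A : ValuationSubring Qbar, A.LiesOverPrime (q : ℕ) →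
      ∀ ι ∈ A.inertiaSubgroupIn ℚ, c ι = 0) :
    IsLevelConstantS₁ S c := by
  set Z : Subgroup Γℚ := cocycleKer c with hZ
  have hFZ : F.fixingSubgroup ≤ Z := by
    intro s hs
    rw [hZ, mem_cocycleKer_iff]
    have := hF 1 s hs
    rwa [one_mul, cocycles₁_map_one] at this
  have hZopen : IsOpen (Z : Set Γℚ) :=
    Subgroup.isOpen_mono hFZ F.fixingSubgroup_isOpen
  have hZclosed : IsClosed (Z : Set Γℚ) := Subgroup.isClosed_of_isOpen Z hZopen
  let Zc : ClosedSubgroup Γℚ := ⟨Z, hZclosed⟩
  set F' : IntermediateField ℚ Qbar := IntermediateField.fixedField Z with hF'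
  have hfix : F'.fixingSubgroup = Z := InfiniteGalois.fixingSubgroup_fixedField Zc
  have hle : F' ≤ F := by
    have h1 : IntermediateField.fixedField F.fixingSubgroup = F :=
      InfiniteGalois.fixedField_fixingSubgroup F
    rw [← h1]
    exact IntermediateField.fixedField_antitone hFZ
  have hfd : FiniteDimensional ℚ F' :=
    FiniteDimensional.of_injective (IntermediateField.inclusion hle).toLinearMap
      (IntermediateField.inclusion_injective hle)
  refine ⟨F', ⟨hfd, fun q hq A hA ι hι => ?_⟩, fun g s hs => ?_⟩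
  · rw [hfix, hZ, mem_cocycleKer_iff]
    exact hI q hq A hA ι hι
  · rw [hfix] at hs
    exact cocycle_mul_of_mem_cocycleKer c g hs

end Level

/-! ### Local triviality kills the cocycle on inertia -/

section Main

variable {k : Type} [Field k]

/-- If the class of `c` restricts to zero on the local Galois group at `q`, `M` is unramified at
`q` and smooth, then `c` vanishes on the inertia group of the `q`-adic place `padicPlace q`. -/
theorem cocycle_inertia_padicPlace_eq_zero (q : Nat.Primes) [Fact (q : ℕ).Prime]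
    (M : Rep k Γℚ) (c : cocycles₁ M)
    (F : IntermediateField ℚ Qbar) [FiniteDimensional ℚ F]
    (hF : ∀ g s : Γℚ, s ∈ F.fixingSubgroup → c (g * s) = c g)
    (hsm : ∀ m : M, ∃ F' : IntermediateField ℚ Qbar, FiniteDimensional ℚ F' ∧
      ∀ s ∈ F'.fixingSubgroup, M.ρ s m = m)
    (hres : (locRes (fun q : Nat.Primes => primeLocalToGlobal q) M q).hom ((H1π M).hom c) = 0)
    (hur : ∀ ι ∈ (padicPlace (q : ℕ)).inertiaSubgroupIn ℚ, M.ρ ι = 1) :
    ∀ ι ∈ (padicPlace (q : ℕ)).inertiaSubgroupIn ℚ, c ι = 0 := by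
  intro ι hι
  obtain ⟨m, hm⟩ := exists_of_map_H1π_eq_zero (primeLocalToGlobal q) M c hres
  obtain ⟨Fm, hFmfd, hFm⟩ := hsm m
  have := hFmfd
  have : FiniteDimensional ℚ (F ⊔ Fm : IntermediateField ℚ Qbar) :=
    IntermediateField.finiteDimensional_sup F Fm
  have hdec : ι ∈ (padicPlace (q : ℕ)).decompositionSubgroup ℚ :=
    ((mem_inertiaSubgroupIn_iff _ ι).mp hι).1
  obtain ⟨h, s, hs, hιs⟩ := exists_local_mul_of_mem_decomposition (q : ℕ) (F ⊔ Fm) ι hdec
  have hsF : s ∈ F.fixingSubgroup := IntermediateField.fixingSubgroup_antitone le_sup_left hs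
  have hsFm : s ∈ Fm.fixingSubgroup := IntermediateField.fixingSubgroup_antitone le_sup_right hs
  have hloc : localGaloisToGlobal (q : ℕ) h = ι * s⁻¹ := by
    rw [hιs]; group
  have h1 : c ι = c (localGaloisToGlobal (q : ℕ) h) := by
    rw [hιs, hF _ s hsF]
  have h2 : c (localGaloisToGlobal (q : ℕ) h) =
      M.ρ (localGaloisToGlobal (q : ℕ) h) m - m := hm h
  have h3 : M.ρ (localGaloisToGlobal (q : ℕ) h) m = m := by
    rw [hloc, map_mul, Module.End.mul_apply, hFm s⁻¹ (inv_mem hsFm), hur ι hι,
      Module.End.one_apply]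
  rw [h1, h2, h3, sub_self]

variable (p : ℕ) [Fact p.Prime]

/-- **(MONO)** -/
theorem monoStatement : MonoStatement p := by
  intro S Q M hM x hx hloc
  obtain ⟨c, ⟨F, hFur, hFc⟩, rfl⟩ := (mem_continuousH1S_iff _ M x).1 hx
  have := hFur.1
  rw [mem_continuousH1S_iff]
  refine ⟨c, isLevelConstantS₁_of_inertia_le S c F hFc ?_, rfl⟩
  intro q hq A hA ι hι
  by_cases hqQ : q ∈ Q
  · have : Fact (q : ℕ).Prime := ⟨q.2⟩
    have hA₀ := Fermat.Agent.S48x.Lift.padicPlace_liesOverPrime (q : ℕ)
    have h0 := cocycle_inertia_padicPlace_eq_zero q M c F hFc hM.smooth (hloc q hqQ)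
      (fun ι hι => hM.unram q hq (padicPlace (q : ℕ)) hA₀ ι hι)
    have := Fermat.Agent.Lib.isGalois_algebraicClosure_rat
    obtain ⟨τ, hτ⟩ := exists_smul_eq_of_liesOverPrime q.2 (padicPlace (q : ℕ)) A hA₀ hA
    rw [← hτ, mem_inertiaSubgroupIn_smul_iff] at hι
    have h1 := h0 _ hι
    have h2 := cocycle_conj_eq_zero c τ (τ⁻¹ * ι * τ) h1
      (hM.unram q hq _ hA₀ _ hι)
    have h3 : τ * (τ⁻¹ * ι * τ) * τ⁻¹ = ι := by group
    rwa [h3] at h2
  · have hq' : q ∉ S ∪ Q := by
      rw [Finset.mem_union, not_or]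
      exact ⟨hq, hqQ⟩
    have h1 := hFc 1 ι (hFur.2 q hq' A hA hι)
    rwa [one_mul, cocycles₁_map_one] at h1

end Main

end Fermat.Agent.S56x.GW
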