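import Fermat.Agent.Lib.CFT.Duality.BaseCase.S55Main
import Fermat.Agent.Lib.CFT.Global.SVersion.LocalGlobal

/-!
# P-S56 block (B): the unconditional global duality input `GlobalInput p S` (helper87)

`arithGlobalInput hp2 S hpS : PoitouTate.GlobalInput p S` for an odd prime `p ∈ S`: the input
structure of the final assembly of `Lib/CFT/Duality/PoitouTate.lean` (global trace `tr`, local
Tate inputs `loc`, their compatibility `tr_ofLocal`, `H³ = 0`, finiteness of `H¹`, and the two base
cases of global duality), assembled from the landed L3 theorems exactly as in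
`GlobalBase.s55_of_L3`/`s55_of_hH` (frozen S55 closure, import-only).

With it every theorem of `Lib/CFT/Duality` taking `(I : GlobalInput p S)` is unconditional:
`GlobalInput.beta_bijective` (global duality `β⁰ : H²_c(M) ≃ H¹(M')^∨`, `β¹ : H³_c(M) ≃ H⁰(M')^∨`),
`GlobalInput.finrank_shaLevel`, `beta0_HcOfLocal`, `bijective_lamLoc_arith` (via `I.loc`), ….
-/

set_option autoImplicit false

open CategoryTheory Fermat.Agent.Lib.CFT.Profinite

namespace Fermat.Agent.S56x.GW

open Fermat.Agent.Lib.CFT.Duality Fermat.Agent.Lib.CFT.Duality.GlobalBase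
open KCalc KCalcCup ChangeRing DevissageRep PVCalc KDatumPV
open Fermat.Agent.Lib.CFT.Profinite.LES ExtCitation Fermat.Agent.Lib.CFT.Profinite.Bridge
open Fermat.Agent.Lib.CFT.Duality.LocalBase Fermat.Agent.Lib.CFT.Global.SVersion
open Fermat.Agent.Lib.CFT.Duality.LocalTate Fermat.Agent.Lib.CFT.Duality.PoitouTate
open Fermat.Agent.Lib.CFT.Duality.ArithKDatum Fermat.Agent.Lib.CFT.Duality.GlobalBase.PFormBridge
open Fermat.Agent.Lib.CFT.Global.SVersion.Formation
open Fermat.Agent.Lib.CFT.Global.SVersion.FormationOfLayers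
open Fermat.Agent.Lib.CFT.Duality.FormationT

local notation "Qbar" => AlgebraicClosure ℚ
local notation "Γℚ" => (AlgebraicClosure ℚ ≃ₐ[ℚ] AlgebraicClosure ℚ)

/-- The invariant map `T²(G_S, C_S) → ZMod p` of the `S`-class formation with the landed layer
data `FormationMain.layerData_CS S`. -/
noncomputable abbrev invTMain (S : Finset Nat.Primes) (p : ℕ) [Fact p.Prime] :
    T (arithDatum S).𝒰 p (CS S) 2 →+ ZMod p :=
  arithInvT S p (FormationMain.layerData_CS S)

/-- **The unconditional `P`-form contract** for the arithmetic datum `arithDatum S`, the mod `p`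
cyclotomic character and the zigzag datum `arithKDatum S p hpS` (`p` odd, `p ∈ S`). -/
noncomputable def arithPFormMain {p : ℕ} [Fact p.Prime] (hp2 : p ≠ 2) (S : Finset Nat.Primes)
    (hpS : pPrime p ∈ S) :
    PForm (arithDatum S) (cycloChar p) (arithKDatum S p hpS) :=
  let hdata := FormationMain.layerData_CS S
  let hV := SemiLocalMain.vform S p hpS hp2
  let hWF := Fermat.Agent.Lib.CFT.Global.ExistenceOpen.wfields_arithDatum p hdata hpS
  arithPForm S p hpS (cycloChar p) (invTMain S p) (PFormSemi.semi₀ hV)
    (ArithLG.arith_hLG S p hpS (invTMain S p)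
      (invG_injective (formationQOf S hdata) (levelsS S) (isCompatible_galFamily_levelsS S)
        (isCompatible_levelsS_galFamily S) p)
      (ArithLG.arith_h90 S p hpS)
      (Fermat.Agent.Lib.CFT.Global.SVersion.LocalGlobal.arith_hH S p hpS hp2))
    (PFormSemi.semi_of_le_ker hV (cycloChar p))
    (WFields.hinv_all (arithDatum S) (cycloChar p) (invTMain S p) hWF)
    (WFields.fin_all (arithDatum S) (cycloChar p) (invTMain S p) hWF)
    (WFields.hleft_all (arithDatum S) (cycloChar p) (invTMain S p) hWF)
    (WFields.hright_all (arithDatum S) (cycloChar p) (invTMain S p) hWF)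

/-- **The unconditional input of global duality** `GlobalInput p S` (`p` odd, `p ∈ S`). -/
noncomputable def arithGlobalInput {p : ℕ} [Fact p.Prime] (hp2 : p ≠ 2) (S : Finset Nat.Primes)
    (hpS : pPrime p ∈ S) : GlobalInput p S :=
  (arithPFormMain hp2 S hpS).toGlobalInput (Iso.refl _)
    (fun q W hχ hW => LocalModPArith.modPLocal_primeLocal q.1 p W hχ hW) hpS

end Fermat.Agent.S56x.GW
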