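import Fermat.Agent.S56x.GW.PackageOfEC
import Fermat.Agent.S56x.Euler.ECFinal

/-!
# P-S56, block (B): the Greenberg–Wiles package, UNCONDITIONAL

(helper87.)  `gwPackage hp2 : GWPackage p` for every odd prime `p`: the plug of the unconditional
global Euler characteristic formula `Euler/ECFinal.exists_tateEulerC` into
`GW/PackageOfEC.gwPackageOfEC` (which already contains the unramified family
`GW/UnramFamilyMain.unramFamily` and the tame local Euler characteristic formula
`Local/EulerTameFinal.localEuler_ne`).  No hypothesis is left in block (B).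
-/

set_option autoImplicit false

open CategoryTheory groupCohomology ExtCitation Module

namespace Fermat.Agent.S56x.GW.PackageFinal

open Fermat.Agent.S56x.GW

open Fermat.Agent.Lib.CFT.Profinite Fermat.Agent.Lib.CFT.Profinite.LevelFamily
open Fermat.Agent.Lib.CFT.Profinite.Bridge

local notation "Qbar" => AlgebraicClosure ℚ
local notation "Γℚ" => (AlgebraicClosure ℚ ≃ₐ[ℚ] AlgebraicClosure ℚ)

variable {p : ℕ} [Fact p.Prime]

/-- **Tate's global Euler characteristic formula after enlarging `S`** (the input `hEC`). -/
theorem hEC_std (hp2 : p ≠ 2) :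
    ∀ (S : Finset Nat.Primes), pPrime p ∈ S → ∀ (M : Rep.{0} (ZMod p) Γℚ) [Finite M],
      (levelsS S).IsDiscrete M → ∃ T : Finset Nat.Primes, S ⊆ T ∧ TateEulerC T M :=
  fun S hpS M _ hM => Fermat.Agent.S56x.Euler.ECFinal.exists_tateEulerC hp2 S hpS M hM

/-- **The two counting statements of block (B), unconditional.** -/
theorem gwRest (hp2 : p ≠ 2) : GWRest hp2 :=
  gwRest_of_EC hp2 (hEC_std hp2)

/-- **The Greenberg–Wiles package of block (B), unconditional** (`p` odd). -/
noncomputable def gwPackage (hp2 : p ≠ 2) : GWPackage p :=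
  gwPackageOfEC hp2 (hEC_std hp2)

@[simp]
theorem gwPackage_pairingAt (hp2 : p ≠ 2) : (gwPackage hp2).pairingAt = pairingStd hp2 := rfl

end Fermat.Agent.S56x.GW.PackageFinal
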