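import Fermat.Agent.S56x.GW.Abstract
import Fermat.Agent.Lib.CFT.Duality.PoitouTate

/-!
# P-S56 block (B): the Greenberg–Wiles formula on the arithmetic datum (level cohomology)

(helper87.)  Instantiation of the linear algebra of `S56x/GW/Abstract.lean` (helper34) at the cone
long exact sequence of `D = arithDatum S` (`Lib/CFT/Duality/Cone.lean`), global duality
(`GlobalInput.beta_bijective`) and local Tate duality in product form (`bijective_lamLoc_arith`),
for an input `I : GlobalInput p S` (unconditional: `S56x/GW/GlobalInputArith.arithGlobalInput`).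

`M` is a finite discrete `𝔽_p[G_S]`-module, `M' = M.dualTwist (cycloChar p)`; `L ≤ P¹(M) =
∏_{q ∈ S} H¹(G_q, M)` is an arbitrary subspace (local conditions), `L^⊥ ≤ P¹(M')` its orthogonal
under the sum of the local Tate pairings.

* `finite_*`            : finiteness of all the groups involved;
* `selmer_sub_dualSelmer_level` : `dim H¹_L(M) - dim H¹_{L^⊥}(M') = h¹ - h² - h⁰(M') + dim L - p¹ + p²`;
* `greenbergWiles_level` : if moreover `χ_c(M) := ∑ (-1)^i dim Hⁱ_c(M) = a`, then
  `dim H¹_L(M) - dim H¹_{L^⊥}(M') = h⁰(M) - h⁰(M') + dim L - p⁰ - a`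
  (Tate's global Euler characteristic formula is `a = dim M^{c = 1}` for `p` odd).
-/

set_option autoImplicit false

open CategoryTheory groupCohomology Module

namespace Fermat.Agent.S56x.GW

open Fermat.Agent.Lib.CFT.Profinite Fermat.Agent.Lib.CFT.Profinite.LevelFamily ExtCitation
open Fermat.Agent.Lib.CFT.Profinite.Bridge
open Fermat.Agent.Lib.CFT.Duality Fermat.Agent.Lib.CFT.Duality.LocalTate
open Fermat.Agent.Lib.CFT.Duality.GlobalDuality Fermat.Agent.Lib.CFT.Duality.PoitouTate

local notation "Γℚ" => (AlgebraicClosure ℚ ≃ₐ[ℚ] AlgebraicClosure ℚ)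

variable {p : ℕ} [Fact p.Prime] {S : Finset Nat.Primes}

/-- The sum of the local Tate pairings `P¹(M) × P¹(M') → 𝔽_p`. -/
noncomputable abbrev locPairing (I : GlobalInput p S) (M : Rep (ZMod p) Γℚ) :
    (arithDatum S).locH M 1 →ₗ[ZMod p]
      (arithDatum S).locH (M.dualTwist (cycloChar p)) 1 →ₗ[ZMod p] ZMod p :=
  lamLoc (arithDatum S) (cycloChar p) (arithInv S I.loc) (rfl : 1 + 1 = 1 + 1) M

/-- The Selmer group of `M` cut out by the subspace `L ≤ P¹(M)`. -/
noncomputable abbrev selmerLevel (M : Rep (ZMod p) Γℚ) (L : Submodule (ZMod p) ((arithDatum S).locH M 1)) :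
    Submodule (ZMod p) ((arithDatum S).𝒰.levelCohomology M 1) :=
  L.comap ((arithDatum S).locMapH M 1)

/-- The dual Selmer group of `M' = M^*(1)` cut out by the orthogonal complement of `L`. -/
noncomputable abbrev dualSelmerLevel (I : GlobalInput p S) (M : Rep (ZMod p) Γℚ)
    (L : Submodule (ZMod p) ((arithDatum S).locH M 1)) :
    Submodule (ZMod p) ((arithDatum S).𝒰.levelCohomology (M.dualTwist (cycloChar p)) 1) :=
  (orthR (locPairing I M) L).comap ((arithDatum S).locMapH (M.dualTwist (cycloChar p)) 1)

section Finite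

variable (I : GlobalInput p S) (hpS : pPrime p ∈ S) (M : Rep (ZMod p) Γℚ) [Finite M]
  (hM : (arithDatum S).𝒰.IsDiscrete M)

include hpS hM in
theorem isDiscrete_dualTwist' : (arithDatum S).𝒰.IsDiscrete (M.dualTwist (cycloChar p)) :=
  DualTwist.isDiscrete_dualTwist (cycloChar p) (arithDatum S).𝒰 M hM
    (exists_level_cycloChar_eq_one hpS)

instance finite_dualTwist' : Finite (M.dualTwist (cycloChar p)) :=
  DualTwist.finite_dualTwist (cycloChar p) _

/-- `H⁰(G_S, M)` is finite. -/
theorem finite_H0 : Module.Finite (ZMod p) ((arithDatum S).𝒰.levelCohomology M 0) := by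
  have : Module.Finite (ZMod p) M := Module.Finite.of_finite
  exact Module.Finite.equiv ((arithDatum S).𝒰.H0Equiv M).symm

/-- `P⁰(M) = ∏ H⁰(G_q, M)` is finite. -/
theorem finite_P0 : Module.Finite (ZMod p) ((arithDatum S).locH M 0) := by
  have : Module.Finite (ZMod p) M := Module.Finite.of_finite
  have : ∀ v : (arithDatum S).ι, Module.Finite (ZMod p)
      (((arithDatum S).𝒱 v).levelCohomology ((arithDatum S).resRep M v) 0) := fun v =>
    Module.Finite.equiv (((arithDatum S).𝒱 v).H0Equiv ((arithDatum S).resRep M v)).symm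
  exact Module.Finite.pi

/-- A module in the middle of an exact sequence `A → B → C` with `A`, `C` finite is finite. -/
theorem finite_of_exact {k A B C : Type*} [Field k] [AddCommGroup A] [Module k A]
    [AddCommGroup B] [Module k B] [AddCommGroup C] [Module k C] [Module.Finite k A]
    [Module.Finite k C] (f : A →ₗ[k] B) (g : B →ₗ[k] C) (h : Function.Exact f g) :
    Module.Finite k B := by
  have h1 : Module.Finite k (LinearMap.ker g) := by
    rw [LinearMap.exact_iff.mp h]
    exact Module.Finite.range f
  have h2 : Module.Finite k (B ⧸ LinearMap.ker g) :=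
    Module.Finite.equiv g.quotKerEquivRange.symm
  exact Module.Finite.of_submodule_quotient (LinearMap.ker g)

/-- Rank-nullity along an exact sequence `A → B → C`. -/
theorem finrank_mid {k A B C : Type*} [Field k] [AddCommGroup A] [Module k A]
    [AddCommGroup B] [Module k B] [AddCommGroup C] [Module k C] [Module.Finite k B]
    (f : A →ₗ[k] B) (g : B →ₗ[k] C) (h : Function.Exact f g) :
    finrank k B = finrank k (LinearMap.range f) + finrank k (LinearMap.range g) := by
  have := LinearMap.finrank_range_add_finrank_ker g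
  rw [LinearMap.exact_iff.mp h] at this
  omega

include I hpS hM in
/-- `H²_c(M)` is finite. -/
theorem finite_Hc2 : Module.Finite (ZMod p) ((arithDatum S).Hc M 2) := by
  have hM' := isDiscrete_dualTwist' hpS M hM
  have : Module.Finite (ZMod p)
      ((arithDatum S).𝒰.levelCohomology (M.dualTwist (cycloChar p)) 1) := I.fin _ hM'
  exact Module.Finite.equiv (LinearEquiv.ofBijective _ (I.beta_bijective hpS M hM).1).symm

include I hpS hM in
/-- `H³_c(M)` is finite. -/
theorem finite_Hc3 : Module.Finite (ZMod p) ((arithDatum S).Hc M (2 + 1)) := by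
  have : Module.Finite (ZMod p)
      ((arithDatum S).𝒰.levelCohomology (M.dualTwist (cycloChar p)) 0) := finite_H0 _
  exact Module.Finite.equiv (LinearEquiv.ofBijective _ (I.beta_bijective hpS M hM).2).symm

include I hpS hM in
/-- `dim H²_c(M) = dim H¹(G_S, M')`. -/
theorem finrank_Hc2 : finrank (ZMod p) ((arithDatum S).Hc M 2) =
    finrank (ZMod p) ((arithDatum S).𝒰.levelCohomology (M.dualTwist (cycloChar p)) 1) := by
  have hM' := isDiscrete_dualTwist' hpS M hM
  have : Module.Finite (ZMod p)
      ((arithDatum S).𝒰.levelCohomology (M.dualTwist (cycloChar p)) 1) := I.fin _ hM'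
  rw [(LinearEquiv.ofBijective _ (I.beta_bijective hpS M hM).1).finrank_eq,
    Subspace.dual_finrank_eq]

include I hpS hM in
/-- `dim H³_c(M) = dim H⁰(G_S, M')`. -/
theorem finrank_Hc3 : finrank (ZMod p) ((arithDatum S).Hc M (2 + 1)) =
    finrank (ZMod p) ((arithDatum S).𝒰.levelCohomology (M.dualTwist (cycloChar p)) 0) := by
  have : Module.Finite (ZMod p)
      ((arithDatum S).𝒰.levelCohomology (M.dualTwist (cycloChar p)) 0) := finite_H0 _
  rw [(LinearEquiv.ofBijective _ (I.beta_bijective hpS M hM).2).finrank_eq,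
    Subspace.dual_finrank_eq]

include I hpS hM in
/-- `H²(G_S, M)` is finite. -/
theorem finite_H2 : Module.Finite (ZMod p) ((arithDatum S).𝒰.levelCohomology M 2) := by
  have := finite_Hc2 I hpS M hM
  have := (finite_locH_arith S I.loc M hM).2
  exact finite_of_exact _ _ ((arithDatum S).exact_toGlobal_loc M 2)

end Finite

section Main

variable (I : GlobalInput p S) (hpS : pPrime p ∈ S) (M : Rep (ZMod p) Γℚ) [Finite M]
  (hM : (arithDatum S).𝒰.IsDiscrete M)

include hM in
/-- The boundary map `P²(M) → H³_c(M)` is surjective (`H³(G_S, M) = 0`). -/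
theorem HcOfLocal_two_surjective (I : GlobalInput p S) :
    Function.Surjective ((arithDatum S).HcOfLocal M 2) := by
  intro y
  have := I.van M hM
  exact ((arithDatum S).exact_ofLocal_toGlobal M 2 y).mp (Subsingleton.elim _ _)

include hpS hM in
/-- **Greenberg–Wiles on the arithmetic datum, before Euler characteristics**:
`dim H¹_L(M) - dim H¹_{L^⊥}(M') = h¹(M) - h²(M) - h⁰(M') + dim L - p¹(M) + p²(M)`. -/
theorem selmer_sub_dualSelmer_level (I : GlobalInput p S)
    (L : Submodule (ZMod p) ((arithDatum S).locH M 1)) :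
    (finrank (ZMod p) (selmerLevel M L) : ℤ) - finrank (ZMod p) (dualSelmerLevel I M L) =
      (finrank (ZMod p) ((arithDatum S).𝒰.levelCohomology M 1) : ℤ)
        - finrank (ZMod p) ((arithDatum S).𝒰.levelCohomology M 2)
        - finrank (ZMod p) ((arithDatum S).𝒰.levelCohomology (M.dualTwist (cycloChar p)) 0)
        + finrank (ZMod p) L
        - finrank (ZMod p) ((arithDatum S).locH M 1)
        + finrank (ZMod p) ((arithDatum S).locH M 2) := by
  have hM' := isDiscrete_dualTwist' hpS M hM
  have i1 : Module.Finite (ZMod p) ((arithDatum S).𝒰.levelCohomology M 1) := I.fin M hM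
  have i1' : Module.Finite (ZMod p)
      ((arithDatum S).𝒰.levelCohomology (M.dualTwist (cycloChar p)) 1) := I.fin _ hM'
  have i2 := (finite_locH_arith S I.loc M hM).1
  have i3 := (finite_locH_arith S I.loc M hM).2
  have i2' := (finite_locH_arith S I.loc (M.dualTwist (cycloChar p)) hM').1
  have i4 := finite_Hc2 I hpS M hM
  have i5 := finite_Hc3 I hpS M hM
  have i6 := finite_H2 I hpS M hM
  have key := selmer_sub_dualSelmer (k := ZMod p)
    ((arithDatum S).locMapH M 1) ((arithDatum S).HcOfLocal M 1) ((arithDatum S).HcToGlobal M 2)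
    ((arithDatum S).locMapH M 2) ((arithDatum S).HcOfLocal M 2)
    ((arithDatum S).locMapH (M.dualTwist (cycloChar p)) 1)
    (LinearMap.exact_iff.mp ((arithDatum S).exact_loc_ofLocal M 1)).symm
    (LinearMap.exact_iff.mp ((arithDatum S).exact_ofLocal_toGlobal M 1)).symm
    (LinearMap.exact_iff.mp ((arithDatum S).exact_toGlobal_loc M 2)).symm
    (LinearMap.exact_iff.mp ((arithDatum S).exact_loc_ofLocal M 2)).symm
    (HcOfLocal_two_surjective M hM I)
    (beta0 (arithDatum S) (cycloChar p) 2 I.tr M)
    (fun z hz => (I.beta_bijective hpS M hM).1.1 (by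
      rw [map_zero]
      exact LinearMap.ext hz))
    (finrank_Hc2 I hpS M hM)
    (locPairing I M) 1 one_ne_zero
    (fun x h => by
      rw [one_mul]
      exact beta0_HcOfLocal I.tr_ofLocal M x h)
    L (orthR (locPairing I M) L) rfl
  rw [finrank_Hc3 I hpS M hM] at key
  exact key

/-- `H⁰_c(M)` is finite. -/
theorem finite_Hc0 : Module.Finite (ZMod p) ((arithDatum S).Hc M 0) := by
  have := finite_H0 (S := S) M
  exact Module.Finite.of_injective _ ((arithDatum S).HcToGlobal_zero_injective M)

include hM in
/-- `H¹_c(M)` is finite. -/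
theorem finite_Hc1 (I : GlobalInput p S) : Module.Finite (ZMod p) ((arithDatum S).Hc M (0 + 1)) := by
  have := finite_P0 (S := S) M
  have : Module.Finite (ZMod p) ((arithDatum S).𝒰.levelCohomology M (0 + 1)) := I.fin M hM
  exact finite_of_exact _ _ ((arithDatum S).exact_ofLocal_toGlobal M 0)

/-- The Euler characteristic of compactly supported cohomology (finite places of `S` only),
`χ_c(M) = ∑_{i ≤ 3} (-1)^i dim Hⁱ_c(M)`. -/
noncomputable def eulerCharC (S : Finset Nat.Primes) (M : Rep (ZMod p) Γℚ) : ℤ :=
  (finrank (ZMod p) ((arithDatum S).Hc M 0) : ℤ) - finrank (ZMod p) ((arithDatum S).Hc M 1)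
    + finrank (ZMod p) ((arithDatum S).Hc M 2) - finrank (ZMod p) ((arithDatum S).Hc M 3)

include hpS hM in
/-- The alternating sum of the dimensions along the cone long exact sequence. -/
theorem eulerCharC_eq (I : GlobalInput p S) :
    eulerCharC S M =
      ((finrank (ZMod p) ((arithDatum S).𝒰.levelCohomology M 0) : ℤ)
        - finrank (ZMod p) ((arithDatum S).𝒰.levelCohomology M 1)
        + finrank (ZMod p) ((arithDatum S).𝒰.levelCohomology M 2))
      - ((finrank (ZMod p) ((arithDatum S).locH M 0) : ℤ)
        - finrank (ZMod p) ((arithDatum S).locH M 1)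
        + finrank (ZMod p) ((arithDatum S).locH M 2)) := by
  have i0 := finite_H0 (S := S) M
  have j0 := finite_P0 (S := S) M
  have c0 := finite_Hc0 (S := S) M
  have c1 := finite_Hc1 M hM I
  have i1 : Module.Finite (ZMod p) ((arithDatum S).𝒰.levelCohomology M 1) := I.fin M hM
  have i2 := (finite_locH_arith S I.loc M hM).1
  have i3 := (finite_locH_arith S I.loc M hM).2
  have i4 := finite_Hc2 I hpS M hM
  have i5 := finite_Hc3 I hpS M hM
  have i6 := finite_H2 I hpS M hM
  have f1 : finrank (ZMod p) ((arithDatum S).𝒰.levelCohomology M 0) =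
      finrank (ZMod p) (LinearMap.range ((arithDatum S).HcToGlobal M 0)) +
        finrank (ZMod p) (LinearMap.range ((arithDatum S).locMapH M 0)) :=
    finrank_mid _ _ ((arithDatum S).exact_toGlobal_loc M 0)
  have f2 : finrank (ZMod p) ((arithDatum S).locH M 0) =
      finrank (ZMod p) (LinearMap.range ((arithDatum S).locMapH M 0)) +
        finrank (ZMod p) (LinearMap.range ((arithDatum S).HcOfLocal M 0)) :=
    finrank_mid _ _ ((arithDatum S).exact_loc_ofLocal M 0)
  have f3 : finrank (ZMod p) ((arithDatum S).Hc M 1) =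
      finrank (ZMod p) (LinearMap.range ((arithDatum S).HcOfLocal M 0)) +
        finrank (ZMod p) (LinearMap.range ((arithDatum S).HcToGlobal M 1)) :=
    finrank_mid _ _ ((arithDatum S).exact_ofLocal_toGlobal M 0)
  have f4 : finrank (ZMod p) ((arithDatum S).𝒰.levelCohomology M 1) =
      finrank (ZMod p) (LinearMap.range ((arithDatum S).HcToGlobal M 1)) +
        finrank (ZMod p) (LinearMap.range ((arithDatum S).locMapH M 1)) :=
    finrank_mid _ _ ((arithDatum S).exact_toGlobal_loc M 1)
  have f5 : finrank (ZMod p) ((arithDatum S).locH M 1) =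
      finrank (ZMod p) (LinearMap.range ((arithDatum S).locMapH M 1)) +
        finrank (ZMod p) (LinearMap.range ((arithDatum S).HcOfLocal M 1)) :=
    finrank_mid _ _ ((arithDatum S).exact_loc_ofLocal M 1)
  have f6 : finrank (ZMod p) ((arithDatum S).Hc M 2) =
      finrank (ZMod p) (LinearMap.range ((arithDatum S).HcOfLocal M 1)) +
        finrank (ZMod p) (LinearMap.range ((arithDatum S).HcToGlobal M 2)) :=
    finrank_mid _ _ ((arithDatum S).exact_ofLocal_toGlobal M 1)
  have f7 : finrank (ZMod p) ((arithDatum S).𝒰.levelCohomology M 2) =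
      finrank (ZMod p) (LinearMap.range ((arithDatum S).HcToGlobal M 2)) +
        finrank (ZMod p) (LinearMap.range ((arithDatum S).locMapH M 2)) :=
    finrank_mid _ _ ((arithDatum S).exact_toGlobal_loc M 2)
  have f8 : finrank (ZMod p) ((arithDatum S).locH M 2) =
      finrank (ZMod p) (LinearMap.range ((arithDatum S).locMapH M 2)) +
        finrank (ZMod p) (LinearMap.range ((arithDatum S).HcOfLocal M 2)) :=
    finrank_mid _ _ ((arithDatum S).exact_loc_ofLocal M 2)
  have f0 : finrank (ZMod p) (LinearMap.range ((arithDatum S).HcToGlobal M 0)) =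
      finrank (ZMod p) ((arithDatum S).Hc M 0) :=
    LinearMap.finrank_range_of_inj ((arithDatum S).HcToGlobal_zero_injective M)
  have f9 : finrank (ZMod p) (LinearMap.range ((arithDatum S).HcOfLocal M 2)) =
      finrank (ZMod p) ((arithDatum S).Hc M 3) := by
    rw [LinearMap.range_eq_top.mpr (HcOfLocal_two_surjective M hM I), finrank_top]
  unfold eulerCharC
  omega

include hpS hM in
/-- **The Greenberg–Wiles formula on the arithmetic datum**: if `χ_c(M) = a` then
`dim H¹_L(M) - dim H¹_{L^⊥}(M') = h⁰(M) - h⁰(M') + dim L - p⁰(M) - a`.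
(Tate's global Euler characteristic formula: `a = dim M^{c = 1}` for `p` odd.) -/
theorem greenbergWiles_level (I : GlobalInput p S)
    (L : Submodule (ZMod p) ((arithDatum S).locH M 1)) (a : ℤ) (ha : eulerCharC S M = a) :
    (finrank (ZMod p) (selmerLevel M L) : ℤ) - finrank (ZMod p) (dualSelmerLevel I M L) =
      (finrank (ZMod p) ((arithDatum S).𝒰.levelCohomology M 0) : ℤ)
        - finrank (ZMod p) ((arithDatum S).𝒰.levelCohomology (M.dualTwist (cycloChar p)) 0)
        + finrank (ZMod p) L
        - finrank (ZMod p) ((arithDatum S).locH M 0) - a := by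
  have h1 := selmer_sub_dualSelmer_level hpS M hM I L
  have h2 := eulerCharC_eq hpS M hM I
  rw [ha] at h2
  omega

/-- **Tate's global Euler characteristic formula, compactly supported form** (`p` odd; the cone
is taken over the finite places of `S` only): `χ_c(M) = dim M^{c = 1}`, `c` the complex
conjugation.  (Equivalent to `χ(G_S, M) - ∑_{q ∈ S} χ(G_q, M) = dim M^{c = 1}`.) -/
def TateEulerC (S : Finset Nat.Primes) (M : Rep (ZMod p) Γℚ) : Prop :=
  eulerCharC S M =
    (finrank (ZMod p) (LinearMap.ker (M.ρ complexConjugation - LinearMap.id)) : ℤ)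

include hpS hM in
/-- **The Greenberg–Wiles formula on the arithmetic datum**, from Tate's formula `TateEulerC`:
`dim H¹_L(M) - dim H¹_{L^⊥}(M') = h⁰(M) - h⁰(M') + dim L - ∑_{q ∈ S} h⁰(G_q, M) - dim M^{c = 1}`. -/
theorem greenbergWiles_level_of_tate (I : GlobalInput p S)
    (L : Submodule (ZMod p) ((arithDatum S).locH M 1)) (hT : TateEulerC S M) :
    (finrank (ZMod p) (selmerLevel M L) : ℤ) - finrank (ZMod p) (dualSelmerLevel I M L) =
      (finrank (ZMod p) ((arithDatum S).𝒰.levelCohomology M 0) : ℤ)
        - finrank (ZMod p) ((arithDatum S).𝒰.levelCohomology (M.dualTwist (cycloChar p)) 0)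
        + finrank (ZMod p) L
        - finrank (ZMod p) ((arithDatum S).locH M 0)
        - finrank (ZMod p) (LinearMap.ker (M.ρ complexConjugation - LinearMap.id)) :=
  greenbergWiles_level hpS M hM I L _ hT

end Main

end Fermat.Agent.S56x.GW
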