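/-
P-S56, block (B) (Greenberg-Wiles), helper34: the LINEAR ALGEBRA of the Greenberg-Wiles formula.

No cohomology inside: finite dimensional vector spaces over a field `k`, an exact sequence
`H¹ → P¹ → C² → H² → P² → C³ → 0` (global cohomology, local cohomology, compactly supported
cohomology), a global pairing `C² × H¹' → k`, a local pairing `P¹ × P¹' → k`, their compatibility,
and a pair of mutually orthogonal local conditions `L ≤ P¹`, `L' ≤ P¹'`.

* `finrank_inf_sub_finrank_inf` : `dim (B^⊥ ∩ W) - dim (B ∩ W^⊥) = dim W - dim B` for ANY bilinear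
  pairing (no nondegeneracy), the "rank of `b` on `W × B` is symmetric";
* `finrank_comap` : `dim f⁻¹(W) = dim ker f + dim (range f ∩ W)`;
* `selmer_sub_dualSelmer` : `dim H¹_L - dim H¹'_{L'} = h¹ - h² - c³ + dim L - p¹ + p²`;
* `greenbergWiles` : the same after inserting the Euler characteristics and `c³ = h⁰'`:
  `dim H¹_L - dim H¹'_{L'} = h⁰ - h⁰' + (dim L - p⁰) + (χ_loc - χ_glob)`.
-/
import Mathlib

set_option autoImplicit false
set_option linter.unusedSectionVars false

open Module

namespace Fermat.Agent.S56x.GW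

variable {k : Type*} [Field k]

/-! ### Two general lemmas -/

section General

variable {P P' : Type*} [AddCommGroup P] [Module k P] [AddCommGroup P'] [Module k P']

/-- the orthogonal of a subspace of the right factor -/
def orthL (b : P →ₗ[k] P' →ₗ[k] k) (B : Submodule k P') : Submodule k P where
  carrier := {x | ∀ y ∈ B, b x y = 0}
  add_mem' := fun {x x'} hx hx' y hy => by rw [map_add, LinearMap.add_apply, hx y hy, hx' y hy, add_zero]
  zero_mem' := fun y _ => by rw [map_zero, LinearMap.zero_apply]
  smul_mem' := fun c x hx y hy => by rw [map_smul, LinearMap.smul_apply, hx y hy, smul_zero]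

/-- the orthogonal of a subspace of the left factor -/
def orthR (b : P →ₗ[k] P' →ₗ[k] k) (W : Submodule k P) : Submodule k P' where
  carrier := {y | ∀ x ∈ W, b x y = 0}
  add_mem' := fun {y y'} hy hy' x hx => by rw [map_add, hy x hx, hy' x hx, add_zero]
  zero_mem' := fun x _ => by rw [map_zero]
  smul_mem' := fun c y hy x hx => by rw [map_smul, hy x hx, smul_zero]

theorem mem_orthL {b : P →ₗ[k] P' →ₗ[k] k} {B : Submodule k P'} {x : P} :
    x ∈ orthL b B ↔ ∀ y ∈ B, b x y = 0 := Iff.rfl

theorem mem_orthR {b : P →ₗ[k] P' →ₗ[k] k} {W : Submodule k P} {y : P'} :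
    y ∈ orthR b W ↔ ∀ x ∈ W, b x y = 0 := Iff.rfl

/-- the restriction of a pairing to `W × B` -/
def restrictPairing (b : P →ₗ[k] P' →ₗ[k] k) (W : Submodule k P) (B : Submodule k P') :
    W →ₗ[k] B →ₗ[k] k :=
  (b.domRestrict₁₂ W B)

theorem restrictPairing_apply (b : P →ₗ[k] P' →ₗ[k] k) (W : Submodule k P) (B : Submodule k P')
    (x : W) (y : B) : restrictPairing b W B x y = b x y := rfl

/-- the rank of a pairing of finite dimensional spaces is symmetric -/
theorem finrank_range_flip {V V' : Type*} [AddCommGroup V] [Module k V] [AddCommGroup V']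
    [Module k V'] [FiniteDimensional k V] [FiniteDimensional k V'] (c : V →ₗ[k] V' →ₗ[k] k) :
    finrank k (LinearMap.range c.flip) = finrank k (LinearMap.range c) := by
  have h1 : c.flip = c.dualMap ∘ₗ (Module.evalEquiv k V').toLinearMap := by
    ext y x
    rfl
  rw [h1, LinearMap.range_comp_of_range_eq_top _ (LinearEquiv.range _)]
  exact LinearMap.finrank_range_dualMap_eq_finrank_range c

/-- **Symmetry of the rank on `W × B`**: `dim (B^⊥ ∩ W) + dim B = dim (B ∩ W^⊥) + dim W`. -/
theorem finrank_inf_add_finrank (b : P →ₗ[k] P' →ₗ[k] k) (W : Submodule k P)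
    (B : Submodule k P') [FiniteDimensional k W] [FiniteDimensional k B] :
    finrank k (orthL b B ⊓ W : Submodule k P) + finrank k B =
      finrank k (B ⊓ orthR b W : Submodule k P') + finrank k W := by
  set c := restrictPairing b W B with hc
  -- kernel of `c`
  have hk1 : finrank k (LinearMap.ker c) = finrank k (orthL b B ⊓ W : Submodule k P) := by
    have e : LinearMap.ker c = (orthL b B ⊓ W).comap W.subtype := by
      ext x
      rw [LinearMap.mem_ker, Submodule.mem_comap, Submodule.mem_inf]
      constructor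
      · intro h
        refine ⟨fun y hy => ?_, x.2⟩
        have := LinearMap.congr_fun h ⟨y, hy⟩
        rw [LinearMap.zero_apply] at this
        exact this
      · rintro ⟨h, -⟩
        ext y
        exact h y y.2
    rw [e]
    exact (Submodule.comapSubtypeEquivOfLe (inf_le_right)).finrank_eq
  have hk2 : finrank k (LinearMap.ker c.flip) = finrank k (B ⊓ orthR b W : Submodule k P') := by
    have e : LinearMap.ker c.flip = (B ⊓ orthR b W).comap B.subtype := by
      ext y
      rw [LinearMap.mem_ker, Submodule.mem_comap, Submodule.mem_inf]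
      constructor
      · intro h
        refine ⟨y.2, fun x hx => ?_⟩
        have := LinearMap.congr_fun h ⟨x, hx⟩
        rw [LinearMap.zero_apply] at this
        exact this
      · rintro ⟨-, h⟩
        ext x
        exact h x x.2
    rw [e]
    exact (Submodule.comapSubtypeEquivOfLe (inf_le_left)).finrank_eq
  have r1 := LinearMap.finrank_range_add_finrank_ker c
  have r2 := LinearMap.finrank_range_add_finrank_ker c.flip
  have r3 := finrank_range_flip c
  omega

/-- `dim f⁻¹(W) = dim ker f + dim (range f ∩ W)` -/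
theorem finrank_comap {H : Type*} [AddCommGroup H] [Module k H] [FiniteDimensional k H]
    (f : H →ₗ[k] P) (W : Submodule k P) :
    finrank k (W.comap f) = finrank k (LinearMap.ker f) +
      finrank k (LinearMap.range f ⊓ W : Submodule k P) := by
  set g : W.comap f →ₗ[k] P := f.domRestrict (W.comap f) with hg
  have hker : finrank k (LinearMap.ker g) = finrank k (LinearMap.ker f) := by
    have e : LinearMap.ker g = (LinearMap.ker f).comap (W.comap f).subtype := by
      ext x
      rfl
    rw [e]
    refine (Submodule.comapSubtypeEquivOfLe ?_).finrank_eq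
    intro x hx
    rw [Submodule.mem_comap, LinearMap.mem_ker.mp hx]
    exact W.zero_mem
  have hrange : LinearMap.range g = LinearMap.range f ⊓ W := by
    ext y
    constructor
    · rintro ⟨x, rfl⟩
      exact ⟨⟨x, rfl⟩, x.2⟩
    · rintro ⟨⟨x, rfl⟩, hy⟩
      exact ⟨⟨x, hy⟩, rfl⟩
  have := LinearMap.finrank_range_add_finrank_ker g
  rw [hrange, hker] at this
  omega

end General

/-! ### The formula -/

section Formula

variable {H1 P1 C2 H2 P2 C3 H1' P1' : Type*}
  [AddCommGroup H1] [Module k H1] [AddCommGroup P1] [Module k P1]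
  [AddCommGroup C2] [Module k C2] [AddCommGroup H2] [Module k H2]
  [AddCommGroup P2] [Module k P2] [AddCommGroup C3] [Module k C3]
  [AddCommGroup H1'] [Module k H1'] [AddCommGroup P1'] [Module k P1']
  [FiniteDimensional k H1] [FiniteDimensional k P1] [FiniteDimensional k C2]
  [FiniteDimensional k H2] [FiniteDimensional k P2] [FiniteDimensional k C3]
  [FiniteDimensional k H1'] [FiniteDimensional k P1']

/-- **Greenberg-Wiles, before Euler characteristics.**
`loc1, d1, f2, loc2, d2` : the tail `H¹ → P¹ → C² → H² → P² → C³ → 0` of the long exact sequence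
of compactly supported cohomology; `bg : C² × H¹' → k` the global duality pairing (nondegenerate on
the left, `dim C² = dim H¹'`), `bl : P¹ × P¹' → k` the local pairing, compatible up to a nonzero
scalar; `L' = L^⊥`.  Then
`dim H¹_L - dim H¹'_{L'} = h¹ - h² - c³ + dim L - p¹ + p²`. -/
theorem selmer_sub_dualSelmer
    (loc1 : H1 →ₗ[k] P1) (d1 : P1 →ₗ[k] C2) (f2 : C2 →ₗ[k] H2) (loc2 : H2 →ₗ[k] P2)
    (d2 : P2 →ₗ[k] C3) (loc1' : H1' →ₗ[k] P1')
    (ex1 : LinearMap.range loc1 = LinearMap.ker d1) (ex2 : LinearMap.range d1 = LinearMap.ker f2)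
    (ex3 : LinearMap.range f2 = LinearMap.ker loc2) (ex4 : LinearMap.range loc2 = LinearMap.ker d2)
    (ex5 : Function.Surjective d2)
    (bg : C2 →ₗ[k] H1' →ₗ[k] k) (hbg_left : ∀ z, (∀ h, bg z h = 0) → z = 0)
    (hbg_dim : finrank k C2 = finrank k H1')
    (bl : P1 →ₗ[k] P1' →ₗ[k] k) (ε : k) (hε : ε ≠ 0)
    (hcomp : ∀ x h, bg (d1 x) h = ε * bl x (loc1' h))
    (L : Submodule k P1) (L' : Submodule k P1') (hL : L' = orthR bl L) :
    (finrank k (L.comap loc1) : ℤ) - finrank k (L'.comap loc1') =
      (finrank k H1 : ℤ) - finrank k H2 - finrank k C3 + finrank k L - finrank k P1 +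
        finrank k P2 := by
  -- `range loc1 = (range loc1')^⊥`
  have hA : LinearMap.range loc1 = orthL bl (LinearMap.range loc1') := by
    rw [ex1]
    ext x
    rw [LinearMap.mem_ker, mem_orthL]
    constructor
    · rintro hx y ⟨h, rfl⟩
      have := hcomp x h
      rw [hx, map_zero, LinearMap.zero_apply] at this
      exact (mul_eq_zero.mp this.symm).resolve_left hε
    · intro hx
      apply hbg_left
      intro h
      rw [hcomp, hx _ ⟨h, rfl⟩, mul_zero]
  have key := finrank_inf_add_finrank bl L (LinearMap.range loc1')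
  rw [← hA, ← hL] at key
  have s1 := finrank_comap loc1 L
  have s2 := finrank_comap loc1' L'
  have n1 := LinearMap.finrank_range_add_finrank_ker loc1
  have n1' := LinearMap.finrank_range_add_finrank_ker loc1'
  have n2 := LinearMap.finrank_range_add_finrank_ker d1
  have n3 := LinearMap.finrank_range_add_finrank_ker f2
  have n4 := LinearMap.finrank_range_add_finrank_ker loc2
  have n5 := LinearMap.finrank_range_add_finrank_ker d2
  have n6 : finrank k (LinearMap.range d2) = finrank k C3 := by
    rw [LinearMap.range_eq_top.mpr ex5, finrank_top]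
  rw [ex1] at n1 s1 key
  rw [ex2] at n2
  rw [ex3] at n3
  rw [ex4] at n4
  rw [← ex1] at s1 key
  have e1 : finrank k (LinearMap.range loc1) = finrank k (LinearMap.ker d1) := by rw [ex1]
  omega

/-- **The Greenberg-Wiles formula** (abstract form).  In addition to the data of
`selmer_sub_dualSelmer`: `dim C³ = h⁰'` (global duality in degree `3`), the global Euler
characteristic `h⁰ - h¹ + h² = χg` and the total local Euler characteristic
`p⁰ - p¹ + p² = χl`.  Then
`dim H¹_L - dim H¹'_{L'} = h⁰ - h⁰' + (dim L - p⁰) + (χl - χg)`. -/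
theorem greenbergWiles
    (loc1 : H1 →ₗ[k] P1) (d1 : P1 →ₗ[k] C2) (f2 : C2 →ₗ[k] H2) (loc2 : H2 →ₗ[k] P2)
    (d2 : P2 →ₗ[k] C3) (loc1' : H1' →ₗ[k] P1')
    (ex1 : LinearMap.range loc1 = LinearMap.ker d1) (ex2 : LinearMap.range d1 = LinearMap.ker f2)
    (ex3 : LinearMap.range f2 = LinearMap.ker loc2) (ex4 : LinearMap.range loc2 = LinearMap.ker d2)
    (ex5 : Function.Surjective d2)
    (bg : C2 →ₗ[k] H1' →ₗ[k] k) (hbg_left : ∀ z, (∀ h, bg z h = 0) → z = 0)
    (hbg_dim : finrank k C2 = finrank k H1')
    (bl : P1 →ₗ[k] P1' →ₗ[k] k) (ε : k) (hε : ε ≠ 0)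
    (hcomp : ∀ x h, bg (d1 x) h = ε * bl x (loc1' h))
    (L : Submodule k P1) (L' : Submodule k P1') (hL : L' = orthR bl L)
    (h0 h0' p0 : ℕ) (χg χl : ℤ) (hC3 : finrank k C3 = h0')
    (hχg : (h0 : ℤ) - finrank k H1 + finrank k H2 = χg)
    (hχl : (p0 : ℤ) - finrank k P1 + finrank k P2 = χl) :
    (finrank k (L.comap loc1) : ℤ) - finrank k (L'.comap loc1') =
      (h0 : ℤ) - h0' + (finrank k L - p0) + (χl - χg) := by
  have := selmer_sub_dualSelmer loc1 d1 f2 loc2 d2 loc1' ex1 ex2 ex3 ex4 ex5 bg hbg_left hbg_dim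
    bl ε hε hcomp L L' hL
  rw [hC3] at this
  omega

end Formula

/-! ### Products over a finite set of places -/

section Places

variable {ι : Type*} [Fintype ι] [DecidableEq ι] {Q Q' : ι → Type*}
  [∀ v, AddCommGroup (Q v)] [∀ v, Module k (Q v)] [∀ v, AddCommGroup (Q' v)]
  [∀ v, Module k (Q' v)]

/-- the sum of local pairings -/
def sumPairing (bl : ∀ v, Q v →ₗ[k] Q' v →ₗ[k] k) : (∀ v, Q v) →ₗ[k] (∀ v, Q' v) →ₗ[k] k :=
  ∑ v, ((bl v).compl₂ (LinearMap.proj v)).comp (LinearMap.proj v)

theorem sumPairing_apply (bl : ∀ v, Q v →ₗ[k] Q' v →ₗ[k] k) (x : ∀ v, Q v) (y : ∀ v, Q' v) :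
    sumPairing bl x y = ∑ v, bl v (x v) (y v) := by
  simp [sumPairing, LinearMap.sum_apply]

/-- the orthogonal of a product of local conditions is the product of the orthogonals -/
theorem orthR_sumPairing_pi (bl : ∀ v, Q v →ₗ[k] Q' v →ₗ[k] k) (L : ∀ v, Submodule k (Q v)) :
    orthR (sumPairing bl) (Submodule.pi Set.univ L) =
      Submodule.pi Set.univ fun v => orthR (bl v) (L v) := by
  ext y
  rw [mem_orthR, Submodule.mem_pi]
  constructor
  · intro h v _ x hx
    have h1 := h (Pi.single v x) (by
      rw [Submodule.mem_pi]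
      intro w _
      by_cases hw : w = v
      · subst hw
        rw [Pi.single_eq_same]
        exact hx
      · rw [Pi.single_eq_of_ne hw]
        exact (L w).zero_mem)
    rw [sumPairing_apply, Finset.sum_eq_single v] at h1
    · rwa [Pi.single_eq_same] at h1
    · intro w _ hw
      rw [Pi.single_eq_of_ne hw, map_zero, LinearMap.zero_apply]
    · intro hv
      exact absurd (Finset.mem_univ v) hv
  · intro h x hx
    rw [sumPairing_apply]
    refine Finset.sum_eq_zero fun v _ => ?_
    exact h v (Set.mem_univ v) (x v) ((Submodule.mem_pi.mp hx) v (Set.mem_univ v))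

/-- the dimension of a product of local conditions -/
theorem finrank_pi_submodule [∀ v, FiniteDimensional k (Q v)] (L : ∀ v, Submodule k (Q v)) :
    finrank k (Submodule.pi Set.univ L : Submodule k (∀ v, Q v)) = ∑ v, finrank k (L v) := by
  have e : (Submodule.pi Set.univ L : Submodule k (∀ v, Q v)) ≃ₗ[k] ∀ v, L v :=
    { toFun := fun x v => ⟨x.1 v, (Submodule.mem_pi.mp x.2) v (Set.mem_univ v)⟩
      map_add' := fun x y => rfl
      map_smul' := fun c x => rfl
      invFun := fun x => ⟨fun v => (x v : Q v), Submodule.mem_pi.mpr fun v _ => (x v).2⟩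
      left_inv := fun x => rfl
      right_inv := fun x => rfl }
  rw [e.finrank_eq, Module.finrank_pi_fintype]

end Places

end Fermat.Agent.S56x.GW
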