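/-
P-S56, block (B) (Greenberg-Wiles), helper34: the DUAL FORM of the abstract Greenberg-Wiles formula.

`S56x/GW/Abstract.lean` computes `dim H¹_L(M) - dim H¹_{L^⊥}(M')` from the tail of the compactly
supported long exact sequence of `M`; the result involves `h¹(M) - h²(M)` and the local terms
`p²(M) - p¹(M)`, i.e. (after Euler characteristics) the GLOBAL and the LOCAL Euler characteristic
of `M`.  Applying the same computation to `M'` (with the roles of `L` and `L' = L^⊥` exchanged) and
using local duality only through the two NUMERICAL facts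
`dim L + dim L^⊥ = p¹` and `p²(M') = p⁰(M)`, one gets

`dim H¹_L(M) - dim H¹_{L'}(M') = χ(M') - h⁰(M') + h⁰(M) + (dim L - p⁰(M))`,

where `χ(M') = h⁰(M') - h¹(M') + h²(M')` is the GLOBAL Euler characteristic of `M'`.
No local Euler characteristic is needed in this form (remark of helper11).
-/
import Fermat.Agent.S56x.GW.Abstract

set_option autoImplicit false
set_option linter.unusedSectionVars false

open Module

namespace Fermat.Agent.S56x.GW

variable {k : Type*} [Field k]

section Orth

variable {P P' : Type*} [AddCommGroup P] [Module k P] [AddCommGroup P'] [Module k P']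

/-- `orthR` of a pairing is `orthL` of the flipped pairing -/
theorem orthR_eq_orthL_flip (b : P →ₗ[k] P' →ₗ[k] k) (W : Submodule k P) :
    orthR b W = orthL b.flip W := by
  ext y
  rfl

/-- for a pairing of finite dimensional spaces which is nondegenerate on the left,
`dim W + dim W^⊥ = dim P'`... more precisely: if `x ↦ b x ·` is injective then
`dim W^⊥ = dim P' - dim W`. -/
theorem finrank_orthR_add [FiniteDimensional k P] [FiniteDimensional k P']
    (b : P →ₗ[k] P' →ₗ[k] k) (hb : ∀ x, (∀ y, b x y = 0) → x = 0) (W : Submodule k P) :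
    finrank k (orthR b W) + finrank k W = finrank k P' := by
  -- `orthL b ⊤ = ⊥`, then the symmetry of the rank on `W × ⊤`
  have h := finrank_inf_add_finrank b W (⊤ : Submodule k P')
  have h1 : orthL b (⊤ : Submodule k P') = ⊥ := by
    rw [eq_bot_iff]
    intro x hx
    rw [Submodule.mem_bot]
    exact hb x fun y => hx y Submodule.mem_top
  rw [h1, bot_inf_eq, finrank_bot, zero_add, top_inf_eq, finrank_top] at h
  omega

/-- double orthogonal: if `b` is nondegenerate on both sides then `(W^⊥)^⊥ = W`. -/
theorem orthL_orthR [FiniteDimensional k P] [FiniteDimensional k P']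
    (b : P →ₗ[k] P' →ₗ[k] k) (hb : ∀ x, (∀ y, b x y = 0) → x = 0)
    (hb' : ∀ y, (∀ x, b x y = 0) → y = 0) (W : Submodule k P) :
    orthL b (orthR b W) = W := by
  have hle : W ≤ orthL b (orthR b W) := fun x hx y hy => hy x hx
  refine (Submodule.eq_of_le_of_finrank_le hle ?_).symm
  have h1 := finrank_orthR_add b hb W
  have h2 := finrank_orthR_add b.flip hb' (orthR b W)
  have h3 : orthR b.flip (orthR b W) = orthL b (orthR b W) := by
    ext x
    rfl
  rw [h3] at h2
  have h4 : finrank k P = finrank k P' := by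
    have i1 : finrank k P ≤ finrank k (Dual k P') :=
      LinearMap.finrank_le_finrank_of_injective (f := b) (fun x x' h => by
        have : ∀ y, b (x - x') y = 0 := fun y => by
          rw [map_sub, LinearMap.sub_apply, h, sub_self]
        exact sub_eq_zero.mp (hb _ this))
    have i2 : finrank k P' ≤ finrank k (Dual k P) :=
      LinearMap.finrank_le_finrank_of_injective (f := b.flip) (fun y y' h => by
        have : ∀ x, b x (y - y') = 0 := fun x => by
          have := LinearMap.congr_fun h x
          rw [LinearMap.flip_apply, LinearMap.flip_apply] at this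
          rw [map_sub, this, sub_self]
        exact sub_eq_zero.mp (hb' _ this))
    rw [Subspace.dual_finrank_eq] at i1 i2
    omega
  omega

end Orth

section Formula

variable {H1 P1 H1' P1' C2' H2' P2' C3' : Type*}
  [AddCommGroup H1] [Module k H1] [AddCommGroup P1] [Module k P1]
  [AddCommGroup H1'] [Module k H1'] [AddCommGroup P1'] [Module k P1']
  [AddCommGroup C2'] [Module k C2'] [AddCommGroup H2'] [Module k H2']
  [AddCommGroup P2'] [Module k P2'] [AddCommGroup C3'] [Module k C3']
  [FiniteDimensional k H1] [FiniteDimensional k P1] [FiniteDimensional k H1']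
  [FiniteDimensional k P1'] [FiniteDimensional k C2'] [FiniteDimensional k H2']
  [FiniteDimensional k P2'] [FiniteDimensional k C3']

/-- **Greenberg-Wiles, dual form.**  Data: the tail
`H¹(M') → P¹(M') → C²(M') → H²(M') → P²(M') → C³(M') → 0` for the DUAL module `M'`, the global
pairing `bg' : C²(M') × H¹(M) → k` (nondegenerate on the left, `dim C²(M') = h¹(M)`), the local
pairing `bl : P¹(M) × P¹(M') → k` nondegenerate on both sides, compatible with `bg'` up to a
nonzero scalar, the local condition `L ≤ P¹(M)` with `L' = L^⊥`, and the numbers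
`h0 = h⁰(M) = dim C³(M')` (global duality in degree `3` for `M'`), `h0' = h⁰(M')`,
`p0 = p⁰(M) = dim P²(M')` (local duality), `χ' = h⁰(M') - h¹(M') + h²(M')`.  Then
`dim H¹_L(M) - dim H¹_{L'}(M') = χ' - h0' + h0 + (dim L - p0)`. -/
theorem greenbergWiles_dual
    (loc1 : H1 →ₗ[k] P1)
    (loc1' : H1' →ₗ[k] P1') (d1' : P1' →ₗ[k] C2') (f2' : C2' →ₗ[k] H2') (loc2' : H2' →ₗ[k] P2')
    (d2' : P2' →ₗ[k] C3')
    (ex1 : LinearMap.range loc1' = LinearMap.ker d1')
    (ex2 : LinearMap.range d1' = LinearMap.ker f2')
    (ex3 : LinearMap.range f2' = LinearMap.ker loc2')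
    (ex4 : LinearMap.range loc2' = LinearMap.ker d2')
    (ex5 : Function.Surjective d2')
    (bg' : C2' →ₗ[k] H1 →ₗ[k] k) (hbg_left : ∀ z, (∀ h, bg' z h = 0) → z = 0)
    (hbg_dim : finrank k C2' = finrank k H1)
    (bl : P1 →ₗ[k] P1' →ₗ[k] k) (hbl : ∀ x, (∀ y, bl x y = 0) → x = 0)
    (hbl' : ∀ y, (∀ x, bl x y = 0) → y = 0) (ε : k) (hε : ε ≠ 0)
    (hcomp : ∀ y h, bg' (d1' y) h = ε * bl (loc1 h) y)
    (L : Submodule k P1) (L' : Submodule k P1') (hL : L' = orthR bl L)
    (h0 h0' p0 : ℕ) (χ' : ℤ) (hC3 : finrank k C3' = h0) (hP2 : finrank k P2' = p0)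
    (hχ : (h0' : ℤ) - finrank k H1' + finrank k H2' = χ') :
    (finrank k (L.comap loc1) : ℤ) - finrank k (L'.comap loc1') =
      χ' - h0' + h0 + (finrank k L - p0) := by
  -- apply the formula to `M'` with the flipped local pairing
  have hL2 : L = orthR bl.flip L' := by
    rw [hL]
    refine (orthL_orthR bl hbl hbl' L).symm.trans ?_
    ext x
    rfl
  have key := selmer_sub_dualSelmer loc1' d1' f2' loc2' d2' loc1 ex1 ex2 ex3 ex4 ex5 bg' hbg_left
    hbg_dim bl.flip ε hε (fun y h => by rw [hcomp]; rfl) L' L hL2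
  have hdim := finrank_orthR_add bl hbl L
  rw [← hL] at hdim
  -- `dim P¹ = dim P¹'`
  have hPP : finrank k P1 = finrank k P1' := by
    have i1 : finrank k P1 ≤ finrank k (Dual k P1') :=
      LinearMap.finrank_le_finrank_of_injective (f := bl) (fun x x' h => by
        have : ∀ y, bl (x - x') y = 0 := fun y => by
          rw [map_sub, LinearMap.sub_apply, h, sub_self]
        exact sub_eq_zero.mp (hbl _ this))
    have i2 : finrank k P1' ≤ finrank k (Dual k P1) :=
      LinearMap.finrank_le_finrank_of_injective (f := bl.flip) (fun y y' h => by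
        have : ∀ x, bl x (y - y') = 0 := fun x => by
          have := LinearMap.congr_fun h x
          rw [LinearMap.flip_apply, LinearMap.flip_apply] at this
          rw [map_sub, this, sub_self]
        exact sub_eq_zero.mp (hbl' _ this))
    rw [Subspace.dual_finrank_eq] at i1 i2
    omega
  rw [hC3, hP2] at key
  omega

/-- the consumer form: an upper bound for the Selmer group from an upper bound for the global
Euler characteristic of the dual module. -/
theorem selmer_le_of_eulerChar_le
    (loc1 : H1 →ₗ[k] P1)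
    (loc1' : H1' →ₗ[k] P1') (d1' : P1' →ₗ[k] C2') (f2' : C2' →ₗ[k] H2') (loc2' : H2' →ₗ[k] P2')
    (d2' : P2' →ₗ[k] C3')
    (ex1 : LinearMap.range loc1' = LinearMap.ker d1')
    (ex2 : LinearMap.range d1' = LinearMap.ker f2')
    (ex3 : LinearMap.range f2' = LinearMap.ker loc2')
    (ex4 : LinearMap.range loc2' = LinearMap.ker d2')
    (ex5 : Function.Surjective d2')
    (bg' : C2' →ₗ[k] H1 →ₗ[k] k) (hbg_left : ∀ z, (∀ h, bg' z h = 0) → z = 0)
    (hbg_dim : finrank k C2' = finrank k H1)
    (bl : P1 →ₗ[k] P1' →ₗ[k] k) (hbl : ∀ x, (∀ y, bl x y = 0) → x = 0)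
    (hbl' : ∀ y, (∀ x, bl x y = 0) → y = 0) (ε : k) (hε : ε ≠ 0)
    (hcomp : ∀ y h, bg' (d1' y) h = ε * bl (loc1 h) y)
    (L : Submodule k P1) (L' : Submodule k P1') (hL : L' = orthR bl L)
    (h0 h0' p0 : ℕ) (B : ℤ) (hC3 : finrank k C3' = h0) (hP2 : finrank k P2' = p0)
    (hχ : (h0' : ℤ) - finrank k H1' + finrank k H2' ≤ B) :
    (finrank k (L.comap loc1) : ℤ) ≤
      finrank k (L'.comap loc1') + B - h0' + h0 + (finrank k L - p0) := by
  have := greenbergWiles_dual loc1 loc1' d1' f2' loc2' d2' ex1 ex2 ex3 ex4 ex5 bg' hbg_left hbg_dim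
    bl hbl hbl' ε hε hcomp L L' hL h0 h0' p0 _ hC3 hP2 rfl
  omega

end Formula

end Fermat.Agent.S56x.GW
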