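import Fermat.Agent.S56x.GW.Interface
import Fermat.Agent.S56x.GW.Abstract
import Fermat.Agent.Lib.CFT.Duality.LocDatum
import Fermat.Agent.Lib.CFT.Profinite.BridgeSha

/-!
# P-S56, block (B), file (F2): the bridge library formalism <-> Prelude formalism (helper25)

Library side (frozen `Lib/CFT`): `D := arithDatum S`, global `D.𝒰.levelCohomology M 1`
(`D.𝒰 = levelsS S`), local `(primeLocalLevels q).levelCohomology (Rep.res (primeLocalToGlobal q) M) 1`,
localisation `D.locMapH M 1`, Selmer groups `(Submodule.pi univ Λ).comap (D.locMapH M 1)`.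

Prelude side (`S56x/GW/Interface.lean`): `Sel S M L = continuousH1S S M ⊓ selmer (extArithLoc S) M L`,
`locH1 S M v = continuousH1 (extArithLoc S v) (Rep.res _ M)`, `dualCond P S M L`.

Contents:
* `localH1Equiv` : local level `H¹` (all open subgroups) `≃` the Prelude's continuous local `H¹`;
* `toGroupCohomology_locMapHAt` : the localisation square;
* `libCond`, `libSel`, `map_libSel_eq_Sel`, `selEquiv`, `finrank_Sel` : Selmer groups;
* `finrank_libCond`, `sum_finrank_cond` : the local terms `∑_v dim L_v`;
* `finrank_H0_global`, `finrank_H0_local` : the `h⁰` terms;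
* `retr`, `transportPairing` : a pairing on abstract `H¹` from a pairing on level cohomology;
* `libCond_dualCond` : dual conditions correspond to `orthR`.
-/

set_option autoImplicit false
set_option linter.unusedSectionVars false

open CategoryTheory groupCohomology ExtCitation Module

namespace Fermat.Agent.S56x.GW.Bridge

open Fermat.Agent.Lib.CFT.Profinite Fermat.Agent.Lib.CFT.Profinite.LevelFamily
open Fermat.Agent.Lib.CFT.Profinite.Bridge Fermat.Agent.Lib.CFT.Duality

local notation "Qbar" => AlgebraicClosure ℚ
local notation "Γℚ" => (AlgebraicClosure ℚ ≃ₐ[ℚ] AlgebraicClosure ℚ)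

/-! ### Local side: level cohomology for all open subgroups vs the Prelude's `continuousH1` -/

section Local

variable {k : Type} [CommRing k] (q : Nat.Primes) (N : Rep k (primeLocalGaloisGroup q))

/-- Level-constancy for the local levels (all open subgroups) and for the pulled-back global
levels (the Prelude's convention) agree (Krasner). -/
theorem isConst₁_primeLocalLevels_iff {X : Type*} (f : primeLocalGaloisGroup q → X) :
    (primeLocalLevels q).IsConst₁ f ↔ (galLevels (primeLocalToGlobal q)).IsConst₁ f := by
  constructor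
  · rintro ⟨U, hU, h⟩
    obtain ⟨V, hV, hle⟩ := isCompatible_galLevels_localLevelsP q U hU
    exact ⟨V, hV, fun g s hs => h g s (hle hs)⟩
  · rintro ⟨U, hU, h⟩
    obtain ⟨V, hV, hle⟩ := isCompatible_localLevelsP_galLevels q U hU
    exact ⟨V, hV, fun g s hs => h g s (hle hs)⟩

/-- Discreteness for the two local level families agree. -/
theorem isDiscrete_primeLocalLevels_iff :
    (primeLocalLevels q).IsDiscrete N ↔ (galLevels (primeLocalToGlobal q)).IsDiscrete N := by
  constructor
  · intro h m
    obtain ⟨U, hU, hm⟩ := h m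
    obtain ⟨V, hV, hle⟩ := isCompatible_galLevels_localLevelsP q U hU
    exact ⟨V, hV, fun s hs => hm s (hle hs)⟩
  · intro h m
    obtain ⟨U, hU, hm⟩ := h m
    obtain ⟨V, hV, hle⟩ := isCompatible_localLevelsP_galLevels q U hU
    exact ⟨V, hV, fun s hs => hm s (hle hs)⟩

/-- The image of the local level cohomology (all open subgroups) in the abstract `H¹` is the
Prelude's continuous local `H¹`. -/
theorem range_toGroupCohomology_local (hN : (primeLocalLevels q).IsDiscrete N) :
    LinearMap.range ((primeLocalLevels q).toGroupCohomology N 1).hom =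
      continuousH1 (primeLocalToGlobal q) N := by
  ext x
  rw [mem_range_toGroupCohomology_one_iff_of_isDiscrete _ _ hN, mem_continuousH1_iff]
  simp only [isLevelConstant₁_iff, isConst₁_primeLocalLevels_iff]

/-- The local level `H¹` is the Prelude's continuous local `H¹`. -/
noncomputable def localH1Equiv (hN : (primeLocalLevels q).IsDiscrete N) :
    (primeLocalLevels q).levelCohomology N 1 ≃ₗ[k] continuousH1 (primeLocalToGlobal q) N :=
  (LinearEquiv.ofInjective _ ((primeLocalLevels q).toGroupCohomology_one_injective N)).trans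
    (LinearEquiv.ofEq _ _ (range_toGroupCohomology_local q N hN))

theorem localH1Equiv_apply_coe (hN : (primeLocalLevels q).IsDiscrete N)
    (x : (primeLocalLevels q).levelCohomology N 1) :
    (localH1Equiv q N hN x : H1 N) = ((primeLocalLevels q).toGroupCohomology N 1).hom x := rfl

end Local

/-! ### Retractions and transported pairings -/

section Retr

variable {k : Type} [Field k] {G : Type} [Group G] (𝒰 : LevelFamily G)

/-- A linear retraction of the (injective) comparison map `H¹_level → H¹` in degree one. -/
noncomputable def retr (N : Rep k G) : H1 N →ₗ[k] 𝒰.levelCohomology N 1 :=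
  Classical.choose (LinearMap.exists_leftInverse_of_injective (𝒰.toGroupCohomology N 1).hom
    (LinearMap.ker_eq_bot.2 (𝒰.toGroupCohomology_one_injective N)))

@[simp]
theorem retr_toGroupCohomology (N : Rep k G) (x : 𝒰.levelCohomology N 1) :
    retr 𝒰 N ((𝒰.toGroupCohomology N 1).hom x) = x :=
  congr($(Classical.choose_spec (LinearMap.exists_leftInverse_of_injective
    (𝒰.toGroupCohomology N 1).hom
    (LinearMap.ker_eq_bot.2 (𝒰.toGroupCohomology_one_injective N)))) x)

/-- Transport of a pairing on level cohomology to the abstract `H¹` (through the retractions);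
only its values on the images of the level cohomology matter. -/
noncomputable def transportPairing (N N' : Rep k G)
    (lam : 𝒰.levelCohomology N 1 →ₗ[k] 𝒰.levelCohomology N' 1 →ₗ[k] k) :
    H1 N →ₗ[k] H1 N' →ₗ[k] k :=
  lam.compl₁₂ (retr 𝒰 N) (retr 𝒰 N')

@[simp]
theorem transportPairing_apply (N N' : Rep k G)
    (lam : 𝒰.levelCohomology N 1 →ₗ[k] 𝒰.levelCohomology N' 1 →ₗ[k] k)
    (x : 𝒰.levelCohomology N 1) (y : 𝒰.levelCohomology N' 1) :
    transportPairing 𝒰 N N' lam ((𝒰.toGroupCohomology N 1).hom x)
      ((𝒰.toGroupCohomology N' 1).hom y) = lam x y := by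
  rw [transportPairing, LinearMap.compl₁₂_apply, retr_toGroupCohomology, retr_toGroupCohomology]

end Retr

/-! ### Global side -/

section Global

variable {p : ℕ} [Fact p.Prime] (S : Finset Nat.Primes) (M : Rep (ZMod p) Γℚ)

/-- The abstract local `H¹` at the place `v` of `extArithIndex S`. -/
noncomputable abbrev H1At (v : extArithIndex S) : ModuleCat (ZMod p) :=
  H1 (Rep.res (extArithLoc S v) M)

/-- The comparison map of the local level cohomology at `q ∈ S`, in the packaging of
`arithDatum S`. -/
noncomputable def toGCLoc (q : S) :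
    (primeLocalLevels q.1).levelCohomology (Rep.res (primeLocalToGlobal q.1) M) 1 →ₗ[ZMod p]
      H1At S M (Sum.inr q) :=
  ((primeLocalLevels q.1).toGroupCohomology (Rep.res (primeLocalToGlobal q.1) M) 1).hom

/-- The comparison map of the global level cohomology. -/
noncomputable abbrev toGCGlob :
    (levelsS S).levelCohomology M 1 →ₗ[ZMod p] H1 M :=
  ((levelsS S).toGroupCohomology M 1).hom

theorem toGCLoc_injective (q : S) : Function.Injective (toGCLoc S M q) :=
  (primeLocalLevels q.1).toGroupCohomology_one_injective _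

theorem toGCGlob_injective : Function.Injective (toGCGlob S M) :=
  (levelsS S).toGroupCohomology_one_injective M

/-- The library's localisation map `(arithDatum S).locMapHAt M 1 q`, with its type spelled out. -/
noncomputable def locAt (q : S) :
    (levelsS S).levelCohomology M 1 →ₗ[ZMod p]
      (primeLocalLevels q.1).levelCohomology (Rep.res (primeLocalToGlobal q.1) M) 1 :=
  (arithDatum S).locMapHAt M 1 q

theorem locAt_eq (q : S) : locAt S M q = (arithDatum S).locMapHAt M 1 q := rfl

/-- **The localisation square**: the library's localisation map `D.locMapHAt M 1 q` corresponds to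
the Prelude's `locRes (extArithLoc S) M (Sum.inr q)`. -/
theorem toGCLoc_locAt (q : S) (y : (levelsS S).levelCohomology M 1) :
    toGCLoc S M q (locAt S M q y) =
      (locRes (extArithLoc S) M (Sum.inr q)).hom (toGCGlob S M y) := by
  exact
  toGroupCohomology_levelCohomologyMapOfHom_apply (primeLocalToGlobal q.1)
    (isCompatible_primeLocalLevels S q.1) (𝟙 (Rep.res (primeLocalToGlobal q.1) M)) 1 y

/-- A good module is discrete for the levels unramified outside `S`. -/
theorem isDiscrete_of_isGood {S : Finset Nat.Primes} {M : Rep (ZMod p) Γℚ}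
    (h : IsGoodModule p S M) : (levelsS S).IsDiscrete M :=
  isDiscrete_levelsS S M h.smooth h.unram

/-- `H¹` of the `S`-level complex is the Prelude's `continuousH1S S M`
(restatement of `Profinite/BridgeH1.levelH1EquivS`). -/
noncomputable def globalH1Equiv (hM : (levelsS S).IsDiscrete M) :
    (levelsS S).levelCohomology M 1 ≃ₗ[ZMod p] continuousH1S S M :=
  levelH1EquivS S M hM

theorem globalH1Equiv_apply_coe (hM : (levelsS S).IsDiscrete M)
    (x : (levelsS S).levelCohomology M 1) :
    (globalH1Equiv S M hM x : H1 M) = toGCGlob S M x := rfl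

/-! ### Local conditions and Selmer groups -/

/-- The library form of a family of Prelude local conditions: the preimage of `L (Sum.inr q)` in
the local level cohomology at `q ∈ S`. -/
noncomputable def libCond (L : ∀ v : extArithIndex S, Submodule (ZMod p) (H1At S M v)) (q : S) :
    Submodule (ZMod p)
      ((primeLocalLevels q.1).levelCohomology (Rep.res (primeLocalToGlobal q.1) M) 1) :=
  (L (Sum.inr q)).comap (toGCLoc S M q)

theorem mem_libCond (L : ∀ v : extArithIndex S, Submodule (ZMod p) (H1At S M v)) (q : S)
    (x : (primeLocalLevels q.1).levelCohomology (Rep.res (primeLocalToGlobal q.1) M) 1) :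
    x ∈ libCond S M L q ↔ toGCLoc S M q x ∈ L (Sum.inr q) := Iff.rfl

/-- The library Selmer group of a family of local conditions at the primes of `S`: the classes of
`H¹(G_S, M)` (level cohomology) whose localisations lie in `Λ q`. -/
noncomputable def libSel
    (Λ : ∀ q : S, Submodule (ZMod p)
      ((primeLocalLevels q.1).levelCohomology (Rep.res (primeLocalToGlobal q.1) M) 1)) :
    Submodule (ZMod p) ((levelsS S).levelCohomology M 1) :=
  ⨅ q : S, (Λ q).comap (locAt S M q)

theorem mem_libSel
    (Λ : ∀ q : S, Submodule (ZMod p)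
      ((primeLocalLevels q.1).levelCohomology (Rep.res (primeLocalToGlobal q.1) M) 1))
    (y : (levelsS S).levelCohomology M 1) :
    y ∈ libSel S M Λ ↔ ∀ q : S, locAt S M q y ∈ Λ q := by
  simp only [libSel, Submodule.mem_iInf, Submodule.mem_comap]

/-- `libSel` in the shape "comap of a product of local conditions under the total localisation
map" of `GW/Abstract`. -/
theorem libSel_eq_comap_pi
    (Λ : ∀ q : S, Submodule (ZMod p)
      ((primeLocalLevels q.1).levelCohomology (Rep.res (primeLocalToGlobal q.1) M) 1)) :
    libSel S M Λ =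
      (Submodule.pi Set.univ Λ).comap ((arithDatum S).locMapH M 1) := by
  ext y
  exact ⟨fun h q _ => (mem_libSel S M Λ y).1 h q,
    fun h => (mem_libSel S M Λ y).2 fun q => h q (Set.mem_univ q)⟩

variable {S M}

/-- **Selmer groups correspond**: the image of the library Selmer group of `libCond L` in the
abstract `H¹` is the Prelude Selmer group `Sel S M L` (`p` odd: the archimedean condition is
empty). -/
theorem map_libSel_eq_Sel (hp2 : p ≠ 2) (hM : (levelsS S).IsDiscrete M)
    (L : ∀ v : extArithIndex S, Submodule (ZMod p) (H1At S M v)) :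
    (libSel S M (libCond S M L)).map (toGCGlob S M) = Sel S M L := by
  ext x
  rw [Sel, Submodule.mem_inf, mem_selmer_iff, continuousH1S_eq_range S M hM]
  constructor
  · rintro ⟨y, hy, rfl⟩
    refine ⟨⟨y, rfl⟩, ?_⟩
    rintro (u | q)
    · have := subsingleton_H1_extArith_inl hp2 S M (Sum.inl u) u rfl
      rw [Subsingleton.elim ((locRes (extArithLoc S) M (Sum.inl u)).hom (toGCGlob S M y)) 0]
      exact Submodule.zero_mem _
    · rw [← toGCLoc_locAt]
      exact (mem_libSel S M _ y).1 hy q
  · rintro ⟨⟨y, rfl⟩, h⟩
    refine ⟨y, ?_, rfl⟩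
    rw [SetLike.mem_coe, mem_libSel]
    intro q
    rw [mem_libCond, toGCLoc_locAt]
    exact h (Sum.inr q)

/-- The library Selmer group of `libCond L` is the Prelude Selmer group `Sel S M L`. -/
noncomputable def selEquiv (hp2 : p ≠ 2) (hM : (levelsS S).IsDiscrete M)
    (L : ∀ v : extArithIndex S, Submodule (ZMod p) (H1At S M v)) :
    libSel S M (libCond S M L) ≃ₗ[ZMod p] Sel S M L :=
  (Submodule.equivMapOfInjective _ (toGCGlob_injective S M) _).trans
    (LinearEquiv.ofEq _ _ (map_libSel_eq_Sel hp2 hM L))

theorem selEquiv_apply_coe (hp2 : p ≠ 2) (hM : (levelsS S).IsDiscrete M)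
    (L : ∀ v : extArithIndex S, Submodule (ZMod p) (H1At S M v))
    (y : libSel S M (libCond S M L)) :
    (selEquiv hp2 hM L y : H1 M) = toGCGlob S M y.1 := rfl

theorem finrank_Sel (hp2 : p ≠ 2) (hM : (levelsS S).IsDiscrete M)
    (L : ∀ v : extArithIndex S, Submodule (ZMod p) (H1At S M v)) :
    finrank (ZMod p) (Sel S M L) = finrank (ZMod p) (libSel S M (libCond S M L)) :=
  (selEquiv hp2 hM L).finrank_eq.symm

/-! ### The local terms -/

/-- The restriction of a discrete module to the local Galois group at `q ∈ S` is discrete for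
the local levels. -/
theorem isDiscrete_res_local (hM : (levelsS S).IsDiscrete M) (q : S) :
    (primeLocalLevels q.1).IsDiscrete (Rep.res (primeLocalToGlobal q.1) M) :=
  (arithDatum S).isDiscrete_resRep M hM q

/-- The image of the local level cohomology at `q ∈ S` is `locH1 S M (Sum.inr q)`. -/
theorem range_toGCLoc (hM : (levelsS S).IsDiscrete M) (q : S) :
    LinearMap.range (toGCLoc S M q) = locH1 S M (Sum.inr q) :=
  range_toGroupCohomology_local q.1 _ (isDiscrete_res_local hM q)

theorem toGCLoc_mem_locH1 (hM : (levelsS S).IsDiscrete M) (q : S)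
    (x : (primeLocalLevels q.1).levelCohomology (Rep.res (primeLocalToGlobal q.1) M) 1) :
    toGCLoc S M q x ∈ locH1 S M (Sum.inr q) := by
  rw [← range_toGCLoc hM q]
  exact ⟨x, rfl⟩

/-- `libCond L q` maps isomorphically onto `L (Sum.inr q)` when the latter consists of continuous
classes. -/
theorem map_libCond (hM : (levelsS S).IsDiscrete M)
    (L : ∀ v : extArithIndex S, Submodule (ZMod p) (H1At S M v)) (q : S)
    (hL : L (Sum.inr q) ≤ locH1 S M (Sum.inr q)) :
    (libCond S M L q).map (toGCLoc S M q) = L (Sum.inr q) := by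
  rw [libCond, Submodule.map_comap_eq, range_toGCLoc hM q]
  exact inf_eq_right.2 hL

theorem finrank_libCond (hM : (levelsS S).IsDiscrete M)
    (L : ∀ v : extArithIndex S, Submodule (ZMod p) (H1At S M v)) (q : S)
    (hL : L (Sum.inr q) ≤ locH1 S M (Sum.inr q)) :
    finrank (ZMod p) (libCond S M L q) = finrank (ZMod p) (L (Sum.inr q)) := by
  have e := Submodule.equivMapOfInjective (toGCLoc S M q) (toGCLoc_injective S M q)
    (libCond S M L q)
  rw [e.finrank_eq, map_libCond hM L q hL]

/-- The archimedean local condition is zero-dimensional (`p` odd). -/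
theorem finrank_cond_inl (hp2 : p ≠ 2)
    (L : ∀ v : extArithIndex S, Submodule (ZMod p) (H1At S M v)) (u : Unit) :
    finrank (ZMod p) (L (Sum.inl u)) = 0 := by
  have := subsingleton_H1_extArith_inl hp2 S M (Sum.inl u) u rfl
  exact finrank_zero_of_subsingleton

/-- **The local terms correspond**: `∑_{v ∈ {∞} ⊔ S} dim L_v = ∑_{q ∈ S} dim (libCond L q)`. -/
theorem sum_finrank_cond (hp2 : p ≠ 2) (hM : (levelsS S).IsDiscrete M)
    (L : ∀ v : extArithIndex S, Submodule (ZMod p) (H1At S M v))
    (hL : ∀ v, L v ≤ locH1 S M v) :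
    ∑ v : extArithIndex S, finrank (ZMod p) (L v) =
      ∑ q : S, finrank (ZMod p) (libCond S M L q) := by
  have h1 : ∑ v : extArithIndex S, finrank (ZMod p) (L v) =
      ∑ u : Unit, finrank (ZMod p) (L (Sum.inl u)) +
        ∑ q : S, finrank (ZMod p) (L (Sum.inr q)) :=
    Fintype.sum_sum_type (fun v : Unit ⊕ S => finrank (ZMod p) (L v))
  rw [h1, Finset.sum_eq_zero (fun u _ => finrank_cond_inl hp2 L u), zero_add]
  exact Finset.sum_congr rfl fun q _ => (finrank_libCond hM L q (hL (Sum.inr q))).symm

/-! ### The `h⁰` terms -/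

variable (S M)

theorem finrank_H0_global :
    finrank (ZMod p) ((levelsS S).levelCohomology M 0) = finrank (ZMod p) M.ρ.invariants :=
  ((levelsS S).H0Equiv M).finrank_eq

theorem finrank_H0_local (q : S) :
    finrank (ZMod p)
        ((primeLocalLevels q.1).levelCohomology (Rep.res (primeLocalToGlobal q.1) M) 0) =
      finrank (ZMod p) (locH0 S M (Sum.inr q)) :=
  ((primeLocalLevels q.1).H0Equiv (Rep.res (primeLocalToGlobal q.1) M)).finrank_eq

/-- `∑_{v ∈ {∞} ⊔ S} h⁰(G_v, M) = h⁰(G_∞, M) + ∑_{q ∈ S} h⁰(G_q, M)` with the local terms in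
level cohomology. -/
theorem sum_finrank_locH0 :
    ∑ v : extArithIndex S, finrank (ZMod p) (locH0 S M v) =
      finrank (ZMod p) (locH0 S M (Sum.inl ())) +
        ∑ q : S, finrank (ZMod p)
          ((primeLocalLevels q.1).levelCohomology (Rep.res (primeLocalToGlobal q.1) M) 0) := by
  have h1 : ∑ v : extArithIndex S, finrank (ZMod p) (locH0 S M v) =
      ∑ u : Unit, finrank (ZMod p) (locH0 S M (Sum.inl u)) +
        ∑ q : S, finrank (ZMod p) (locH0 S M (Sum.inr q)) :=
    Fintype.sum_sum_type (fun v : Unit ⊕ S => finrank (ZMod p) (locH0 S M v))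
  rw [h1, Fintype.sum_unique]
  congr 1
  exact Finset.sum_congr rfl fun q _ => (finrank_H0_local S M q).symm

variable {S M}

/-! ### Dual conditions -/

/-- **Dual conditions correspond**: if the pairing `P` on the abstract local `H¹` restricts to
`lam` on the level cohomology at `q ∈ S`, then the library form of the dual condition
`dualCond P S M L` at `q` is the right orthogonal `orthR lam (libCond L q)`. -/
theorem libCond_dualCond
    (P : ∀ (q : Nat.Primes) (M : Rep (ZMod p) Γℚ),
      H1 (Rep.res (primeLocalToGlobal q) M) →ₗ[ZMod p]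
        H1 (Rep.res (primeLocalToGlobal q) (tateDual p M)) →ₗ[ZMod p] ZMod p)
    (hM : (levelsS S).IsDiscrete M) (hM' : (levelsS S).IsDiscrete (tateDual p M))
    (L : ∀ v : extArithIndex S, Submodule (ZMod p) (H1At S M v)) (q : S)
    (hL : L (Sum.inr q) ≤ locH1 S M (Sum.inr q))
    (lam : (primeLocalLevels q.1).levelCohomology (Rep.res (primeLocalToGlobal q.1) M) 1 →ₗ[ZMod p]
      (primeLocalLevels q.1).levelCohomology
        (Rep.res (primeLocalToGlobal q.1) (tateDual p M)) 1 →ₗ[ZMod p] ZMod p)
    (hP : ∀ x y, P q.1 M (toGCLoc S M q x) (toGCLoc S (tateDual p M) q y) = lam x y) :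
    libCond S (tateDual p M) (dualCond P S M L) q = orthR lam (libCond S M L q) := by
  ext y
  rw [mem_libCond, mem_orthR]
  show toGCLoc S (tateDual p M) q y ∈
    orthogonal (pairingOf P S M (Sum.inr q)) (L (Sum.inr q)) ⊓
      locH1 S (tateDual p M) (Sum.inr q) ↔ _
  rw [Submodule.mem_inf, mem_orthogonal_iff]
  constructor
  · rintro ⟨h, -⟩ x hx
    rw [← hP]
    exact h _ ((mem_libCond S M L q x).1 hx)
  · intro h
    refine ⟨fun x hx => ?_, toGCLoc_mem_locH1 hM' q y⟩
    have hx' : x ∈ LinearMap.range (toGCLoc S M q) := by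
      rw [range_toGCLoc hM q]
      exact hL hx
    obtain ⟨x', rfl⟩ := hx'
    show P q.1 M (toGCLoc S M q x') (toGCLoc S (tateDual p M) q y) = 0
    rw [hP]
    exact h x' hx

end Global

end Fermat.Agent.S56x.GW.Bridge
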