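import Mathlib
import Fermat.Agent.S56x.Cheb.DecompDense

/-!
# P-S56, block (B): the local Galois group maps ONTO the decomposition group (D+)

`exists_local_eq_of_mem_decomposition`: every element of the decomposition group of `padicPlace q`
is `localGaloisToGlobal q h` for some local automorphism `h` (the density statement
`Cheb/DecompDense.exists_local_mul_of_mem_decomposition` + compactness of the local Galois group).
Consequences: the same for the inertia group, and the inertia group is the image of
`localInertia`-type subgroups (preimages).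
-/

set_option autoImplicit false

open scoped IntermediateField

namespace Fermat.Agent.S56x.GW.DecompSurj

open Fermat.Agent.Lib.CFT.Profinite.Bridge Fermat.Agent.S56x.Cheb

local notation "Qbar" => AlgebraicClosure ℚ
local notation "Γℚ" => (AlgebraicClosure ℚ ≃ₐ[ℚ] AlgebraicClosure ℚ)

section Surj

variable (q : ℕ) [Fact q.Prime]

local notation "Gq" => (PadicAlgCl q ≃ₐ[ℚ_[q]] PadicAlgCl q)

/-- **(D+)** Every element of the decomposition group of `padicPlace q` comes from the local
Galois group. -/
theorem exists_local_eq_of_mem_decomposition (σ : Γℚ)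
    (hσ : σ ∈ (padicPlace q).decompositionSubgroup ℚ) :
    ∃ h : Gq, localGaloisToGlobal q h = σ := by
  classical
  let ι := {F : IntermediateField ℚ Qbar // FiniteDimensional ℚ F}
  let t : ι → Set Gq := fun F => {h | (localGaloisToGlobal q h)⁻¹ * σ ∈ F.1.fixingSubgroup}
  have hne : ∀ F : ι, (t F).Nonempty := by
    intro F
    have := F.2
    obtain ⟨h, s, hs, hσs⟩ := exists_local_mul_of_mem_decomposition q F.1 σ hσ
    refine ⟨h, ?_⟩
    show (localGaloisToGlobal q h)⁻¹ * σ ∈ F.1.fixingSubgroup
    rw [hσs, inv_mul_cancel_left]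
    exact hs
  have hcl : ∀ F : ι, IsClosed (t F) := by
    intro F
    have := F.2
    obtain ⟨h₀, hh₀⟩ := hne F
    have hh₀' : (localGaloisToGlobal q h₀)⁻¹ * σ ∈ F.1.fixingSubgroup := hh₀
    have hV : IsClosed ((localFieldOf q F.1).fixingSubgroup : Set Gq) :=
      IntermediateField.fixingSubgroup_isClosed _
    have heq : t F = (fun h : Gq => h⁻¹ * h₀) ⁻¹'
        ((localFieldOf q F.1).fixingSubgroup : Set Gq) := by
      ext h
      simp only [Set.mem_preimage, SetLike.mem_coe]
      rw [← comap_fixingSubgroup_eq_localFieldOf, Subgroup.mem_comap, map_mul, map_inv]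
      show (localGaloisToGlobal q h)⁻¹ * σ ∈ F.1.fixingSubgroup ↔ _
      have h1 : (localGaloisToGlobal q h)⁻¹ * σ =
          ((localGaloisToGlobal q h)⁻¹ * localGaloisToGlobal q h₀) *
            ((localGaloisToGlobal q h₀)⁻¹ * σ) := by group
      rw [h1]
      exact Subgroup.mul_mem_cancel_right _ hh₀'
    rw [heq]
    exact hV.preimage (continuous_inv.mul continuous_const)
  have hdir : Directed (· ⊇ ·) t := by
    intro F F'
    have := F.2
    have := F'.2
    refine ⟨⟨F.1 ⊔ F'.1, IntermediateField.finiteDimensional_sup F.1 F'.1⟩, ?_, ?_⟩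
    · intro h hh
      exact IntermediateField.fixingSubgroup_antitone le_sup_left hh
    · intro h hh
      exact IntermediateField.fixingSubgroup_antitone le_sup_right hh
  have : Nonempty ι := ⟨⟨⊥, inferInstance⟩⟩
  obtain ⟨h, hh⟩ := IsCompact.nonempty_iInter_of_directed_nonempty_isCompact_isClosed t hdir hne
    (fun F => (hcl F).isCompact) hcl
  refine ⟨h, ?_⟩
  rw [Set.mem_iInter] at hh
  apply AlgEquiv.ext
  intro x
  have hx : IsIntegral ℚ x := ((AlgebraicClosure.isAlgebraic ℚ).isAlgebraic x).isIntegral
  have h1 := hh ⟨ℚ⟮x⟯, IntermediateField.adjoin.finiteDimensional hx⟩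
  have h2 : (localGaloisToGlobal q h)⁻¹ * σ ∈ (ℚ⟮x⟯).fixingSubgroup := h1
  rw [IntermediateField.mem_fixingSubgroup_iff] at h2
  have h3 := h2 x (IntermediateField.mem_adjoin_simple_self ℚ x)
  have h4 : ((localGaloisToGlobal q h)⁻¹ * σ) x = (localGaloisToGlobal q h).symm (σ x) := rfl
  rw [h4] at h3
  have h5 := congrArg (localGaloisToGlobal q h) h3
  rw [AlgEquiv.apply_symm_apply] at h5
  exact h5.symm

/-- The inertia group of `padicPlace q` is contained in its decomposition group. -/
theorem inertiaSubgroupIn_le_decompositionSubgroup {K L : Type*} [Field K] [Field L] [Algebra K L]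
    (A : ValuationSubring L) : A.inertiaSubgroupIn K ≤ A.decompositionSubgroup K := by
  intro τ hτ
  rw [mem_inertiaSubgroupIn_iff] at hτ
  exact hτ.1

/-- **(D+) for inertia**: every element of the inertia group of `padicPlace q` comes from the
local Galois group. -/
theorem exists_local_eq_of_mem_inertia (σ : Γℚ)
    (hσ : σ ∈ (padicPlace q).inertiaSubgroupIn ℚ) :
    ∃ h : Gq, localGaloisToGlobal q h = σ :=
  exists_local_eq_of_mem_decomposition q σ (inertiaSubgroupIn_le_decompositionSubgroup _ hσ)

/-- The inertia group of `padicPlace q` is the image of its preimage in the local Galois group. -/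
theorem map_comap_inertia :
    (((padicPlace q).inertiaSubgroupIn ℚ).comap (localGaloisToGlobal q)).map
      (localGaloisToGlobal q) = (padicPlace q).inertiaSubgroupIn ℚ := by
  apply le_antisymm (Subgroup.map_comap_le _ _)
  intro σ hσ
  obtain ⟨h, rfl⟩ := exists_local_eq_of_mem_inertia q σ hσ
  exact ⟨h, hσ, rfl⟩

/-- The decomposition group of `padicPlace q` is the range of `localGaloisToGlobal q`. -/
theorem range_localGaloisToGlobal :
    (localGaloisToGlobal q).range = (padicPlace q).decompositionSubgroup ℚ := by
  apply le_antisymm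
  · rintro _ ⟨h, rfl⟩
    exact localGaloisToGlobal_mem_decompositionSubgroup q h
  · intro σ hσ
    obtain ⟨h, rfl⟩ := exists_local_eq_of_mem_decomposition q σ hσ
    exact ⟨h, rfl⟩

end Surj

end Fermat.Agent.S56x.GW.DecompSurj
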