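import Fermat.Agent.S56x.GW.Interface
import Fermat.Agent.Lib.CFT.Profinite.BridgePlaces
import Fermat.Agent.Lib.CFT.Profinite.BridgeNormal
import Fermat.Agent.S48x.Lift.Place

/-!
# P-S56, block (B): density of the local Galois group in the decomposition group (helper45)

* `norm_padicEmbedding_of_mem_decompositionSubgroup`: an element of the decomposition group of
  `padicPlace q` is an isometry for the `q`-adic norm on `Qbar`;
* `exists_localGalois_mul_fixing` **(D)**: the local Galois group is dense in the decomposition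
  group of `padicPlace q`: for `σ` in the decomposition group and `F` finite,
  `σ = localGaloisToGlobal q h * s` with `s ∈ F.fixingSubgroup`;
* `cocycle_eq_zero_of_mem_inertia`: a level-constant cocycle with values in a module unramified at
  `q` whose restriction to the local Galois group at `q` is a coboundary vanishes on every inertia
  group over `q`;
* `monoStatement : MonoStatement p`.
-/

set_option autoImplicit false

open CategoryTheory groupCohomology ExtCitation
open scoped Pointwise TensorProduct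

namespace Fermat.Agent.S56x.GW.Density

open Fermat.Agent.Lib.CFT.Profinite.Bridge

local notation "Qbar" => AlgebraicClosure ℚ
local notation "Γℚ" => (AlgebraicClosure ℚ ≃ₐ[ℚ] AlgebraicClosure ℚ)

section Isometry

variable (q : ℕ) [Fact q.Prime]

local notation "Ωq" => PadicAlgCl q
local notation "Gq" => (PadicAlgCl q ≃ₐ[ℚ_[q]] PadicAlgCl q)

theorem mem_padicPlace_smul_iff {σ : Γℚ} (hσ : σ ∈ (padicPlace q).decompositionSubgroup ℚ)
    (x : Qbar) : σ x ∈ padicPlace q ↔ x ∈ padicPlace q := by
  have h : σ • padicPlace q = padicPlace q := MulAction.mem_stabilizer_iff.1 hσ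
  conv_lhs => rw [← h]
  rw [mem_smul_iff]
  simp

/-- the `q`-adic absolute value on `Qbar` -/
noncomputable def padicAbs : AbsoluteValue Qbar ℝ :=
  (NormedField.toAbsoluteValue Ωq).comp (f := (padicEmbedding q).toRingHom)
    (padicEmbedding q).toRingHom.injective

theorem padicAbs_apply (x : Qbar) : padicAbs q x = ‖padicEmbedding q x‖ := rfl

/-- the `q`-adic absolute value on `Qbar` twisted by `σ` -/
noncomputable def padicAbsTwist (σ : Γℚ) : AbsoluteValue Qbar ℝ :=
  (padicAbs q).comp (f := (σ : Qbar →+* Qbar)) σ.injective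

theorem padicAbsTwist_apply (σ : Γℚ) (x : Qbar) :
    padicAbsTwist q σ x = ‖padicEmbedding q (σ x)‖ := rfl

theorem norm_natCast_padicAlgCl : ‖((q : ℕ) : Ωq)‖ = 1 / (q : ℝ) := by
  have h := PadicAlgCl.valuation_p q
  rw [← PadicAlgCl.valuation_coe, h]
  simp

theorem padicAbs_lt_one_iff {σ : Γℚ} (hσ : σ ∈ (padicPlace q).decompositionSubgroup ℚ)
    (x : Qbar) : padicAbs q x < 1 ↔ padicAbsTwist q σ x < 1 := by
  rw [padicAbs_apply, padicAbsTwist_apply,
    ← Fermat.Agent.S48x.Lift.mem_padicPlace_nonunits_iff,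
    ← Fermat.Agent.S48x.Lift.mem_padicPlace_nonunits_iff,
    ValuationSubring.mem_nonunits_iff_or, ValuationSubring.mem_nonunits_iff_or,
    ← map_inv₀ σ, mem_padicPlace_smul_iff q hσ, map_eq_zero_iff _ σ.injective]

/-- An element of the decomposition group of `padicPlace q` preserves the `q`-adic norm. -/
theorem norm_padicEmbedding_of_mem_decompositionSubgroup {σ : Γℚ}
    (hσ : σ ∈ (padicPlace q).decompositionSubgroup ℚ) (x : Qbar) :
    ‖padicEmbedding q (σ x)‖ = ‖padicEmbedding q x‖ := by
  have hequiv : (padicAbs q).IsEquiv (padicAbsTwist q σ) :=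
    AbsoluteValue.isEquiv_iff_lt_one_iff.2 (padicAbs_lt_one_iff q hσ)
  obtain ⟨c, hc, hcw⟩ := AbsoluteValue.isEquiv_iff_exists_rpow_eq.1 hequiv
  have hq1 : (1 : ℝ) < q := by exact_mod_cast (Fact.out : q.Prime).one_lt
  have hval : padicAbs q ((q : ℕ) : Qbar) = 1 / (q : ℝ) := by
    rw [padicAbs_apply, map_natCast, norm_natCast_padicAlgCl]
  have hval' : padicAbsTwist q σ ((q : ℕ) : Qbar) = 1 / (q : ℝ) := by
    rw [padicAbsTwist_apply, map_natCast, map_natCast, norm_natCast_padicAlgCl]
  have h1 := congr_fun hcw ((q : ℕ) : Qbar)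
  simp only [hval, hval'] at h1
  have hc1 : c = 1 := by
    have hpos : (0 : ℝ) < 1 / q := by positivity
    have hlt : (1 : ℝ) / q < 1 := by
      rw [div_lt_one (by linarith)]
      exact hq1
    have h2 : Real.log ((1 / (q : ℝ)) ^ c) = Real.log (1 / (q : ℝ)) := by rw [h1]
    rw [Real.log_rpow hpos] at h2
    have hlog : Real.log (1 / (q : ℝ)) ≠ 0 := (Real.log_neg hpos hlt).ne
    have : (c - 1) * Real.log (1 / (q : ℝ)) = 0 := by linarith
    rcases mul_eq_zero.1 this with h | h
    · linarith
    · exact absurd h hlog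
  have h3 := congr_fun hcw x
  simp only [hc1, Real.rpow_one] at h3
  rw [← padicAbsTwist_apply, ← padicAbs_apply]
  exact h3.symm

end Isometry

section Density

variable (q : ℕ) [Fact q.Prime] (F : IntermediateField ℚ Qbar)

local notation "Ωq" => PadicAlgCl q
local notation "Gq" => (PadicAlgCl q ≃ₐ[ℚ_[q]] PadicAlgCl q)

local instance instTowerQqPadic_mono : IsScalarTower ℚ ℚ_[q] (PadicAlgCl q) :=
  IsScalarTower.of_algebraMap_eq' (Subsingleton.elim _ _)

/-- the value of `locHom q F g` on `∑ i, a i ⊗ b i` -/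
noncomputable def linForm (g : Γℚ) {ι : Type} [Fintype ι] (b : ι → F) (a : ι → ℚ_[q]) : Ωq :=
  ∑ i, algebraMap ℚ_[q] Ωq (a i) * padicEmbedding q (g (b i : Qbar))

theorem locHom_sum_tmul (g : Γℚ) {ι : Type} [Fintype ι] (b : ι → F) (a : ι → ℚ_[q]) :
    locHom q F g (∑ i, a i ⊗ₜ[ℚ] b i) = linForm q F g b a := by
  unfold linForm
  rw [map_sum]
  exact Finset.sum_congr rfl fun i _ => locHom_tmul q F g (a i) (b i)

theorem linForm_ratCast (g : Γℚ) {ι : Type} [Fintype ι] (b : ι → F) (r : ι → ℚ) :
    linForm q F g b (fun i => (r i : ℚ_[q])) =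
      padicEmbedding q (g ((∑ i, algebraMap ℚ F (r i) * b i : F) : Qbar)) := by
  unfold linForm
  have h1 : ((∑ i, algebraMap ℚ F (r i) * b i : F) : Qbar) =
      ∑ i, algebraMap ℚ Qbar (r i) * (b i : Qbar) := by
    rw [← IntermediateField.coe_val, map_sum]
    refine Finset.sum_congr rfl fun i _ => ?_
    rw [map_mul]
    exact congrArg (· * _) (F.val.commutes (r i))
  rw [h1, map_sum, map_sum]
  refine Finset.sum_congr rfl fun i _ => ?_
  rw [map_mul, map_mul, AlgEquiv.commutes, AlgHom.commutes, map_ratCast, eq_ratCast]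

theorem norm_linForm_sub_le (g : Γℚ) {ι : Type} [Fintype ι] (b : ι → F) (a a' : ι → ℚ_[q]) :
    ‖linForm q F g b a - linForm q F g b a'‖ ≤
      ∑ i, ‖a i - a' i‖ * ‖padicEmbedding q (g (b i : Qbar))‖ := by
  unfold linForm
  rw [← Finset.sum_sub_distrib]
  refine (norm_sum_le _ _).trans (Finset.sum_le_sum fun i _ => ?_)
  rw [← sub_mul, ← map_sub, norm_mul, PadicAlgCl.norm_extends]

/-- For `σ` in the decomposition group of `padicPlace q`: a `ℚ_q`-linear relation between the
`ι (b i)` also holds between the `ι (σ (b i))` (approximate the coefficients by rationals and use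
that `σ` is an isometry). -/
theorem linForm_eq_zero_of_mem_decompositionSubgroup {σ : Γℚ}
    (hσ : σ ∈ (padicPlace q).decompositionSubgroup ℚ) {ι : Type} [Fintype ι] (b : ι → F)
    (a : ι → ℚ_[q]) (he : linForm q F 1 b a = 0) : linForm q F σ b a = 0 := by
  have hiso : ∀ x : Qbar, ‖padicEmbedding q (σ x)‖ = ‖padicEmbedding q x‖ :=
    norm_padicEmbedding_of_mem_decompositionSubgroup q hσ
  set C : ℝ := ∑ i, ‖padicEmbedding q ((b i : F) : Qbar)‖ with hC
  have hC0 : 0 ≤ C := Finset.sum_nonneg fun i _ => norm_nonneg _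
  by_contra hne
  set L : ℝ := ‖linForm q F σ b a‖ with hL
  have hpos : 0 < L := norm_pos_iff.2 hne
  set ε : ℝ := L / (2 * C + 1) with hε
  have hεpos : 0 < ε := div_pos hpos (by linarith)
  choose r hr using fun i => Padic.rat_dense q (a i) hεpos
  set a' : ι → ℚ_[q] := fun i => (r i : ℚ_[q]) with ha'
  -- the two estimates
  have h1 : ‖linForm q F σ b a - linForm q F σ b a'‖ ≤ ε * C := by
    refine (norm_linForm_sub_le q F σ b a a').trans ?_
    rw [hC, Finset.mul_sum]
    refine Finset.sum_le_sum fun i _ => ?_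
    rw [hiso]
    exact mul_le_mul_of_nonneg_right (hr i).le (norm_nonneg _)
  have h2 : ‖linForm q F 1 b a'‖ ≤ ε * C := by
    have h := norm_linForm_sub_le q F 1 b a' a
    rw [he, sub_zero] at h
    refine h.trans ?_
    rw [hC, Finset.mul_sum]
    refine Finset.sum_le_sum fun i _ => ?_
    rw [AlgEquiv.one_apply, norm_sub_rev]
    exact mul_le_mul_of_nonneg_right (hr i).le (norm_nonneg _)
  have h3 : ‖linForm q F σ b a'‖ = ‖linForm q F 1 b a'‖ := by
    rw [ha', linForm_ratCast, linForm_ratCast, hiso, AlgEquiv.one_apply]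
  have h4 : L ≤ ε * C + ε * C := by
    have h5 : linForm q F σ b a = (linForm q F σ b a - linForm q F σ b a') + linForm q F σ b a' :=
      (sub_add_cancel _ _).symm
    rw [hL, h5]
    refine (norm_add_le _ _).trans (add_le_add h1 ?_)
    rw [h3]
    exact h2
  have h6 : ε * (2 * C + 1) = L := by
    rw [hε]
    field_simp
  nlinarith

/-- every element of `ℚ_q ⊗ F` is a finite sum of pure tensors -/
theorem exists_eq_sum_tmul (e : ℚ_[q] ⊗[ℚ] F) :
    ∃ (ι : Type) (_ : Fintype ι) (a : ι → ℚ_[q]) (b : ι → F), e = ∑ i, a i ⊗ₜ[ℚ] b i := by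
  induction e using TensorProduct.induction_on with
  | zero => exact ⟨PEmpty, inferInstance, PEmpty.elim, PEmpty.elim, by simp⟩
  | tmul a b => exact ⟨Unit, inferInstance, fun _ => a, fun _ => b, by simp⟩
  | add x y hx hy =>
    obtain ⟨ι, _, a, b, rfl⟩ := hx
    obtain ⟨ι', _, a', b', rfl⟩ := hy
    refine ⟨ι ⊕ ι', inferInstance, Sum.elim a a', Sum.elim b b', ?_⟩
    rw [Fintype.sum_sum_type]
    simp

/-- For `σ` in the decomposition group of `padicPlace q`, the kernel of `locHom q F 1` is contained
in the kernel of `locHom q F σ`. -/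
theorem locHom_eq_zero_of_mem_decompositionSubgroup {σ : Γℚ}
    (hσ : σ ∈ (padicPlace q).decompositionSubgroup ℚ) (e : ℚ_[q] ⊗[ℚ] F)
    (he : locHom q F 1 e = 0) : locHom q F σ e = 0 := by
  obtain ⟨ι, _, a, b, rfl⟩ := exists_eq_sum_tmul q F e
  rw [locHom_sum_tmul] at he ⊢
  exact linForm_eq_zero_of_mem_decompositionSubgroup q F hσ b a he

variable [FiniteDimensional ℚ F]

theorem asIdeal_placeAt (g : Γℚ) : (placeAt q F g).asIdeal = RingHom.ker (locHom q F g) := rfl

/-- the place of `F` cut out by an element of the decomposition group of `padicPlace q` is the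
place cut out by `1` -/
theorem placeAt_eq_of_mem_decompositionSubgroup {σ : Γℚ}
    (hσ : σ ∈ (padicPlace q).decompositionSubgroup ℚ) : placeAt q F 1 = placeAt q F σ := by
  apply MaximalSpectrum.ext
  refine (placeAt q F 1).isMaximal.eq_of_le (placeAt q F σ).isMaximal.ne_top ?_
  rw [asIdeal_placeAt, asIdeal_placeAt]
  exact fun e he => locHom_eq_zero_of_mem_decompositionSubgroup q F hσ e he

/-- **(D)** The local Galois group is dense in the decomposition group of `padicPlace q`: modulo
the fixing subgroup of any finite extension `F`, every element of the decomposition group comes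
from the local Galois group. -/
theorem exists_localGalois_mul_fixing {σ : Γℚ}
    (hσ : σ ∈ (padicPlace q).decompositionSubgroup ℚ) :
    ∃ h : Gq, ∃ s ∈ F.fixingSubgroup, σ = localGaloisToGlobal q h * s := by
  obtain ⟨h, s, hs, hσs⟩ :=
    (placeAt_eq_iff q F 1 σ).1 (placeAt_eq_of_mem_decompositionSubgroup q F hσ)
  exact ⟨h, s, hs, by rw [hσs, mul_one]⟩

end Density

end Fermat.Agent.S56x.GW.Density
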