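import Fermat.Agent.S56x.GW.Interface

/-!
# P-S56, block (B), file (F4): enlarging the set `S` in the Greenberg-Wiles inequality

The Greenberg-Wiles inequality `gw_le` of `GWPackage` for the pair `(S, L)` follows from the same
inequality for `(S ∪ T, L')`, where `L'` extends `L` by "unramified" local conditions `U t` at the
new primes `t ∈ T \ S`.  This file is pure bookkeeping: the family `U` (and the family `U'` for the
Tate dual) is abstract, and the four facts about unramified classes that are used appear as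
hypotheses:

* `(U1)` the localisation at `t ∉ S` of a class unramified outside `S` lies in `U t`;
* `(U2)` a class of the dual, unramified outside `S ∪ T`, whose localisations at `t ∈ T \ S` lie in
  `U' t`, is unramified outside `S`;
* `(U3)` `dim U t ≤ dim H⁰(G_t, M)`;
* `(U4)` the orthogonal complement of `U t` inside the continuous local `H¹` of the dual is
  contained in `U' t`.
-/

set_option autoImplicit false

open CategoryTheory groupCohomology ExtCitation Module

namespace Fermat.Agent.S56x.GW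

local notation "Qbar" => AlgebraicClosure ℚ
local notation "Γℚ" => (AlgebraicClosure ℚ ≃ₐ[ℚ] AlgebraicClosure ℚ)

variable {p : ℕ} [Fact p.Prime]

/-- The extension of the local conditions `L` on `S` to `S ∪ T` by the conditions `U t` at the
primes `t ∉ S`. -/
noncomputable def extendCond (S T : Finset Nat.Primes) (M : Rep (ZMod p) Γℚ)
    (L : ∀ v : extArithIndex S, Submodule (ZMod p) (H1 (Rep.res (extArithLoc S v) M)))
    (U : ∀ q : Nat.Primes, Submodule (ZMod p) (H1 (Rep.res (primeLocalToGlobal q) M))) :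
    ∀ v : extArithIndex (S ∪ T), Submodule (ZMod p) (H1 (Rep.res (extArithLoc (S ∪ T) v) M))
  | Sum.inl u => L (Sum.inl u)
  | Sum.inr q => if h : q.1 ∈ S then L (Sum.inr ⟨q.1, h⟩) else U q.1

section Bookkeeping

variable (S T : Finset Nat.Primes) (M : Rep (ZMod p) Γℚ)
  (L : ∀ v : extArithIndex S, Submodule (ZMod p) (H1 (Rep.res (extArithLoc S v) M)))
  (U : ∀ q : Nat.Primes, Submodule (ZMod p) (H1 (Rep.res (primeLocalToGlobal q) M)))

theorem extendCond_inl (u : Unit) : extendCond S T M L U (Sum.inl u) = L (Sum.inl u) := rfl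

theorem extendCond_inr_of_mem (q : Nat.Primes) (hq : q ∈ S) (hq' : q ∈ S ∪ T) :
    extendCond S T M L U (Sum.inr ⟨q, hq'⟩) = L (Sum.inr ⟨q, hq⟩) :=
  dif_pos hq

theorem extendCond_inr_of_not_mem (q : Nat.Primes) (hq : q ∉ S) (hq' : q ∈ S ∪ T) :
    extendCond S T M L U (Sum.inr ⟨q, hq'⟩) = U q :=
  dif_neg hq

/-- If `L ≤ locH1` and `U ≤` the continuous local `H¹`, the extended conditions are continuous. -/
theorem extendCond_le_locH1 (hL : ∀ v, L v ≤ locH1 S M v)
    (hU : ∀ t ∈ T, t ∉ S → U t ≤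
      continuousH1 (primeLocalToGlobal t) (Rep.res (primeLocalToGlobal t) M)) :
    ∀ v, extendCond S T M L U v ≤ locH1 (S ∪ T) M v := by
  rintro (u | ⟨q, hq'⟩)
  · exact hL (Sum.inl u)
  · by_cases hq : q ∈ S
    · rw [extendCond_inr_of_mem S T M L U q hq hq']
      exact hL (Sum.inr ⟨q, hq⟩)
    · rw [extendCond_inr_of_not_mem S T M L U q hq hq']
      exact hU q ((Finset.mem_union.mp hq').resolve_left hq) hq

end Bookkeeping

namespace EnlargeS

section Selmer

variable (P : ∀ (q : Nat.Primes) (M : Rep (ZMod p) Γℚ),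
      H1 (Rep.res (primeLocalToGlobal q) M) →ₗ[ZMod p]
        H1 (Rep.res (primeLocalToGlobal q) (tateDual p M)) →ₗ[ZMod p] ZMod p)
  (S T : Finset Nat.Primes) (M : Rep (ZMod p) Γℚ)
  (L : ∀ v : extArithIndex S, Submodule (ZMod p) (H1 (Rep.res (extArithLoc S v) M)))
  (U : ∀ q : Nat.Primes, Submodule (ZMod p) (H1 (Rep.res (primeLocalToGlobal q) M)))
  (U' : ∀ q : Nat.Primes,
      Submodule (ZMod p) (H1 (Rep.res (primeLocalToGlobal q) (tateDual p M))))

/-- The Selmer group only grows when `S` is enlarged by unramified conditions. -/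
theorem sel_le_sel_extendCond
    (hU1 : ∀ x ∈ continuousH1S S M, ∀ t ∈ T, t ∉ S →
      (locRes (fun q : Nat.Primes => primeLocalToGlobal q) M t).hom x ∈ U t) :
    Sel S M L ≤ Sel (S ∪ T) M (extendCond S T M L U) := by
  intro x hx
  obtain ⟨hx1, hx2⟩ := Submodule.mem_inf.mp hx
  rw [mem_selmer_iff] at hx2
  refine Submodule.mem_inf.mpr ⟨continuousH1S_mono (S := S) (M := M) Finset.subset_union_left hx1, ?_⟩
  rw [mem_selmer_iff]
  rintro (u | ⟨q, hq'⟩)
  · exact hx2 (Sum.inl u)
  · by_cases hq : q ∈ S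
    · rw [extendCond_inr_of_mem S T M L U q hq hq']
      exact hx2 (Sum.inr ⟨q, hq⟩)
    · rw [extendCond_inr_of_not_mem S T M L U q hq hq']
      exact hU1 x hx1 q ((Finset.mem_union.mp hq').resolve_left hq) hq

theorem dualCond_inr_of_mem (q : Nat.Primes) (hq : q ∈ S) (hq' : q ∈ S ∪ T) :
    dualCond P (S ∪ T) M (extendCond S T M L U) (Sum.inr ⟨q, hq'⟩) =
      dualCond P S M L (Sum.inr ⟨q, hq⟩) := by
  unfold dualCond
  rw [extendCond_inr_of_mem S T M L U q hq hq']
  rfl

theorem dualCond_inr_of_not_mem (q : Nat.Primes) (hq : q ∉ S) (hq' : q ∈ S ∪ T) :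
    dualCond P (S ∪ T) M (extendCond S T M L U) (Sum.inr ⟨q, hq'⟩) =
      orthogonal (P q M) (U q) ⊓
        continuousH1 (primeLocalToGlobal q) (Rep.res (primeLocalToGlobal q) (tateDual p M)) := by
  unfold dualCond
  rw [extendCond_inr_of_not_mem S T M L U q hq hq']
  rfl

/-- The dual Selmer group only shrinks when `S` is enlarged by unramified conditions. -/
theorem sel_dualCond_extendCond_le
    (hU2 : ∀ y ∈ continuousH1S (S ∪ T) (tateDual p M),
      (∀ t ∈ T, t ∉ S →
        (locRes (fun q : Nat.Primes => primeLocalToGlobal q) (tateDual p M) t).hom y ∈ U' t) →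
      y ∈ continuousH1S S (tateDual p M))
    (hU4 : ∀ t ∈ T, t ∉ S →
      orthogonal (P t M) (U t) ⊓
        continuousH1 (primeLocalToGlobal t) (Rep.res (primeLocalToGlobal t) (tateDual p M)) ≤ U' t) :
    Sel (S ∪ T) (tateDual p M) (dualCond P (S ∪ T) M (extendCond S T M L U)) ≤
      Sel S (tateDual p M) (dualCond P S M L) := by
  intro y hy
  obtain ⟨hy1, hy2⟩ := Submodule.mem_inf.mp hy
  rw [mem_selmer_iff] at hy2
  have hyS : y ∈ continuousH1S S (tateDual p M) := by
    apply hU2 y hy1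
    intro t ht htS
    have h1 := hy2 (Sum.inr ⟨t, Finset.mem_union_right _ ht⟩)
    rw [dualCond_inr_of_not_mem P S T M L U t htS] at h1
    exact hU4 t ht htS h1
  refine Submodule.mem_inf.mpr ⟨hyS, ?_⟩
  rw [mem_selmer_iff]
  rintro (u | ⟨q, hq⟩)
  · exact hy2 (Sum.inl u)
  · have h1 := hy2 (Sum.inr ⟨q, Finset.mem_union_left _ hq⟩)
    rw [dualCond_inr_of_mem P S T M L U q hq] at h1
    exact h1

end Selmer

section Sums

variable (S T : Finset Nat.Primes) (M : Rep (ZMod p) Γℚ)
  (L : ∀ v : extArithIndex S, Submodule (ZMod p) (H1 (Rep.res (extArithLoc S v) M)))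
  (U : ∀ q : Nat.Primes, Submodule (ZMod p) (H1 (Rep.res (primeLocalToGlobal q) M)))

/-- A sum over `extArithIndex S` splits into the archimedean term and the sum over `S`. -/
theorem sum_extArithIndex (S : Finset Nat.Primes) (f : extArithIndex S → ℕ) :
    ∑ v, f v = f (Sum.inl ()) + ∑ q : ↥S, f (Sum.inr q) := by
  have h := Fintype.sum_sum_type (α₁ := Unit) (α₂ := ↥S) (fun v => f v)
  have h' : ∑ a₁ : Unit, f (Sum.inl a₁) = f (Sum.inl ()) := Fintype.sum_unique _
  rw [h'] at h
  exact h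

theorem sum_union_sdiff (S T : Finset Nat.Primes) (f : Nat.Primes → ℕ) :
    ∑ q ∈ S ∪ T, f q = ∑ q ∈ S, f q + ∑ q ∈ T \ S, f q := by
  rw [← Finset.union_sdiff_self_eq_union, Finset.sum_union Finset.disjoint_sdiff]

/-- `h⁰(G_q, M)` as a function of the prime `q`. -/
noncomputable def h0At (M : Rep (ZMod p) Γℚ) (q : Nat.Primes) : ℕ :=
  finrank (ZMod p) (Rep.res (primeLocalToGlobal q) M).ρ.invariants

theorem sum_locH0 (S : Finset Nat.Primes) :
    ∑ v, finrank (ZMod p) (locH0 S M v) =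
      finrank (ZMod p) (locH0 S M (Sum.inl ())) + ∑ q ∈ S, h0At M q := by
  rw [sum_extArithIndex, ← Finset.sum_coe_sort S (h0At M)]
  rfl

theorem sum_locH0_union :
    ∑ v, finrank (ZMod p) (locH0 (S ∪ T) M v) =
      ∑ v, finrank (ZMod p) (locH0 S M v) + ∑ q ∈ T \ S, h0At M q := by
  rw [sum_locH0, sum_locH0, sum_union_sdiff, add_assoc]
  rfl

/-- `dim L'_q` as a function of the prime `q`. -/
noncomputable def dimAt (q : Nat.Primes) : ℕ :=
  if h : q ∈ S then finrank (ZMod p) (L (Sum.inr ⟨q, h⟩)) else finrank (ZMod p) (U q)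

theorem finrank_extendCond_inr (q : ↥(S ∪ T)) :
    finrank (ZMod p) (extendCond S T M L U (Sum.inr q)) = dimAt S M L U q.1 := by
  obtain ⟨q, hq'⟩ := q
  unfold dimAt
  by_cases hq : q ∈ S
  · rw [extendCond_inr_of_mem S T M L U q hq hq', dif_pos hq]
    rfl
  · rw [extendCond_inr_of_not_mem S T M L U q hq hq', dif_neg hq]
    rfl

theorem sum_extendCond :
    ∑ v, finrank (ZMod p) (extendCond S T M L U v) =
      ∑ v, finrank (ZMod p) (L v) + ∑ q ∈ T \ S, finrank (ZMod p) (U q) := by
  rw [sum_extArithIndex, sum_extArithIndex]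
  have h1 : ∑ q : ↥(S ∪ T), finrank (ZMod p) (extendCond S T M L U (Sum.inr q)) =
      ∑ q ∈ S ∪ T, dimAt S M L U q := by
    rw [← Finset.sum_coe_sort (S ∪ T) (dimAt S M L U)]
    exact Finset.sum_congr rfl fun q _ => finrank_extendCond_inr S T M L U q
  have h2 : ∑ q : ↥S, finrank (ZMod p) (L (Sum.inr q)) = ∑ q ∈ S, dimAt S M L U q := by
    rw [← Finset.sum_coe_sort S (dimAt S M L U)]
    refine Finset.sum_congr rfl fun q _ => ?_
    unfold dimAt
    rw [dif_pos q.2]
  have h3 : ∑ q ∈ T \ S, dimAt S M L U q = ∑ q ∈ T \ S, finrank (ZMod p) (U q) := by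
    refine Finset.sum_congr rfl fun q hq => ?_
    unfold dimAt
    rw [dif_neg (Finset.mem_sdiff.mp hq).2]
  rw [h1, h2, ← h3, sum_union_sdiff, add_assoc]
  rfl

end Sums

end EnlargeS

open EnlargeS

/-- **Enlarging `S`.** -/
theorem gw_le_of_enlarge
    (P : ∀ (q : Nat.Primes) (M : Rep (ZMod p) Γℚ),
      H1 (Rep.res (primeLocalToGlobal q) M) →ₗ[ZMod p]
        H1 (Rep.res (primeLocalToGlobal q) (tateDual p M)) →ₗ[ZMod p] ZMod p)
    (S T : Finset Nat.Primes) (M : Rep (ZMod p) Γℚ)
    (L : ∀ v : extArithIndex S, Submodule (ZMod p) (H1 (Rep.res (extArithLoc S v) M)))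
    (U : ∀ q : Nat.Primes, Submodule (ZMod p) (H1 (Rep.res (primeLocalToGlobal q) M)))
    (U' : ∀ q : Nat.Primes,
      Submodule (ZMod p) (H1 (Rep.res (primeLocalToGlobal q) (tateDual p M))))
    (hfin : Module.Finite (ZMod p) (continuousH1S (S ∪ T) M))
    (hfin' : Module.Finite (ZMod p) (continuousH1S S (tateDual p M)))
    (hU1 : ∀ x ∈ continuousH1S S M, ∀ t ∈ T, t ∉ S →
      (locRes (fun q : Nat.Primes => primeLocalToGlobal q) M t).hom x ∈ U t)
    (hU2 : ∀ y ∈ continuousH1S (S ∪ T) (tateDual p M),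
      (∀ t ∈ T, t ∉ S →
        (locRes (fun q : Nat.Primes => primeLocalToGlobal q) (tateDual p M) t).hom y ∈ U' t) →
      y ∈ continuousH1S S (tateDual p M))
    (hU3 : ∀ t ∈ T, t ∉ S → finrank (ZMod p) (U t) ≤
      finrank (ZMod p) (Rep.res (primeLocalToGlobal t) M).ρ.invariants)
    (hU4 : ∀ t ∈ T, t ∉ S →
      orthogonal (P t M) (U t) ⊓
        continuousH1 (primeLocalToGlobal t) (Rep.res (primeLocalToGlobal t) (tateDual p M)) ≤ U' t)
    (h : finrank (ZMod p) (Sel (S ∪ T) M (extendCond S T M L U)) +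
          finrank (ZMod p) (tateDual p M).ρ.invariants +
          ∑ v, finrank (ZMod p) (locH0 (S ∪ T) M v) ≤
        finrank (ZMod p) (Sel (S ∪ T) (tateDual p M)
            (dualCond P (S ∪ T) M (extendCond S T M L U))) +
          finrank (ZMod p) M.ρ.invariants +
          ∑ v, finrank (ZMod p) (extendCond S T M L U v)) :
    finrank (ZMod p) (Sel S M L) + finrank (ZMod p) (tateDual p M).ρ.invariants +
        ∑ v, finrank (ZMod p) (locH0 S M v) ≤
      finrank (ZMod p) (Sel S (tateDual p M) (dualCond P S M L)) +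
        finrank (ZMod p) M.ρ.invariants + ∑ v, finrank (ZMod p) (L v) := by
  have hsel := sel_le_sel_extendCond S T M L U hU1
  have hsel' := sel_dualCond_extendCond_le P S T M L U U' hU2 hU4
  have : Module.Finite (ZMod p) (Sel (S ∪ T) M (extendCond S T M L U)) :=
    Submodule.finiteDimensional_of_le (inf_le_left : Sel (S ∪ T) M (extendCond S T M L U) ≤
      continuousH1S (S ∪ T) M)
  have : Module.Finite (ZMod p) (Sel S (tateDual p M) (dualCond P S M L)) :=
    Submodule.finiteDimensional_of_le (inf_le_left : Sel S (tateDual p M) (dualCond P S M L) ≤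
      continuousH1S S (tateDual p M))
  have h1 := Submodule.finrank_mono hsel
  have h2 := Submodule.finrank_mono hsel'
  have h3 : ∑ q ∈ T \ S, finrank (ZMod p) (U q) ≤ ∑ q ∈ T \ S, h0At M q :=
    Finset.sum_le_sum fun q hq =>
      hU3 q (Finset.mem_sdiff.mp hq).1 (Finset.mem_sdiff.mp hq).2
  rw [sum_locH0_union, sum_extendCond] at h
  omega

/-- **Enlarging `S`**, packaged for the consumer: the inequality for `S ∪ T` is assumed for all
continuous local conditions. -/
theorem gw_le_of_enlarge_of_forall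
    (P : ∀ (q : Nat.Primes) (M : Rep (ZMod p) Γℚ),
      H1 (Rep.res (primeLocalToGlobal q) M) →ₗ[ZMod p]
        H1 (Rep.res (primeLocalToGlobal q) (tateDual p M)) →ₗ[ZMod p] ZMod p)
    (S T : Finset Nat.Primes) (M : Rep (ZMod p) Γℚ)
    (L : ∀ v : extArithIndex S, Submodule (ZMod p) (H1 (Rep.res (extArithLoc S v) M)))
    (hL : ∀ v, L v ≤ locH1 S M v)
    (U : ∀ q : Nat.Primes, Submodule (ZMod p) (H1 (Rep.res (primeLocalToGlobal q) M)))
    (U' : ∀ q : Nat.Primes,
      Submodule (ZMod p) (H1 (Rep.res (primeLocalToGlobal q) (tateDual p M))))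
    (hfin : Module.Finite (ZMod p) (continuousH1S (S ∪ T) M))
    (hfin' : Module.Finite (ZMod p) (continuousH1S S (tateDual p M)))
    (hU1 : ∀ x ∈ continuousH1S S M, ∀ t ∈ T, t ∉ S →
      (locRes (fun q : Nat.Primes => primeLocalToGlobal q) M t).hom x ∈ U t)
    (hU2 : ∀ y ∈ continuousH1S (S ∪ T) (tateDual p M),
      (∀ t ∈ T, t ∉ S →
        (locRes (fun q : Nat.Primes => primeLocalToGlobal q) (tateDual p M) t).hom y ∈ U' t) →
      y ∈ continuousH1S S (tateDual p M))
    (hU3 : ∀ t ∈ T, t ∉ S → finrank (ZMod p) (U t) ≤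
      finrank (ZMod p) (Rep.res (primeLocalToGlobal t) M).ρ.invariants)
    (hU4 : ∀ t ∈ T, t ∉ S →
      orthogonal (P t M) (U t) ⊓
        continuousH1 (primeLocalToGlobal t) (Rep.res (primeLocalToGlobal t) (tateDual p M)) ≤ U' t)
    (hU5 : ∀ t ∈ T, t ∉ S → U t ≤
      continuousH1 (primeLocalToGlobal t) (Rep.res (primeLocalToGlobal t) M))
    (h : ∀ L' : ∀ v : extArithIndex (S ∪ T),
        Submodule (ZMod p) (H1 (Rep.res (extArithLoc (S ∪ T) v) M)),
      (∀ v, L' v ≤ locH1 (S ∪ T) M v) →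
      finrank (ZMod p) (Sel (S ∪ T) M L') +
          finrank (ZMod p) (tateDual p M).ρ.invariants +
          ∑ v, finrank (ZMod p) (locH0 (S ∪ T) M v) ≤
        finrank (ZMod p) (Sel (S ∪ T) (tateDual p M) (dualCond P (S ∪ T) M L')) +
          finrank (ZMod p) M.ρ.invariants + ∑ v, finrank (ZMod p) (L' v)) :
    finrank (ZMod p) (Sel S M L) + finrank (ZMod p) (tateDual p M).ρ.invariants +
        ∑ v, finrank (ZMod p) (locH0 S M v) ≤
      finrank (ZMod p) (Sel S (tateDual p M) (dualCond P S M L)) +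
        finrank (ZMod p) M.ρ.invariants + ∑ v, finrank (ZMod p) (L v) :=
  gw_le_of_enlarge P S T M L U U' hfin hfin' hU1 hU2 hU3 hU4
    (h _ (extendCond_le_locH1 S T M L U hL hU5))

end Fermat.Agent.S56x.GW

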