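import Fermat.Agent.S56x.GW.LevelGW
import Fermat.Agent.S56x.GW.LocalFields
import Fermat.Agent.S56x.Local.InfinityLocal

/-!
# P-S56 block (B): the Greenberg–Wiles inequality in the Prelude formalism (F2b, helper87)

`gw_le_of` : EXACTLY the conclusion of the field `GWPackage.gw_le` of `S56x/GW/Interface.lean`
(for a family of local pairings `P` which, on continuous classes, is a nonzero multiple of the
library pairing `lamRes` with the local invariant `(I.loc q).inv`), from

* the Greenberg–Wiles formula in level formalism (`S56x/GW/LevelGW.greenbergWiles_level`),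
* the dictionary level cohomology `↔` Prelude (`Lib/CFT/Profinite/Bridge*`, `S56x/GW/LocalFields`),
* ONE Euler characteristic input, the inequality `dim M^{c = 1} ≤ χ_c(M)` (`eulerCharC`).
-/

set_option autoImplicit false
set_option linter.unusedSectionVars false

open CategoryTheory groupCohomology ExtCitation Module

namespace Fermat.Agent.S56x.GW.Export

open Fermat.Agent.Lib.CFT.Profinite Fermat.Agent.Lib.CFT.Profinite.LevelFamily
open Fermat.Agent.Lib.CFT.Profinite.Bridge
open Fermat.Agent.Lib.CFT.Duality Fermat.Agent.Lib.CFT.Duality.LocalTate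
open Fermat.Agent.Lib.CFT.Duality.PoitouTate
open Fermat.Agent.S56x.GW

local notation "Qbar" => AlgebraicClosure ℚ
local notation "Γℚ" => (AlgebraicClosure ℚ ≃ₐ[ℚ] AlgebraicClosure ℚ)

variable {p : ℕ} [Fact p.Prime] {S : Finset Nat.Primes}

/-! ### The dictionary -/

section Dictionary

variable (M : Rep (ZMod p) Γℚ)

/-- The comparison map `H¹(G_S, M) → H¹(Γℚ, M)` from level cohomology to abstract cohomology. -/
noncomputable abbrev globIota (S : Finset Nat.Primes) (M : Rep (ZMod p) Γℚ) :
    (arithDatum S).𝒰.levelCohomology M 1 →ₗ[ZMod p] H1 M :=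
  ((levelsS S).toGroupCohomology M 1).hom

theorem globIota_injective : Function.Injective (globIota S M) :=
  (levelsS S).toGroupCohomology_one_injective M

/-- Compatibility of the localisation maps: `res_q (ι y) = ι_q (loc_q y)`. -/
theorem locRes_globIota (q : S) (y : (arithDatum S).𝒰.levelCohomology M 1) :
    (locRes (extArithLoc S) M (Sum.inr q)).hom (globIota S M y) =
      locIota q.1 M ((arithDatum S).locMapHAt M 1 q y) :=
  (toGroupCohomology_levelCohomologyMapOfHom_apply (primeLocalToGlobal q.1)
    (isCompatible_primeLocalLevels S q.1) (𝟙 (Rep.res (primeLocalToGlobal q.1) M)) 1 y).symm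

/-- The local conditions transported to the level side, as a subspace of `P¹(M)`. -/
noncomputable def levelCond
    (L : ∀ v : extArithIndex S, Submodule (ZMod p) (H1 (Rep.res (extArithLoc S v) M))) :
    Submodule (ZMod p) ((arithDatum S).locH M 1) :=
  Submodule.pi Set.univ fun q : (arithDatum S).ι => (L (Sum.inr q)).comap (locIota q.1 M)

theorem mem_levelCond
    (L : ∀ v : extArithIndex S, Submodule (ZMod p) (H1 (Rep.res (extArithLoc S v) M)))
    (x : (arithDatum S).locH M 1) :
    x ∈ levelCond M L ↔ ∀ q : S, locIota q.1 M (x q) ∈ L (Sum.inr q) := by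
  unfold levelCond
  rw [Submodule.mem_pi]
  exact ⟨fun h q => h q (Set.mem_univ q), fun h q _ => h q⟩

/-- **Selmer transport**: the Prelude Selmer group `Sel S M L` is the image of the level Selmer
group cut out by `levelCond M L` (`p` odd: the archimedean condition is void). -/
theorem sel_eq_map (hp2 : p ≠ 2) (hM : (levelsS S).IsDiscrete M)
    (L : ∀ v : extArithIndex S, Submodule (ZMod p) (H1 (Rep.res (extArithLoc S v) M))) :
    Sel S M L = (selmerLevel M (levelCond M L)).map (globIota S M) := by
  ext x
  unfold Sel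
  rw [Submodule.mem_inf, continuousH1S_eq_range S M hM, mem_selmer_iff, Submodule.mem_map]
  constructor
  · rintro ⟨⟨y, rfl⟩, h⟩
    refine ⟨y, ?_, rfl⟩
    show (arithDatum S).locMapH M 1 y ∈ levelCond M L
    rw [mem_levelCond]
    intro q
    have h1 := h (Sum.inr q)
    have h2 := locRes_globIota M q y
    exact (congrArg (fun z => z ∈ L (Sum.inr q)) h2).mp h1
  · rintro ⟨y, hy, rfl⟩
    refine ⟨⟨y, rfl⟩, ?_⟩
    rintro (u | q)
    · have := Fermat.Agent.S56x.Local.InfinityLocal.arch p hp2 S M u
      rw [Subsingleton.elim ((locRes (extArithLoc S) M (Sum.inl u)).hom (globIota S M y)) 0]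
      exact Submodule.zero_mem _
    · have hy' : (arithDatum S).locMapH M 1 y ∈ levelCond M L := hy
      rw [mem_levelCond] at hy'
      have h2 := locRes_globIota M q y
      exact (congrArg (fun z => z ∈ L (Sum.inr q)) h2).mpr (hy' q)

/-- `dim Sel S M L = dim` of the level Selmer group. -/
theorem finrank_sel (hp2 : p ≠ 2) (hM : (levelsS S).IsDiscrete M)
    (L : ∀ v : extArithIndex S, Submodule (ZMod p) (H1 (Rep.res (extArithLoc S v) M))) :
    finrank (ZMod p) (Sel S M L) = finrank (ZMod p) (selmerLevel M (levelCond M L)) := by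
  rw [sel_eq_map M hp2 hM L]
  exact (Submodule.equivMapOfInjective _ (globIota_injective M) _).finrank_eq.symm

/-- The dimension of the comap of a subspace contained in the range of an injective map. -/
theorem finrank_comap_of_le_range {V W : Type*} [AddCommGroup V] [Module (ZMod p) V]
    [AddCommGroup W] [Module (ZMod p) W] (f : V →ₗ[ZMod p] W) (hf : Function.Injective f)
    (N : Submodule (ZMod p) W) (hN : N ≤ LinearMap.range f) :
    finrank (ZMod p) (N.comap f) = finrank (ZMod p) N := by
  have h1 : (N.comap f).map f = N := by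
    rw [Submodule.map_comap_eq]
    exact inf_eq_right.mpr hN
  have h2 := (Submodule.equivMapOfInjective f hf (N.comap f)).finrank_eq
  rw [h1] at h2
  exact h2

/-- `dim levelCond M L = ∑_{q ∈ S} dim L_q` for local conditions inside the continuous classes. -/
theorem finrank_levelCond (hM : (levelsS S).IsDiscrete M) [Finite M] (I : GlobalInput p S)
    (L : ∀ v : extArithIndex S, Submodule (ZMod p) (H1 (Rep.res (extArithLoc S v) M)))
    (hL : ∀ v, L v ≤ locH1 S M v) :
    finrank (ZMod p) (levelCond M L) = ∑ q : S, finrank (ZMod p) (L (Sum.inr q)) := by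
  have hfin : ∀ q : (arithDatum S).ι, Module.Finite (ZMod p)
      (((arithDatum S).𝒱 q).levelCohomology ((arithDatum S).resRep M q) 1) := fun q =>
    ((I.loc q).finite (Rep.res (primeLocalToGlobal q.1) M)
      ((arithDatum S).isDiscrete_resRep M hM q)).1
  classical
  unfold levelCond
  rw [finrank_pi_submodule]
  refine Finset.sum_congr rfl fun q _ => ?_
  refine finrank_comap_of_le_range (locIota q.1 M) (locIota_injective q.1 M) _ ?_
  rw [← continuousH1_eq_range_locIota_of_levelsS q.1 hM]
  exact hL (Sum.inr q)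

/-- The library local pairing at `q ∈ S` attached to the input `I`. -/
noncomputable abbrev lamAt (I : GlobalInput p S) (q : S) :
    levH q.1 M 1 →ₗ[ZMod p] Module.Dual (ZMod p) (levH q.1 (tateDual p M) 1) :=
  lamRes (r := 1) (cycloChar p) (primeLocalToGlobal q.1) (primeLocalLevels q.1) (I.loc q).inv
    (rfl : 1 + 1 = 1 + 1) M

theorem locPairing_apply (I : GlobalInput p S) (x : (arithDatum S).locH M 1)
    (y : (arithDatum S).locH (M.dualTwist (cycloChar p)) 1) :
    locPairing I M x y = ∑ q : S, lamAt M I q (x q) (y q) :=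
  piDual_apply _ x y

/-- Local conditions at the primes of `S` (clean types), transported to the level side. -/
noncomputable def levelCondOf
    (A : ∀ q : S, Submodule (ZMod p) (H1 (Rep.res (primeLocalToGlobal q.1) M))) :
    Submodule (ZMod p) ((arithDatum S).locH M 1) :=
  Submodule.pi Set.univ fun q : (arithDatum S).ι => (A q).comap (locIota q.1 M)

theorem mem_levelCondOf
    (A : ∀ q : S, Submodule (ZMod p) (H1 (Rep.res (primeLocalToGlobal q.1) M)))
    (x : (arithDatum S).locH M 1) :
    x ∈ levelCondOf M A ↔ ∀ q : S, locIota q.1 M (x q) ∈ A q := by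
  unfold levelCondOf
  rw [Submodule.mem_pi]
  exact ⟨fun h q => h q (Set.mem_univ q), fun h q _ => h q⟩

theorem levelCond_eq_levelCondOf
    (L : ∀ v : extArithIndex S, Submodule (ZMod p) (H1 (Rep.res (extArithLoc S v) M))) :
    levelCond M L = levelCondOf M fun q => L (Sum.inr q) := rfl

/-- **Transport of the dual conditions** (clean types): the level form of the orthogonal
complements `A_q^⊥ ∩ H¹_cont` is the orthogonal complement of the level form of `A` under the sum
of the library pairings, as soon as `P` is, on continuous classes, a nonzero multiple of the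
library pairing. -/
theorem levelCondOf_orthogonal (I : GlobalInput p S)
    (P : ∀ q : S, H1 (Rep.res (primeLocalToGlobal q.1) M) →ₗ[ZMod p]
        H1 (Rep.res (primeLocalToGlobal q.1) (tateDual p M)) →ₗ[ZMod p] ZMod p)
    (hP : ∀ q : S, ∃ c : ZMod p, c ≠ 0 ∧ ∀ (x : levH q.1 M 1) (y : levH q.1 (tateDual p M) 1),
      P q (locIota q.1 M x) (locIota q.1 (tateDual p M) y) = c * lamAt M I q x y)
    (A : ∀ q : S, Submodule (ZMod p) (H1 (Rep.res (primeLocalToGlobal q.1) M)))
    (hA : ∀ q, A q ≤ LinearMap.range (locIota q.1 M)) :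
    levelCondOf (tateDual p M)
        (fun q => orthogonal (P q) (A q) ⊓ LinearMap.range (locIota q.1 (tateDual p M))) =
      orthR (locPairing I M) (levelCondOf M A) := by
  classical
  ext y
  rw [mem_levelCondOf, mem_orthR]
  constructor
  · intro h x hx
    rw [locPairing_apply]
    refine Finset.sum_eq_zero fun q _ => ?_
    obtain ⟨c, hc, hPq⟩ := hP q
    have h1 := (mem_orthogonal_iff (P q) (A q) _).mp (Submodule.mem_inf.mp (h q)).1
    have h2 := h1 (locIota q.1 M (x q)) ((mem_levelCondOf M A x).mp hx q)
    have h3 := hPq (x q) (y q)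
    rw [h2] at h3
    exact (mul_eq_zero.mp h3.symm).resolve_left hc
  · intro h q
    obtain ⟨c, hc, hPq⟩ := hP q
    refine Submodule.mem_inf.mpr ⟨?_, ⟨y q, rfl⟩⟩
    refine (mem_orthogonal_iff (P q) (A q) _).mpr ?_
    intro z hz
    obtain ⟨x₀, rfl⟩ := hA q hz
    refine (hPq x₀ (y q)).trans ?_
    obtain ⟨x1, e1, e2⟩ : ∃ x1 : (arithDatum S).locH M 1, x1 q = x₀ ∧ ∀ q' : S, q' ≠ q → x1 q' = 0 :=
      ⟨(Pi.single q x₀ : ∀ q' : S, levH q'.1 M 1),
        Pi.single_eq_same (M := fun q' : S => levH q'.1 M 1) q x₀,
        fun q' hq => Pi.single_eq_of_ne (M := fun q' : S => levH q'.1 M 1) hq x₀⟩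
    have hx : x1 ∈ levelCondOf M A := by
      rw [mem_levelCondOf]
      intro q'
      by_cases hq : q' = q
      · subst hq
        rw [e1]
        exact hz
      · have h0 : locIota q'.1 M (x1 q') = 0 :=
          (congrArg (locIota q'.1 M) (e2 q' hq)).trans (map_zero _)
        exact Eq.mpr (congrArg (fun z => z ∈ A q') h0) (A q').zero_mem
    have h4 := h _ hx
    rw [locPairing_apply, Finset.sum_eq_single q] at h4
    · rw [e1] at h4
      rw [h4, mul_zero]
    · intro q' _ hq
      have h0 : lamAt M I q' (x1 q') = 0 :=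
        (congrArg (lamAt M I q') (e2 q' hq)).trans (map_zero _)
      exact (congrArg (fun f => f (y q')) h0).trans (LinearMap.zero_apply _)
    · intro hq
      exact absurd (Finset.mem_univ q) hq

end Dictionary

/-! ### Bookkeeping of the `H⁰` terms and of the sums over `extArithIndex S` -/

section Bookkeeping

variable (M : Rep (ZMod p) Γℚ)

theorem sum_extArith (f : extArithIndex S → ℕ) :
    ∑ v, f v = f (Sum.inl ()) + ∑ q : S, f (Sum.inr q) := by
  have h := Fintype.sum_sum_type (α₁ := Unit) (α₂ := ↥S) f
  refine h.trans ?_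
  rw [Fintype.sum_unique]

/-- `dim H⁰(G_S, M) = dim M^{Γℚ}` (level cohomology in degree `0`). -/
theorem finrank_H0 (S : Finset Nat.Primes) :
    finrank (ZMod p) ((arithDatum S).𝒰.levelCohomology M 0) =
      finrank (ZMod p) M.ρ.invariants :=
  ((arithDatum S).𝒰.H0Equiv M).finrank_eq

/-- `dim P⁰(M) = ∑_{q ∈ S} dim H⁰(G_q, M)`. -/
theorem finrank_P0 [Finite M] (S : Finset Nat.Primes) :
    finrank (ZMod p) ((arithDatum S).locH M 0) =
      ∑ q : S, finrank (ZMod p) (locH0 S M (Sum.inr q)) := by
  have : Module.Finite (ZMod p) M := Module.Finite.of_finite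
  have hfin : ∀ v : (arithDatum S).ι, Module.Finite (ZMod p)
      (((arithDatum S).𝒱 v).levelCohomology ((arithDatum S).resRep M v) 0) := fun v =>
    Module.Finite.equiv (((arithDatum S).𝒱 v).H0Equiv ((arithDatum S).resRep M v)).symm
  rw [Module.finrank_pi_fintype]
  refine Finset.sum_congr rfl fun q _ => ?_
  exact (((arithDatum S).𝒱 q).H0Equiv ((arithDatum S).resRep M q)).finrank_eq

/-- `dim H⁰(G_∞, M) = dim M^{c = 1}`. -/
theorem finrank_locH0_arch (S : Finset Nat.Primes) :
    finrank (ZMod p) (locH0 S M (Sum.inl ())) =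
      finrank (ZMod p) (LinearMap.ker (M.ρ complexConjugation - LinearMap.id)) := by
  have h : locH0 S M (Sum.inl ()) = LinearMap.ker (M.ρ complexConjugation - LinearMap.id) := by
    ext m
    rw [Fermat.Agent.S56x.Local.InfinityLocal.mem_locH0_arch_iff, LinearMap.mem_ker,
      LinearMap.sub_apply, LinearMap.id_apply, sub_eq_zero]
  rw [h]

end Bookkeeping

/-! ### The export -/

section Main

variable (M : Rep (ZMod p) Γℚ)

/-- The per-prime form of the dual conditions. -/
theorem dualCond_inr (hM' : (levelsS S).IsDiscrete (tateDual p M))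
    (P : ∀ (q : Nat.Primes) (M : Rep (ZMod p) Γℚ),
      H1 (Rep.res (primeLocalToGlobal q) M) →ₗ[ZMod p]
        H1 (Rep.res (primeLocalToGlobal q) (tateDual p M)) →ₗ[ZMod p] ZMod p)
    (L : ∀ v : extArithIndex S, Submodule (ZMod p) (H1 (Rep.res (extArithLoc S v) M)))
    (q : S) :
    (dualCond P S M L (Sum.inr q) :
        Submodule (ZMod p) (H1 (Rep.res (primeLocalToGlobal q.1) (tateDual p M)))) =
      orthogonal (P q.1 M) (L (Sum.inr q)) ⊓ LinearMap.range (locIota q.1 (tateDual p M)) := by
  rw [← continuousH1_eq_range_locIota_of_levelsS q.1 hM']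
  rfl

/-- **The Greenberg–Wiles inequality in the Prelude formalism** = the conclusion of the field
`GWPackage.gw_le`, for a family `P` of local pairings which on continuous classes is a nonzero
multiple of the library pairing, from the Euler characteristic inequality
`dim M^{c = 1} ≤ χ_c(M)`. -/
theorem gw_le_of (hp2 : p ≠ 2) (hpS : pPrime p ∈ S) [FiniteDimensional (ZMod p) M]
    (good : IsGoodModule p S M) (I : GlobalInput p S)
    (P : ∀ (q : Nat.Primes) (M : Rep (ZMod p) Γℚ),
      H1 (Rep.res (primeLocalToGlobal q) M) →ₗ[ZMod p]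
        H1 (Rep.res (primeLocalToGlobal q) (tateDual p M)) →ₗ[ZMod p] ZMod p)
    (hP : ∀ q : S, ∃ c : ZMod p, c ≠ 0 ∧ ∀ (x : levH q.1 M 1) (y : levH q.1 (tateDual p M) 1),
      P q.1 M (locIota q.1 M x) (locIota q.1 (tateDual p M) y) = c * lamAt M I q x y)
    (hEC : (finrank (ZMod p) (LinearMap.ker (M.ρ complexConjugation - LinearMap.id)) : ℤ) ≤
      eulerCharC S M)
    (L : ∀ v : extArithIndex S, Submodule (ZMod p) (H1 (Rep.res (extArithLoc S v) M)))
    (hL : ∀ v, L v ≤ locH1 S M v) :
    finrank (ZMod p) (Sel S M L) + finrank (ZMod p) (tateDual p M).ρ.invariants +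
        ∑ v, finrank (ZMod p) (locH0 S M v) ≤
      finrank (ZMod p) (Sel S (tateDual p M) (dualCond P S M L)) +
        finrank (ZMod p) M.ρ.invariants + ∑ v, finrank (ZMod p) (L v) := by
  have : Finite M := Module.finite_of_finite (ZMod p)
  have hM := good.isDiscrete
  have hM' := good.isDiscrete_tateDual hpS
  -- the level Greenberg–Wiles formula
  have gw := greenbergWiles_level hpS M hM I (levelCond M L) (eulerCharC S M) rfl
  -- the Selmer group
  have e1 := finrank_sel M hp2 hM L
  -- the dual Selmer group
  have hA : ∀ q : S, L (Sum.inr q) ≤ LinearMap.range (locIota q.1 M) := fun q => by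
    rw [← continuousH1_eq_range_locIota_of_levelsS q.1 hM]
    exact hL (Sum.inr q)
  have hdual : levelCond (tateDual p M) (dualCond P S M L) =
      orthR (locPairing I M) (levelCond M L) := by
    rw [levelCond_eq_levelCondOf M L,
      ← levelCondOf_orthogonal M I (fun q => P q.1 M) hP (fun q => L (Sum.inr q)) hA,
      levelCond_eq_levelCondOf]
    exact congrArg (levelCondOf (tateDual p M)) (funext fun q => dualCond_inr M hM' P L q)
  have e2 := finrank_sel (tateDual p M) hp2 hM' (dualCond P S M L)
  rw [hdual] at e2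
  -- the local conditions
  have e3 := finrank_levelCond M hM I L hL
  -- the `H⁰` terms
  have e4 := finrank_H0 M S
  have e5 := finrank_H0 (tateDual p M) S
  have e6 := finrank_P0 M S
  have e7 := finrank_locH0_arch M S
  -- the sums over `extArithIndex S`
  have s1 := sum_extArith (S := S) fun v => finrank (ZMod p) (locH0 S M v)
  have s2 := sum_extArith (S := S) fun v => finrank (ZMod p) (L v)
  have hzero : finrank (ZMod p) (L (Sum.inl ())) = 0 := by
    have := Fermat.Agent.S56x.Local.InfinityLocal.arch p hp2 S M ()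
    have : Subsingleton (L (Sum.inl ())) :=
      ⟨fun a b => Subtype.ext (Subsingleton.elim _ _)⟩
    exact Module.finrank_zero_of_subsingleton
  change (finrank (ZMod p) (selmerLevel M (levelCond M L)) : ℤ) -
      finrank (ZMod p) (selmerLevel (tateDual p M) (orthR (locPairing I M) (levelCond M L))) = _
    at gw
  have c1 := congrArg (Nat.cast : ℕ → ℤ) e1
  have c2 := congrArg (Nat.cast : ℕ → ℤ) e2
  have c3 := congrArg (Nat.cast : ℕ → ℤ) e3
  have c4 := congrArg (Nat.cast : ℕ → ℤ) e4
  have c5 := congrArg (Nat.cast : ℕ → ℤ) e5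
  have c6 := congrArg (Nat.cast : ℕ → ℤ) e6
  have c7 := congrArg (Nat.cast : ℕ → ℤ) e7
  have t1 := congrArg (Nat.cast : ℕ → ℤ) s1
  have t2 := congrArg (Nat.cast : ℕ → ℤ) s2
  have t0 := congrArg (Nat.cast : ℕ → ℤ) hzero
  simp only [Nat.cast_add, Nat.cast_zero] at t1 t2 t0
  suffices h : ((finrank (ZMod p) (Sel S M L) + finrank (ZMod p) (tateDual p M).ρ.invariants +
        ∑ v, finrank (ZMod p) (locH0 S M v) : ℕ) : ℤ) ≤
      ((finrank (ZMod p) (Sel S (tateDual p M) (dualCond P S M L)) +
        finrank (ZMod p) M.ρ.invariants + ∑ v, finrank (ZMod p) (L v) : ℕ) : ℤ) by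
    exact_mod_cast h
  simp only [Nat.cast_add]
  linarith

end Main

end Fermat.Agent.S56x.GW.Export
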