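/-
P-S56, block (B) (Greenberg-Wiles), file (F1), helper91: the Greenberg-Wiles formula in the
LIBRARY formalism (level cohomology of a localisation datum, `Lib/CFT/Duality`).

* `selmer_sub_dualSelmer_left` : the linear algebra of `GW/Abstract.lean`, but using the LEFT half
  `0 → H⁰ → P⁰ → C¹ → H¹ → P¹ → C²` of the long exact sequence of compactly supported cohomology
  (no `H²`, no `P²`):
  `dim H¹_L - dim H¹'_{L^⊥} = h⁰ - p⁰ + c¹ - h¹' + dim L`.
* `locMapH_zero_injective` : `H⁰(G, M) → P⁰(M)` is injective (at least one place).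
* `LocDatum.finrank_selLevel_sub` : the formula on a localisation datum `D`, for abstract pairings
  `bg : H²_c(M) × H¹(M') → k`, `bl : P¹(M) × P¹(M') → k` (the shapes of
  `Lib/CFT/Duality/PoitouTateAbstract.finrank_shaLevel_of_pairings`).
* `gw_level_phiC` : **the Greenberg-Wiles formula with defect** for `D = arithDatum S`,
  `I : GlobalInput p S` (unconditional: `GW/GlobalInputArith.arithGlobalInput`),
  `M' = M.dualTwist (cycloChar p)`, a FAMILY of local conditions `L v ≤ H¹(G_v, M)`, `v ∈ S` (level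
  cohomology), dual conditions `(L v)^⊥` w.r.t. the local Tate pairings `lamRes`, and the defect
  `phiC S M = h²_c - h¹_c - h³_c - dim M^{c=1}` of `S56x/Euler/Contract.lean`:
  `dim Sel_L(M) + h⁰(M') + ∑_v h⁰(G_v, M) + dim M^{c=1} + phiC S M
      = dim Sel_{L^⊥}(M') + h⁰(M) + ∑_v dim L_v`   (no Euler characteristic input at all);
* `gw_level` (`phiC S M = 0`: equality in `ℕ`), `gw_level_le` (`0 ≤ phiC S M`: the inequality
  consumed by `GWPackage.gw_le`);
* `selLevel_eq_selmerLevel`, `selLevel_dual_eq_dualSelmerLevel` : the dictionary with the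
  subspace form of `GW/LevelGW.lean` (helper87).
-/
import Fermat.Agent.S56x.GW.LevelGW
import Fermat.Agent.S56x.Euler.Contract

set_option autoImplicit false
set_option linter.unusedSectionVars false

open CategoryTheory Module

namespace Fermat.Agent.S56x.GW

open Fermat.Agent.Lib.CFT.Profinite Fermat.Agent.Lib.CFT.Profinite.LevelFamily
open Fermat.Agent.Lib.CFT.Duality Fermat.Agent.Lib.CFT.Duality.LocalTate
open Fermat.Agent.Lib.CFT.Duality.GlobalDuality Fermat.Agent.Lib.CFT.Duality.PoitouTate
open ExtCitation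

local notation "Γℚ" => (AlgebraicClosure ℚ ≃ₐ[ℚ] AlgebraicClosure ℚ)

/-! ### Linear algebra: the left half of the sequence -/

section LinAlg

variable {k : Type*} [Field k]
  {H0 P0 C1 H1 P1 C2 H1' P1' : Type*}
  [AddCommGroup H0] [Module k H0] [AddCommGroup P0] [Module k P0]
  [AddCommGroup C1] [Module k C1] [AddCommGroup H1] [Module k H1]
  [AddCommGroup P1] [Module k P1] [AddCommGroup C2] [Module k C2]
  [AddCommGroup H1'] [Module k H1'] [AddCommGroup P1'] [Module k P1']
  [FiniteDimensional k H0] [FiniteDimensional k P0] [FiniteDimensional k C1]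
  [FiniteDimensional k H1] [FiniteDimensional k P1]
  [FiniteDimensional k H1'] [FiniteDimensional k P1']

/-- **Greenberg-Wiles, left half.**  `loc0, d0, f1, loc1, d1` : the beginning
`0 → H⁰ → P⁰ → C¹ → H¹ → P¹ → C²` of the long exact sequence of compactly supported cohomology;
`bg : C² × H¹' → k` nondegenerate on the left, `bl : P¹ × P¹' → k` compatible with it up to a
nonzero scalar, `L' = L^⊥`.  Then
`dim H¹_L - dim H¹'_{L'} = h⁰ - p⁰ + c¹ - h¹' + dim L`. -/
theorem selmer_sub_dualSelmer_left
    (loc0 : H0 →ₗ[k] P0) (d0 : P0 →ₗ[k] C1) (f1 : C1 →ₗ[k] H1) (loc1 : H1 →ₗ[k] P1)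
    (d1 : P1 →ₗ[k] C2) (loc1' : H1' →ₗ[k] P1')
    (inj0 : Function.Injective loc0)
    (ex0 : LinearMap.range loc0 = LinearMap.ker d0) (ex1 : LinearMap.range d0 = LinearMap.ker f1)
    (ex2 : LinearMap.range f1 = LinearMap.ker loc1) (ex3 : LinearMap.range loc1 = LinearMap.ker d1)
    (bg : C2 →ₗ[k] H1' →ₗ[k] k) (hbg_left : ∀ z, (∀ h, bg z h = 0) → z = 0)
    (bl : P1 →ₗ[k] P1' →ₗ[k] k) (ε : k) (hε : ε ≠ 0)
    (hcomp : ∀ x h, bg (d1 x) h = ε * bl x (loc1' h))
    (L : Submodule k P1) (L' : Submodule k P1') (hL : L' = orthR bl L) :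
    (finrank k (L.comap loc1) : ℤ) - finrank k (L'.comap loc1') =
      (finrank k H0 : ℤ) - finrank k P0 + finrank k C1 - finrank k H1' + finrank k L := by
  have hA : LinearMap.range loc1 = orthL bl (LinearMap.range loc1') := by
    rw [ex3]
    ext x
    rw [LinearMap.mem_ker, mem_orthL]
    constructor
    · rintro hx y ⟨h, rfl⟩
      have := hcomp x h
      rw [hx, map_zero, LinearMap.zero_apply] at this
      exact (mul_eq_zero.mp this.symm).resolve_left hε
    · intro hx
      apply hbg_left
      intro h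
      rw [hcomp, hx _ ⟨h, rfl⟩, mul_zero]
  have key := finrank_inf_add_finrank bl L (LinearMap.range loc1')
  rw [← hA, ← hL] at key
  have s1 := finrank_comap loc1 L
  have s2 := finrank_comap loc1' L'
  have n0 := LinearMap.finrank_range_of_inj inj0
  have n1 := LinearMap.finrank_range_add_finrank_ker d0
  have n2 := LinearMap.finrank_range_add_finrank_ker f1
  have n1' := LinearMap.finrank_range_add_finrank_ker loc1'
  rw [← ex0, n0] at n1
  rw [← ex1] at n2
  rw [← ex2] at s1
  omega

end LinAlg

/-! ### A localisation datum -/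

section Generic

variable {k : Type} [Field k] {G : Type} [Group G] (D : LocDatum G)

/-- The localisation map at one place is injective on `H⁰`. -/
theorem locMapHAt_zero_injective (M : Rep k G) (i : D.ι) :
    Function.Injective (D.locMapHAt M 0 i) := by
  rw [injective_iff_map_eq_zero]
  intro x hx
  obtain ⟨f, rfl⟩ := D.𝒰.classMk_surjective M 0 x
  rw [LocDatum.locMapHAt, levelCohomologyMapOfHom_classMk, classMk_eq_zero_iff_zero] at hx
  rw [classMk_eq_zero_iff_zero]
  apply Subtype.ext
  funext g
  have h1 := congrArg Subtype.val hx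
  rw [levelCocyclesMap_coe] at h1
  have h2 : f.1 ((D.φ i) ∘ (default : Fin 0 → D.H i)) = 0 := congr_fun h1 default
  rw [Subsingleton.elim g ((D.φ i) ∘ (default : Fin 0 → D.H i))]
  exact h2

/-- `H⁰(G, M) → P⁰(M)` is injective as soon as there is a place. -/
theorem locMapH_zero_injective [Nonempty D.ι] (M : Rep k G) :
    Function.Injective (D.locMapH M 0) := by
  intro x y h
  obtain ⟨i⟩ := ‹Nonempty D.ι›
  exact locMapHAt_zero_injective D M i (congr_fun h i)

/-- Finiteness of `H¹_c(M)`. -/
theorem finite_Hc_one (M : Rep k G) [Module.Finite k (D.locH M 0)]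
    [Module.Finite k (D.𝒰.levelCohomology M 1)] : Module.Finite k (D.Hc M 1) :=
  LocalTate.finite_of_exact (D.exact_ofLocal_toGlobal M 0)

/-- **Greenberg-Wiles on a localisation datum, before Euler characteristics**: for pairings
`bg : H²_c(M) × H¹(M') → k` (nondegenerate on the left) and `bl : P¹(M) × P¹(M') → k` compatible up
to a nonzero scalar, and a local condition `L ≤ P¹(M)`:
`dim H¹_L(M) - dim H¹_{L^⊥}(M') = h⁰(M) - p⁰(M) + dim H¹_c(M) - h¹(M') + dim L`. -/
theorem finrank_selLevel_sub [Nonempty D.ι] (M M' : Rep k G)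
    [Module.Finite k (D.𝒰.levelCohomology M 0)] [Module.Finite k (D.locH M 0)]
    [Module.Finite k (D.𝒰.levelCohomology M 1)] [Module.Finite k (D.locH M 1)]
    [Module.Finite k (D.𝒰.levelCohomology M' 1)] [Module.Finite k (D.locH M' 1)]
    (bg : D.Hc M 2 →ₗ[k] D.𝒰.levelCohomology M' 1 →ₗ[k] k)
    (hbg_left : ∀ x, (∀ h, bg x h = 0) → x = 0)
    (bl : D.locH M 1 →ₗ[k] D.locH M' 1 →ₗ[k] k)
    (ε : k) (hε : ε ≠ 0)
    (hcomp : ∀ x h, bg (D.HcOfLocal M 1 x) h = ε * bl x (D.locMapH M' 1 h))
    (L : Submodule k (D.locH M 1)) :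
    (finrank k (L.comap (D.locMapH M 1)) : ℤ) -
        finrank k ((orthR bl L).comap (D.locMapH M' 1)) =
      (finrank k (D.𝒰.levelCohomology M 0) : ℤ) - finrank k (D.locH M 0) +
        finrank k (D.Hc M 1) - finrank k (D.𝒰.levelCohomology M' 1) + finrank k L := by
  have : Module.Finite k (D.Hc M 1) := finite_Hc_one D M
  exact selmer_sub_dualSelmer_left (D.locMapH M 0) (D.HcOfLocal M 0) (D.HcToGlobal M 1)
    (D.locMapH M 1) (D.HcOfLocal M 1) (D.locMapH M' 1) (locMapH_zero_injective D M)
    ((LinearMap.exact_iff.1 (D.exact_loc_ofLocal M 0)).symm)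
    ((LinearMap.exact_iff.1 (D.exact_ofLocal_toGlobal M 0)).symm)
    ((LinearMap.exact_iff.1 (D.exact_toGlobal_loc M 1)).symm)
    ((LinearMap.exact_iff.1 (D.exact_loc_ofLocal M 1)).symm)
    bg hbg_left bl ε hε hcomp L _ rfl

end Generic

/-! ### The arithmetic datum -/

section Arith

open Fermat.Agent.S56x.Euler

variable {p : ℕ} [Fact p.Prime] {S : Finset Nat.Primes}

/-- The local level cohomology `Hⁿ(G_q, M)` at the place `v` of `arithDatum S`. -/
abbrev levLocH (S : Finset Nat.Primes) (M : Rep (ZMod p) Γℚ) (v : (arithDatum S).ι) (n : ℕ) :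
    Type :=
  ((arithDatum S).𝒱 v).levelCohomology ((arithDatum S).resRep M v) n

/-- The Selmer group in level cohomology: the classes of `H¹(G_S, M)` whose localisations lie in
`L v` for all `v ∈ S`. -/
noncomputable def selLevel (S : Finset Nat.Primes) (M : Rep (ZMod p) Γℚ)
    (L : ∀ v : (arithDatum S).ι, Submodule (ZMod p) (levLocH S M v 1)) :
    Submodule (ZMod p) ((arithDatum S).𝒰.levelCohomology M 1) :=
  (Submodule.pi Set.univ L).comap ((arithDatum S).locMapH M 1)

theorem mem_selLevel (M : Rep (ZMod p) Γℚ)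
    (L : ∀ v : (arithDatum S).ι, Submodule (ZMod p) (levLocH S M v 1))
    (x : (arithDatum S).𝒰.levelCohomology M 1) :
    x ∈ selLevel S M L ↔ ∀ v, (arithDatum S).locMapHAt M 1 v x ∈ L v := by
  unfold selLevel
  rw [Submodule.mem_comap, Submodule.mem_pi]
  constructor
  · intro h v
    exact h v (Set.mem_univ v)
  · intro h v _
    exact h v

/-- The local Tate pairing at `v ∈ S` in level cohomology. -/
noncomputable def levPairing (I : GlobalInput p S) (M : Rep (ZMod p) Γℚ) (v : (arithDatum S).ι) :
    levLocH S M v 1 →ₗ[ZMod p] levLocH S (M.dualTwist (cycloChar p)) v 1 →ₗ[ZMod p] ZMod p :=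
  lamRes (cycloChar p) ((arithDatum S).φ v) ((arithDatum S).𝒱 v) (arithInv S I.loc v)
    (rfl : 1 + 1 = 1 + 1) M

theorem levPairing_apply (I : GlobalInput p S) (M : Rep (ZMod p) Γℚ) (v : (arithDatum S).ι)
    (x : levLocH S M v 1) (y : levLocH S (M.dualTwist (cycloChar p)) v 1) :
    levPairing I M v x y =
      lamRes (cycloChar p) ((arithDatum S).φ v) ((arithDatum S).𝒱 v) (arithInv S I.loc v)
        (rfl : 1 + 1 = 1 + 1) M x y := rfl

/-- The dual local conditions: the orthogonal complements under the local Tate pairings. -/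
noncomputable def dualLevCond (I : GlobalInput p S) (M : Rep (ZMod p) Γℚ)
    (L : ∀ v : (arithDatum S).ι, Submodule (ZMod p) (levLocH S M v 1)) :
    ∀ v : (arithDatum S).ι, Submodule (ZMod p) (levLocH S (M.dualTwist (cycloChar p)) v 1) :=
  fun v => orthR (levPairing I M v) (L v)

theorem mem_dualLevCond (I : GlobalInput p S) (M : Rep (ZMod p) Γℚ)
    (L : ∀ v : (arithDatum S).ι, Submodule (ZMod p) (levLocH S M v 1)) (v : (arithDatum S).ι)
    (y : levLocH S (M.dualTwist (cycloChar p)) v 1) :
    y ∈ dualLevCond I M L v ↔ ∀ x ∈ L v, levPairing I M v x y = 0 := Iff.rfl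

/-- The sum of the local Tate pairings is `sumPairing` of the family `levPairing`. -/
theorem locPairing_eq_sumPairing (I : GlobalInput p S) (M : Rep (ZMod p) Γℚ) :
    lamLoc (arithDatum S) (cycloChar p) (arithInv S I.loc) (rfl : 1 + 1 = 1 + 1) M =
      sumPairing (fun v => levPairing I M v) := by
  classical
  refine LinearMap.ext fun x => LinearMap.ext fun y => ?_
  rw [lamLoc_apply, sumPairing_apply]
  rfl

/-- The orthogonal of a product of local conditions is the product of the dual conditions. -/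
theorem orthR_lamLoc_pi (I : GlobalInput p S) (M : Rep (ZMod p) Γℚ)
    (L : ∀ v : (arithDatum S).ι, Submodule (ZMod p) (levLocH S M v 1)) :
    orthR (lamLoc (arithDatum S) (cycloChar p) (arithInv S I.loc) (rfl : 1 + 1 = 1 + 1) M)
        (Submodule.pi Set.univ L) = Submodule.pi Set.univ (dualLevCond I M L) := by
  classical
  rw [locPairing_eq_sumPairing, orthR_sumPairing_pi]
  rfl

/-- Dictionary with `GW/LevelGW.lean`: the Selmer group of a family is the Selmer group of the
product subspace. -/
theorem selLevel_eq_selmerLevel (M : Rep (ZMod p) Γℚ)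
    (L : ∀ v : (arithDatum S).ι, Submodule (ZMod p) (levLocH S M v 1)) :
    selLevel S M L = selmerLevel M (Submodule.pi Set.univ L) := rfl

/-- Dictionary with `GW/LevelGW.lean`: the dual Selmer group of the product subspace is the
Selmer group of the family of dual conditions. -/
theorem selLevel_dual_eq_dualSelmerLevel (I : GlobalInput p S) (M : Rep (ZMod p) Γℚ)
    (L : ∀ v : (arithDatum S).ι, Submodule (ZMod p) (levLocH S M v 1)) :
    selLevel S (M.dualTwist (cycloChar p)) (dualLevCond I M L) =
      dualSelmerLevel I M (Submodule.pi Set.univ L) := by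
  unfold selLevel dualSelmerLevel locPairing
  rw [orthR_lamLoc_pi]

/-- **The Greenberg-Wiles formula with defect** in level cohomology (no Euler characteristic
input): with `phiC S M = h²_c(M) - h¹_c(M) - h³_c(M) - dim M^{c=1}`,
`dim Sel_L(M) + h⁰(M') + ∑_v h⁰(G_v, M) + dim M^{c=1} + phiC S M
  = dim Sel_{L^⊥}(M') + h⁰(M) + ∑_v dim L_v`. -/
theorem gw_level_phiC (I : GlobalInput p S) (hpS : pPrime p ∈ S) (M : Rep (ZMod p) Γℚ) [Finite M]
    (hM : (arithDatum S).𝒰.IsDiscrete M)
    (L : ∀ v : (arithDatum S).ι, Submodule (ZMod p) (levLocH S M v 1)) :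
    (finrank (ZMod p) (selLevel S M L) : ℤ) +
        finrank (ZMod p) (M.dualTwist (cycloChar p)).ρ.invariants +
        ((∑ v : (arithDatum S).ι,
          finrank (ZMod p) ((arithDatum S).resRep M v).ρ.invariants : ℕ) : ℤ) +
        finrank (ZMod p) (realInv M) + phiC S M =
      (finrank (ZMod p) (selLevel S (M.dualTwist (cycloChar p)) (dualLevCond I M L)) : ℤ) +
        finrank (ZMod p) M.ρ.invariants +
        ((∑ v : (arithDatum S).ι, finrank (ZMod p) (L v) : ℕ) : ℤ) := by
  classical
  have : NeZero p := ⟨(Fact.out : p.Prime).ne_zero⟩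
  have hM' : (arithDatum S).𝒰.IsDiscrete (M.dualTwist (cycloChar p)) :=
    DualTwist.isDiscrete_dualTwist (cycloChar p) (arithDatum S).𝒰 M hM
      (exists_level_cycloChar_eq_one hpS)
  have : Nonempty (arithDatum S).ι := ⟨⟨pPrime p, hpS⟩⟩
  -- finiteness
  have : Module.Finite (ZMod p) M := Module.Finite.of_finite
  have h0 : Module.Finite (ZMod p) ((arithDatum S).𝒰.levelCohomology M 0) :=
    Module.Finite.equiv ((arithDatum S).𝒰.H0Equiv M).symm
  have hP0v : ∀ v : (arithDatum S).ι, Module.Finite (ZMod p)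
      (((arithDatum S).𝒱 v).levelCohomology ((arithDatum S).resRep M v) 0) := fun v =>
    Module.Finite.equiv (((arithDatum S).𝒱 v).H0Equiv ((arithDatum S).resRep M v)).symm
  have hP0 : Module.Finite (ZMod p) ((arithDatum S).locH M 0) := Module.Finite.pi
  have hP1v : ∀ v : (arithDatum S).ι, Module.Finite (ZMod p) (levLocH S M v 1) := fun v =>
    ((I.loc v).finite (Rep.res (primeLocalToGlobal v.1) M)
      ((arithDatum S).isDiscrete_resRep M hM v)).1
  have h1 : Module.Finite (ZMod p) ((arithDatum S).𝒰.levelCohomology M 1) := I.fin M hM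
  have hP1 : Module.Finite (ZMod p) ((arithDatum S).locH M 1) :=
    (finite_locH_arith S I.loc M hM).1
  have h1' : Module.Finite (ZMod p)
      ((arithDatum S).𝒰.levelCohomology (M.dualTwist (cycloChar p)) 1) :=
    I.fin (M.dualTwist (cycloChar p)) hM'
  have hP1' : Module.Finite (ZMod p) ((arithDatum S).locH (M.dualTwist (cycloChar p)) 1) :=
    (finite_locH_arith S I.loc (M.dualTwist (cycloChar p)) hM').1
  have h0' : Module.Finite (ZMod p)
      ((arithDatum S).𝒰.levelCohomology (M.dualTwist (cycloChar p)) 0) :=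
    Module.Finite.equiv ((arithDatum S).𝒰.H0Equiv (M.dualTwist (cycloChar p))).symm
  obtain ⟨hb0, hb1⟩ := I.beta_bijective hpS M hM
  -- the formula before Euler characteristics
  have key := finrank_selLevel_sub (arithDatum S) M (M.dualTwist (cycloChar p))
    (beta0 (arithDatum S) (cycloChar p) 2 I.tr M)
    (fun x hx => hb0.1 (by rw [map_zero]; exact LinearMap.ext hx))
    (lamLoc (arithDatum S) (cycloChar p) (arithInv S I.loc) (rfl : 1 + 1 = 1 + 1) M) 1 one_ne_zero
    (fun x h => by rw [one_mul]; exact beta0_HcOfLocal I.tr_ofLocal M x h)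
    (Submodule.pi Set.univ L)
  rw [orthR_lamLoc_pi] at key
  -- dimension counts
  have d2 : finrank (ZMod p) ((arithDatum S).Hc M 2) =
      finrank (ZMod p) ((arithDatum S).𝒰.levelCohomology (M.dualTwist (cycloChar p)) 1) :=
    (LinearEquiv.ofBijective _ hb0).finrank_eq.trans Subspace.dual_finrank_eq
  have d3 : finrank (ZMod p) ((arithDatum S).Hc M 3) =
      finrank (ZMod p) (M.dualTwist (cycloChar p)).ρ.invariants :=
    ((LinearEquiv.ofBijective _ hb1).finrank_eq.trans Subspace.dual_finrank_eq).trans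
      ((arithDatum S).𝒰.H0Equiv (M.dualTwist (cycloChar p))).finrank_eq
  have e0 : finrank (ZMod p) ((arithDatum S).𝒰.levelCohomology M 0) =
      finrank (ZMod p) M.ρ.invariants := ((arithDatum S).𝒰.H0Equiv M).finrank_eq
  have eP0 : finrank (ZMod p) ((arithDatum S).locH M 0) =
      ∑ v : (arithDatum S).ι, finrank (ZMod p) ((arithDatum S).resRep M v).ρ.invariants := by
    rw [Module.finrank_pi_fintype]
    exact Finset.sum_congr rfl fun v _ =>
      (((arithDatum S).𝒱 v).H0Equiv ((arithDatum S).resRep M v)).finrank_eq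
  have eL : finrank (ZMod p) (Submodule.pi Set.univ L : Submodule (ZMod p)
      ((arithDatum S).locH M 1)) = ∑ v : (arithDatum S).ι, finrank (ZMod p) (L v) :=
    finrank_pi_submodule L
  unfold phiC
  unfold selLevel
  rw [d2, d3]
  rw [eL, e0, eP0] at key
  omega

/-- **The Greenberg-Wiles formula** in level cohomology, under `(EC)` for `M`. -/
theorem gw_level (I : GlobalInput p S) (hpS : pPrime p ∈ S) (M : Rep (ZMod p) Γℚ) [Finite M]
    (hM : (arithDatum S).𝒰.IsDiscrete M) (hEC : phiC S M = 0)
    (L : ∀ v : (arithDatum S).ι, Submodule (ZMod p) (levLocH S M v 1)) :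
    finrank (ZMod p) (selLevel S M L) +
        finrank (ZMod p) (M.dualTwist (cycloChar p)).ρ.invariants +
        ∑ v : (arithDatum S).ι, finrank (ZMod p) ((arithDatum S).resRep M v).ρ.invariants +
        finrank (ZMod p) (realInv M) =
      finrank (ZMod p) (selLevel S (M.dualTwist (cycloChar p)) (dualLevCond I M L)) +
        finrank (ZMod p) M.ρ.invariants + ∑ v : (arithDatum S).ι, finrank (ZMod p) (L v) := by
  have key := gw_level_phiC I hpS M hM L
  rw [hEC] at key
  omega

/-- **The Greenberg-Wiles inequality** in level cohomology (the upper bound for the Selmer group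
consumed by `GWPackage.gw_le`), under the inequality `0 ≤ phiC S M`, i.e.
`h¹_c(M) + h³_c(M) + dim M^{c=1} ≤ h²_c(M)`. -/
theorem gw_level_le (I : GlobalInput p S) (hpS : pPrime p ∈ S) (M : Rep (ZMod p) Γℚ) [Finite M]
    (hM : (arithDatum S).𝒰.IsDiscrete M) (hEC : 0 ≤ phiC S M)
    (L : ∀ v : (arithDatum S).ι, Submodule (ZMod p) (levLocH S M v 1)) :
    finrank (ZMod p) (selLevel S M L) +
        finrank (ZMod p) (M.dualTwist (cycloChar p)).ρ.invariants +
        ∑ v : (arithDatum S).ι, finrank (ZMod p) ((arithDatum S).resRep M v).ρ.invariants +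
        finrank (ZMod p) (realInv M) ≤
      finrank (ZMod p) (selLevel S (M.dualTwist (cycloChar p)) (dualLevCond I M L)) +
        finrank (ZMod p) M.ρ.invariants + ∑ v : (arithDatum S).ι, finrank (ZMod p) (L v) := by
  have key := gw_level_phiC I hpS M hM L
  omega

end Arith

end Fermat.Agent.S56x.GW
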