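/-
P-S56, block (B) (Greenberg-Wiles), file (F1b), helper91: the per-place Greenberg-Wiles formula
under the CANONICAL Euler hypothesis `TateEulerC S M` of `GW/LevelGW.lean`.

`GW/OfLocDatum.lean` proves the per-place formula with the defect `Euler.phiC S M`; here we
identify the three equivalent shapes of (EC)

  `TateEulerC S M`  ⟺  `Euler.phiC S M = 0`

(`H⁰_c(M) = 0` since `S ≠ ∅`; `realInv M = ker (ρ(c) - 1)`) and restate the formula.
-/
import Fermat.Agent.S56x.GW.OfLocDatum

set_option autoImplicit false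

open CategoryTheory Module

namespace Fermat.Agent.S56x.GW

open Fermat.Agent.Lib.CFT.Profinite Fermat.Agent.Lib.CFT.Profinite.LevelFamily
open Fermat.Agent.Lib.CFT.Duality Fermat.Agent.Lib.CFT.Duality.LocalTate
open Fermat.Agent.Lib.CFT.Duality.GlobalDuality Fermat.Agent.Lib.CFT.Duality.PoitouTate
open ExtCitation Fermat.Agent.S56x.Euler

local notation "Γℚ" => (AlgebraicClosure ℚ ≃ₐ[ℚ] AlgebraicClosure ℚ)

/-- `H⁰_c(M) = 0` for a localisation datum with at least one place. -/
theorem subsingleton_Hc_zero_of_nonempty {k : Type} [Field k] {G : Type} [Group G]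
    (D : LocDatum G) [Nonempty D.ι] (M : Rep k G) : Subsingleton (D.Hc M 0) := by
  refine ⟨fun x y => ?_⟩
  apply D.HcToGlobal_zero_injective M
  apply locMapH_zero_injective D M
  rw [D.locMapH_HcToGlobal, D.locMapH_HcToGlobal]

variable {p : ℕ} [Fact p.Prime] {S : Finset Nat.Primes}

/-- `M^{c=1}` as the kernel of `ρ(c) - 1` (the shape of `TateEulerC`). -/
theorem realInv_eq_ker (M : Rep (ZMod p) Γℚ) :
    realInv M = LinearMap.ker (M.ρ complexConjugation - LinearMap.id) := by
  ext m
  rw [mem_realInv_iff, LinearMap.mem_ker, LinearMap.sub_apply, sub_eq_zero]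
  rfl

theorem finrank_Hc_zero (hpS : pPrime p ∈ S) (M : Rep (ZMod p) Γℚ) :
    finrank (ZMod p) ((arithDatum S).Hc M 0) = 0 := by
  have : Nonempty (arithDatum S).ι := ⟨⟨pPrime p, hpS⟩⟩
  have := subsingleton_Hc_zero_of_nonempty (arithDatum S) M
  exact Module.finrank_zero_of_subsingleton

/-- The alternating sum `χ_c` of `LevelGW` in terms of the defect `phiC` of `Euler/Contract`. -/
theorem eulerCharC_eq_phiC (hpS : pPrime p ∈ S) (M : Rep (ZMod p) Γℚ) :
    eulerCharC S M = phiC S M + finrank (ZMod p) (realInv M) := by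
  have h0 := finrank_Hc_zero (S := S) hpS M
  unfold eulerCharC phiC
  rw [h0]
  push_cast
  ring

/-- The canonical (EC) `TateEulerC S M` is the vanishing of the defect `phiC S M`. -/
theorem tateEulerC_iff_phiC (hpS : pPrime p ∈ S) (M : Rep (ZMod p) Γℚ) :
    TateEulerC S M ↔ phiC S M = 0 := by
  unfold TateEulerC
  rw [eulerCharC_eq_phiC hpS M, ← realInv_eq_ker]
  constructor
  · intro h
    linarith
  · intro h
    rw [h, zero_add]

/-- **The per-place Greenberg-Wiles formula** under `TateEulerC S M`: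
`dim Sel_L(M) + h⁰(M') + ∑_{v ∈ S} h⁰(G_v, M) + dim M^{c=1}
   = dim Sel_{L^⊥}(M') + h⁰(M) + ∑_{v ∈ S} dim L_v`. -/
theorem gw_level_of_tate (I : GlobalInput p S) (hpS : pPrime p ∈ S) (M : Rep (ZMod p) Γℚ)
    [Finite M] (hM : (arithDatum S).𝒰.IsDiscrete M) (hT : TateEulerC S M)
    (L : ∀ v : (arithDatum S).ι, Submodule (ZMod p) (levLocH S M v 1)) :
    finrank (ZMod p) (selLevel S M L) +
        finrank (ZMod p) (M.dualTwist (cycloChar p)).ρ.invariants +
        ∑ v : (arithDatum S).ι, finrank (ZMod p) ((arithDatum S).resRep M v).ρ.invariants +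
        finrank (ZMod p) (realInv M) =
      finrank (ZMod p) (selLevel S (M.dualTwist (cycloChar p)) (dualLevCond I M L)) +
        finrank (ZMod p) M.ρ.invariants + ∑ v : (arithDatum S).ι, finrank (ZMod p) (L v) :=
  gw_level I hpS M hM ((tateEulerC_iff_phiC hpS M).1 hT) L

end Fermat.Agent.S56x.GW
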