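/-
P-S56, block (B) (Greenberg-Wiles), file (F2b, primal half), helper91: the per-place
Greenberg-Wiles equality of `GW/PerPlace.lean` with the PRIMAL side and the three sums in the
Prelude formalism of `GW/Interface.lean`, through the dictionary `GW/Bridge.lean` (helper25).

* `sum_locH0_eq` : `∑_{v ∈ {∞} ⊔ S} h⁰(G_v, M) = dim M^{c=1} + ∑_{q ∈ S} h⁰(G_q, M)`;
* `finrank_Sel_eq_selLevel` : `dim Sel S M L = dim selLevel S M (libCond L)`;
* `gw_export_primal` : the Greenberg-Wiles equality with the dual Selmer group still in level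
  cohomology (`selLevel S M' (dualLevCond I M (libCond L))`);
* `finrank_Sel_dual_eq` : the dual side, for ANY pairing family `P` restricting to the library
  pairing `levPairing I M q` on level classes;
* `gw_export` : the equality in the exact shape of `GWPackage.gw_le`.
-/
import Fermat.Agent.S56x.GW.PerPlace
import Fermat.Agent.S56x.GW.Bridge

set_option autoImplicit false

open CategoryTheory groupCohomology Module ExtCitation

namespace Fermat.Agent.S56x.GW

open Fermat.Agent.Lib.CFT.Profinite Fermat.Agent.Lib.CFT.Profinite.LevelFamily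
open Fermat.Agent.Lib.CFT.Profinite.Bridge
open Fermat.Agent.Lib.CFT.Duality Fermat.Agent.Lib.CFT.Duality.LocalTate
open Fermat.Agent.Lib.CFT.Duality.GlobalDuality Fermat.Agent.Lib.CFT.Duality.PoitouTate
open Fermat.Agent.S56x.Euler Fermat.Agent.S56x.GW.Bridge

local notation "Γℚ" => (AlgebraicClosure ℚ ≃ₐ[ℚ] AlgebraicClosure ℚ)

variable {p : ℕ} [Fact p.Prime] {S : Finset Nat.Primes}

/-- `∑_{v ∈ {∞} ⊔ S} h⁰(G_v, M) = dim M^{c=1} + ∑_{q ∈ S} h⁰(G_q, M)`. -/
theorem sum_locH0_eq (M : Rep (ZMod p) Γℚ) :
    ∑ v : extArithIndex S, finrank (ZMod p) (locH0 S M v) =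
      finrank (ZMod p) (realInv M) +
        ∑ v : (arithDatum S).ι, finrank (ZMod p) ((arithDatum S).resRep M v).ρ.invariants := by
  have h1 : ∑ v : extArithIndex S, finrank (ZMod p) (locH0 S M v) =
      ∑ u : Unit, finrank (ZMod p) (locH0 S M (Sum.inl u)) +
        ∑ q : S, finrank (ZMod p) (locH0 S M (Sum.inr q)) :=
    Fintype.sum_sum_type (fun v : Unit ⊕ S => finrank (ZMod p) (locH0 S M v))
  rw [h1, Fintype.sum_unique]
  rfl

/-- The Prelude Selmer group and the library Selmer group of the pulled back conditions have the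
same dimension. -/
theorem finrank_Sel_eq_selLevel (hp2 : p ≠ 2) (M : Rep (ZMod p) Γℚ)
    (hM : (levelsS S).IsDiscrete M)
    (L : ∀ v : extArithIndex S, Submodule (ZMod p) (H1 (Rep.res (extArithLoc S v) M))) :
    finrank (ZMod p) (Sel S M L) = finrank (ZMod p) (selLevel S M (libCond S M L)) := by
  rw [finrank_Sel hp2 hM L, libSel_eq_comap_pi]
  rfl

/-- **Greenberg-Wiles, primal side in the Prelude formalism**: under `TateEulerC S M`, for local
conditions `L v ≤ locH1 S M v`,
`dim Sel S M L + h⁰(M') + ∑_v h⁰(G_v, M) = dim Sel_{L^⊥}(M') + h⁰(M) + ∑_v dim L_v`, the dual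
Selmer group being the library one `selLevel S M' (dualLevCond I M (libCond L))`. -/
theorem gw_export_primal (hp2 : p ≠ 2) (I : GlobalInput p S) (hpS : pPrime p ∈ S)
    (M : Rep (ZMod p) Γℚ) [Finite M] (hM : (levelsS S).IsDiscrete M) (hT : TateEulerC S M)
    (L : ∀ v : extArithIndex S, Submodule (ZMod p) (H1 (Rep.res (extArithLoc S v) M)))
    (hL : ∀ v, L v ≤ locH1 S M v) :
    finrank (ZMod p) (Sel S M L) + finrank (ZMod p) (tateDual p M).ρ.invariants +
        ∑ v : extArithIndex S, finrank (ZMod p) (locH0 S M v) =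
      finrank (ZMod p) (selLevel S (tateDual p M) (dualLevCond I M (libCond S M L))) +
        finrank (ZMod p) M.ρ.invariants + ∑ v : extArithIndex S, finrank (ZMod p) (L v) := by
  have key := gw_level_of_tate I hpS M hM hT (libCond S M L)
  have h1 := finrank_Sel_eq_selLevel hp2 M hM L
  have h2 := sum_locH0_eq (S := S) M
  have h3 : ∑ v : extArithIndex S, finrank (ZMod p) (L v) =
      ∑ v : (arithDatum S).ι, finrank (ZMod p) (libCond S M L v) :=
    sum_finrank_cond hp2 hM L hL
  have e : ∀ a b r s : ℕ, a + b + (r + s) = a + b + s + r := by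
    intros
    omega
  rw [h1, h2, h3, e]
  exact key

/-- The dual side: for a pairing family `P` on the abstract local `H¹` which restricts to the
library pairing `levPairing I M q` on level classes, the Prelude dual Selmer group
`Sel S M' (dualCond P S M L)` has the dimension of the library dual Selmer group. -/
theorem finrank_Sel_dual_eq (hp2 : p ≠ 2) (I : GlobalInput p S) (M : Rep (ZMod p) Γℚ)
    (hM : (levelsS S).IsDiscrete M) (hM' : (levelsS S).IsDiscrete (tateDual p M))
    (P : ∀ (q : Nat.Primes) (M : Rep (ZMod p) Γℚ),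
      H1 (Rep.res (primeLocalToGlobal q) M) →ₗ[ZMod p]
        H1 (Rep.res (primeLocalToGlobal q) (tateDual p M)) →ₗ[ZMod p] ZMod p)
    (hP : ∀ (q : S) x y, P q.1 M (toGCLoc S M q x) (toGCLoc S (tateDual p M) q y) =
      levPairing I M q x y)
    (L : ∀ v : extArithIndex S, Submodule (ZMod p) (H1 (Rep.res (extArithLoc S v) M)))
    (hL : ∀ v, L v ≤ locH1 S M v) :
    finrank (ZMod p) (Sel S (tateDual p M) (dualCond P S M L)) =
      finrank (ZMod p) (selLevel S (tateDual p M) (dualLevCond I M (libCond S M L))) := by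
  rw [finrank_Sel_eq_selLevel hp2 (tateDual p M) hM' (dualCond P S M L)]
  have : libCond S (tateDual p M) (dualCond P S M L) = dualLevCond I M (libCond S M L) := by
    funext q
    exact libCond_dualCond P hM hM' L q (hL (Sum.inr q)) (levPairing I M q) (hP q)
  rw [this]

/-- **Greenberg-Wiles in the Prelude formalism** (equality; the shape of `GWPackage.gw_le`), for
any pairing family `P` restricting to the library pairings on level classes. -/
theorem gw_export (hp2 : p ≠ 2) (I : GlobalInput p S) (hpS : pPrime p ∈ S)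
    (M : Rep (ZMod p) Γℚ) [Finite M] (hM : (levelsS S).IsDiscrete M) (hT : TateEulerC S M)
    (P : ∀ (q : Nat.Primes) (M : Rep (ZMod p) Γℚ),
      H1 (Rep.res (primeLocalToGlobal q) M) →ₗ[ZMod p]
        H1 (Rep.res (primeLocalToGlobal q) (tateDual p M)) →ₗ[ZMod p] ZMod p)
    (hP : ∀ (q : S) x y, P q.1 M (toGCLoc S M q x) (toGCLoc S (tateDual p M) q y) =
      levPairing I M q x y)
    (L : ∀ v : extArithIndex S, Submodule (ZMod p) (H1 (Rep.res (extArithLoc S v) M)))
    (hL : ∀ v, L v ≤ locH1 S M v) :
    finrank (ZMod p) (Sel S M L) + finrank (ZMod p) (tateDual p M).ρ.invariants +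
        ∑ v : extArithIndex S, finrank (ZMod p) (locH0 S M v) =
      finrank (ZMod p) (Sel S (tateDual p M) (dualCond P S M L)) +
        finrank (ZMod p) M.ρ.invariants + ∑ v : extArithIndex S, finrank (ZMod p) (L v) := by
  have hM' : (levelsS S).IsDiscrete (tateDual p M) :=
    isDiscrete_dualTwist' hpS M hM
  rw [finrank_Sel_dual_eq hp2 I M hM hM' P hP L hL]
  exact gw_export_primal hp2 I hpS M hM hT L hL

end Fermat.Agent.S56x.GW
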