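import Fermat.Agent.S56x.GW.LocalScalar
import Fermat.Agent.S56x.GW.GlobalInputArith
import Fermat.Agent.S56x.Local.InfinityLocal

/-!
# P-S56, block (B): partial assembly of `GWPackage p`

All fields of `GWPackage p` (`S56x/GW/Interface.lean`) except the two counting statements
(`localEuler_ne`, `gw_le`) are discharged here from the landed files `GW/LocalFields` (helper34),
`GW/GlobalInputArith` (helper87) and `Local/InfinityLocal` (helper86).  The two remaining
statements are collected in the structure `GWRest hp2`; `gwPackageOf hp2 R : GWPackage p`.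

* `localBaseStd hp2 q` : the `S`-independent choice of the input of local Tate duality at `q`
  (the local input at `q` of the global input for the set `{p, q}`);
* `pairingStd hp2`     : the local pairings of the package (`pairingAtOf` for `localBaseStd`);
* `dualCond_pairingStd`: the dual local conditions computed with any other family of local inputs
  agree with those of the package.
-/

set_option autoImplicit false

open CategoryTheory groupCohomology ExtCitation Module

namespace Fermat.Agent.S56x.GW

open Fermat.Agent.Lib.CFT.Profinite Fermat.Agent.Lib.CFT.Profinite.LevelFamily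
open Fermat.Agent.Lib.CFT.Profinite.Bridge
open Fermat.Agent.Lib.CFT.Duality Fermat.Agent.Lib.CFT.Duality.LocalTate
open Fermat.Agent.Lib.CFT.Duality.PoitouTate

local notation "Qbar" => AlgebraicClosure ℚ
local notation "Γℚ" => (AlgebraicClosure ℚ ≃ₐ[ℚ] AlgebraicClosure ℚ)

variable {p : ℕ} [Fact p.Prime]

/-- The `S`-independent input of local Tate duality at the prime `q`: the local input at `q` of
the (unconditional) global input for the set `{p, q}`. -/
noncomputable def localBaseStd (hp2 : p ≠ 2) (q : Nat.Primes) : LocalBase p q :=
  (arithGlobalInput hp2 ({pPrime p, q} : Finset Nat.Primes)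
    (Finset.mem_insert_self _ _)).loc
      ⟨q, Finset.mem_insert_of_mem (Finset.mem_singleton_self q)⟩

/-- The local Tate pairings of the package. -/
noncomputable def pairingStd (hp2 : p ≠ 2) (q : Nat.Primes) (M : Rep (ZMod p) Γℚ) :
    H1 (Rep.res (primeLocalToGlobal q) M) →ₗ[ZMod p]
      H1 (Rep.res (primeLocalToGlobal q) (tateDual p M)) →ₗ[ZMod p] ZMod p :=
  pairingAtOf q M (localBaseStd hp2)

/-- The dual local conditions of the package can be computed with any family of local inputs
(e.g. `fun q => I.loc q` extended arbitrarily), since `H²(G_q, μ_p)` is a line. -/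
theorem dualCond_pairingStd (hp2 : p ≠ 2) (B : ∀ q : Nat.Primes, LocalBase p q)
    (S : Finset Nat.Primes) (M : Rep (ZMod p) Γℚ)
    (L : ∀ v : extArithIndex S, Submodule (ZMod p) (H1 (Rep.res (extArithLoc S v) M))) :
    dualCond (pairingStd hp2) S M L = dualCond (fun q M => pairingAtOf q M B) S M L :=
  dualCond_pairingAtOf_eq B (localBaseStd hp2) S M L

/-- **What remains to be proved for block (B)**: the tame local Euler characteristic formula and
the Greenberg-Wiles inequality, for the pairings `pairingStd hp2`. -/
structure GWRest (hp2 : p ≠ 2) : Prop where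
  localEuler_ne : ∀ (S : Finset Nat.Primes) (M : Rep (ZMod p) Γℚ)
    [FiniteDimensional (ZMod p) M], IsGoodModule p S M → ∀ q : S, q.1 ≠ pPrime p →
    finrank (ZMod p) (locH1 S M (Sum.inr q)) =
      finrank (ZMod p) (locH0 S M (Sum.inr q)) +
        finrank (ZMod p) (locH0 S (tateDual p M) (Sum.inr q))
  gw_le : ∀ (S : Finset Nat.Primes), pPrime p ∈ S → ∀ (M : Rep (ZMod p) Γℚ)
    [FiniteDimensional (ZMod p) M], IsGoodModule p S M →
    ∀ L : ∀ v : extArithIndex S, Submodule (ZMod p) (H1 (Rep.res (extArithLoc S v) M)),
    (∀ v, L v ≤ locH1 S M v) →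
    finrank (ZMod p) (Sel S M L) + finrank (ZMod p) (tateDual p M).ρ.invariants +
        ∑ v, finrank (ZMod p) (locH0 S M v) ≤
      finrank (ZMod p) (Sel S (tateDual p M) (dualCond (pairingStd hp2) S M L)) +
        finrank (ZMod p) M.ρ.invariants + ∑ v, finrank (ZMod p) (L v)

/-- **The package of block (B)** from the two remaining counting statements. -/
noncomputable def gwPackageOf (hp2 : p ≠ 2) (R : GWRest hp2) : GWPackage p where
  pairingAt := pairingStd hp2
  finite_locH1 := fun S hpS M _ hM v => finite_locH1_of (localBaseStd hp2) S hpS M hM v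
  finite_H1S := fun S hpS M _ hM => finite_H1S_of S (arithGlobalInput hp2 S hpS) M hM
  nondeg_right := fun S q M _ hM => nondeg_right_of (localBaseStd hp2) S q M hM
  nondeg_left := fun S q M _ hM => nondeg_left_of (localBaseStd hp2) S q M hM
  arch := fun hp2' S M u => Fermat.Agent.S56x.Local.InfinityLocal.arch p hp2' S M u
  localEuler_ne := R.localEuler_ne
  gw_le := fun _ => R.gw_le

@[simp]
theorem gwPackageOf_pairingAt (hp2 : p ≠ 2) (R : GWRest hp2) :
    (gwPackageOf hp2 R).pairingAt = pairingStd hp2 := rfl

end Fermat.Agent.S56x.GW
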