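import Fermat.Agent.S56x.GW.Export
import Fermat.Agent.S56x.GW.MainOf

/-!
# P-S56 block (B): the Greenberg–Wiles inequality for the pairings of the package (helper87)

`gw_le_std` : the conclusion of `GWRest.gw_le` (`S56x/GW/MainOf.lean`), i.e. the Greenberg–Wiles
inequality for the `S`-independent pairings `pairingStd hp2`, for ONE good module `M` and ONE set
`S ∋ p`, from the Euler characteristic inequality `dim M^{c = 1} ≤ χ_c(M)` on `arithDatum S`
(implied by `TateEulerC S M`, `phiC S M = 0`, `0 ≤ phiC S M`).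
-/

set_option autoImplicit false

open CategoryTheory groupCohomology ExtCitation Module

namespace Fermat.Agent.S56x.GW.Export

open Fermat.Agent.Lib.CFT.Profinite Fermat.Agent.Lib.CFT.Profinite.LevelFamily
open Fermat.Agent.Lib.CFT.Profinite.Bridge
open Fermat.Agent.Lib.CFT.Duality Fermat.Agent.Lib.CFT.Duality.LocalTate
open Fermat.Agent.Lib.CFT.Duality.PoitouTate
open Fermat.Agent.S56x.GW

local notation "Qbar" => AlgebraicClosure ℚ
local notation "Γℚ" => (AlgebraicClosure ℚ ≃ₐ[ℚ] AlgebraicClosure ℚ)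

variable {p : ℕ} [Fact p.Prime] {S : Finset Nat.Primes}

/-- The pairings `pairingAtOf · · B` are, on continuous classes, nonzero multiples of the library
pairings attached to any global input `I`. -/
theorem pairingAtOf_locIota_eq_mul (B : ∀ q : Nat.Primes, LocalBase p q) (I : GlobalInput p S)
    (M : Rep (ZMod p) Γℚ) (q : S) :
    ∃ c : ZMod p, c ≠ 0 ∧ ∀ (x : levH q.1 M 1) (y : levH q.1 (tateDual p M) 1),
      pairingAtOf q.1 M B (locIota q.1 M x) (locIota q.1 (tateDual p M) y) =
        c * lamAt M I q x y := by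
  obtain ⟨c, hc, h⟩ := localBase_exists_inv_eq_smul (I.loc q) (B q.1)
  have key : ∀ z, (B q.1).inv z = c * (I.loc q).inv z := fun z => by
    rw [h, LinearMap.smul_apply, smul_eq_mul]
  refine ⟨c, hc, fun x y => ?_⟩
  rw [pairingAtOf_locIota, lamRes_apply, lamRes_apply]
  exact key _

/-- **The Greenberg–Wiles inequality for the pairings `pairingAtOf · · B`**, any family `B` of
local inputs. -/
theorem gw_le_pairingAtOf (hp2 : p ≠ 2) (hpS : pPrime p ∈ S) (M : Rep (ZMod p) Γℚ)
    [FiniteDimensional (ZMod p) M] (good : IsGoodModule p S M)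
    (B : ∀ q : Nat.Primes, LocalBase p q)
    (hEC : (finrank (ZMod p) (LinearMap.ker (M.ρ complexConjugation - LinearMap.id)) : ℤ) ≤
      eulerCharC S M)
    (L : ∀ v : extArithIndex S, Submodule (ZMod p) (H1 (Rep.res (extArithLoc S v) M)))
    (hL : ∀ v, L v ≤ locH1 S M v) :
    finrank (ZMod p) (Sel S M L) + finrank (ZMod p) (tateDual p M).ρ.invariants +
        ∑ v, finrank (ZMod p) (locH0 S M v) ≤
      finrank (ZMod p) (Sel S (tateDual p M) (dualCond (fun q M => pairingAtOf q M B) S M L)) +
        finrank (ZMod p) M.ρ.invariants + ∑ v, finrank (ZMod p) (L v) :=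
  gw_le_of M hp2 hpS good (arithGlobalInput hp2 S hpS) (fun q M => pairingAtOf q M B)
    (fun q => pairingAtOf_locIota_eq_mul B (arithGlobalInput hp2 S hpS) M q) hEC L hL

/-- **The Greenberg–Wiles inequality for the pairings of the package** = the conclusion of
`GWRest.gw_le` for the module `M` and the set `S`. -/
theorem gw_le_std (hp2 : p ≠ 2) (hpS : pPrime p ∈ S) (M : Rep (ZMod p) Γℚ)
    [FiniteDimensional (ZMod p) M] (good : IsGoodModule p S M)
    (hEC : (finrank (ZMod p) (LinearMap.ker (M.ρ complexConjugation - LinearMap.id)) : ℤ) ≤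
      eulerCharC S M)
    (L : ∀ v : extArithIndex S, Submodule (ZMod p) (H1 (Rep.res (extArithLoc S v) M)))
    (hL : ∀ v, L v ≤ locH1 S M v) :
    finrank (ZMod p) (Sel S M L) + finrank (ZMod p) (tateDual p M).ρ.invariants +
        ∑ v, finrank (ZMod p) (locH0 S M v) ≤
      finrank (ZMod p) (Sel S (tateDual p M) (dualCond (pairingStd hp2) S M L)) +
        finrank (ZMod p) M.ρ.invariants + ∑ v, finrank (ZMod p) (L v) :=
  gw_le_pairingAtOf hp2 hpS M good (localBaseStd hp2) hEC L hL

/-- The same from Tate's formula `TateEulerC S M`. -/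
theorem gw_le_std_of_tate (hp2 : p ≠ 2) (hpS : pPrime p ∈ S) (M : Rep (ZMod p) Γℚ)
    [FiniteDimensional (ZMod p) M] (good : IsGoodModule p S M) (hT : TateEulerC S M)
    (L : ∀ v : extArithIndex S, Submodule (ZMod p) (H1 (Rep.res (extArithLoc S v) M)))
    (hL : ∀ v, L v ≤ locH1 S M v) :
    finrank (ZMod p) (Sel S M L) + finrank (ZMod p) (tateDual p M).ρ.invariants +
        ∑ v, finrank (ZMod p) (locH0 S M v) ≤
      finrank (ZMod p) (Sel S (tateDual p M) (dualCond (pairingStd hp2) S M L)) +
        finrank (ZMod p) M.ρ.invariants + ∑ v, finrank (ZMod p) (L v) :=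
  gw_le_std hp2 hpS M good (le_of_eq hT.symm) L hL

end Fermat.Agent.S56x.GW.Export
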