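/-
P-S56, block (B) (Greenberg-Wiles), helper34: complement to `S56x/GW/LocalFields.lean`.

`H²(G_q, μ_p)` is a LINE, hence two inputs `B B' : LocalBase p q` of local Tate duality have
proportional invariant maps with a NONZERO ratio; the local pairings `pairingAtOf` built from two
families of inputs differ by nonzero scalars, and the dual local conditions `dualCond` do not depend
on the choice.  (The package `GWPackage p` uses an `S`-independent choice of the local inputs, while
the Greenberg-Wiles formula for a given `S` is proved with the local inputs `I.loc` of the global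
input `I : GlobalInput p S`.)
-/
import Fermat.Agent.S56x.GW.LocalFields

set_option autoImplicit false
set_option linter.unusedSectionVars false

open CategoryTheory groupCohomology ExtCitation Module

namespace Fermat.Agent.S56x.GW

open Fermat.Agent.Lib.CFT.Profinite Fermat.Agent.Lib.CFT.Profinite.LevelFamily
open Fermat.Agent.Lib.CFT.Profinite.Bridge
open Fermat.Agent.Lib.CFT.Duality Fermat.Agent.Lib.CFT.Duality.LocalTate
open Fermat.Agent.Lib.CFT.Duality.PoitouTate

local notation "Qbar" => AlgebraicClosure ℚ
local notation "Γℚ" => (AlgebraicClosure ℚ ≃ₐ[ℚ] AlgebraicClosure ℚ)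

variable {p : ℕ} [Fact p.Prime]

/-! ### `H²(G_q, μ_p)` is a line -/

section Line

variable (q : Nat.Primes)

/-- the local module `μ_p` -/
noncomputable abbrev muLocal : Rep (ZMod p) (primeLocalGaloisGroup q) :=
  groupCohomology.ofChar (k := ZMod p) (localCycloChar p q)

theorem isDiscrete_muLocal : (primeLocalLevels q).IsDiscrete (muLocal (p := p) q) := by
  obtain ⟨U, hU, h⟩ := exists_level_localCycloChar p q
  intro m
  refine ⟨U, hU, fun s hs => ?_⟩
  show ((localCycloChar p q s : (ZMod p)ˣ) : ZMod p) • (m : ZMod p) = m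
  rw [h s hs, Units.val_one, one_smul]

/-- `G_q` acts trivially on `Hom(μ_p, μ_p)`. -/
theorem muLocal_dualTwist_invariants :
    ((muLocal (p := p) q).dualTwist (localCycloChar p q)).ρ.invariants = ⊤ := by
  rw [eq_top_iff]
  intro f _ g
  rw [Rep.dualTwist_ρ_apply]
  refine LinearMap.ext fun a => ?_
  show ((localCycloChar p q g : (ZMod p)ˣ) : ZMod p) • f (((localCycloChar p q g⁻¹ : (ZMod p)ˣ) :
    ZMod p) • (a : ZMod p)) = f a
  rw [map_smul, smul_smul, ← Units.val_mul, ← map_mul, mul_inv_cancel, map_one, Units.val_one,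
    one_smul]

theorem finrank_H0_muLocal_dualTwist :
    finrank (ZMod p) ((primeLocalLevels q).levelCohomology
      ((muLocal (p := p) q).dualTwist (localCycloChar p q)) 0) = 1 := by
  rw [((primeLocalLevels q).H0Equiv _).finrank_eq, muLocal_dualTwist_invariants, finrank_top]
  show finrank (ZMod p) (Module.Dual (ZMod p) (ZMod p)) = 1
  rw [Subspace.dual_finrank_eq, finrank_self]

variable {q}

/-- **`H²(G_q, μ_p)` is one dimensional** (from local Tate duality in degree `(2,0)`). -/
theorem finrank_H2_muLocal (B : LocalBase p q) :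
    finrank (ZMod p) ((primeLocalLevels q).levelCohomology (muLocal (p := p) q) 2) = 1 := by
  have : Finite (muLocal (p := p) q) := inferInstanceAs (Finite (ZMod p))
  have hb := (B.localTate (muLocal q) (isDiscrete_muLocal q)).2
  have h0 := finrank_H0_muLocal_dualTwist (p := p) q
  have : FiniteDimensional (ZMod p) ((primeLocalLevels q).levelCohomology
      ((muLocal (p := p) q).dualTwist (localCycloChar p q)) 0) :=
    Module.finite_of_finrank_pos (by rw [h0]; exact one_pos)
  rw [(LinearEquiv.ofBijective _ hb).finrank_eq, Subspace.dual_finrank_eq, h0]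

/-- The invariant map of an input of local Tate duality is not zero. -/
theorem localBase_inv_ne_zero (B : LocalBase p q) : B.inv ≠ 0 := by
  intro h0
  have : Finite (muLocal (p := p) q) := inferInstanceAs (Finite (ZMod p))
  have hb := (B.localTate (muLocal q) (isDiscrete_muLocal q)).2
  have h1 := finrank_H2_muLocal B
  have : Nontrivial ((primeLocalLevels q).levelCohomology (muLocal (p := p) q) 2) :=
    Module.nontrivial_of_finrank_pos (R := ZMod p) (by rw [h1]; exact one_pos)
  obtain ⟨x, hx⟩ := exists_ne (0 : (primeLocalLevels q).levelCohomology (muLocal (p := p) q) 2)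
  apply hx
  apply hb.1
  rw [map_zero]
  refine LinearMap.ext fun y => ?_
  rw [lam_apply, h0, LinearMap.zero_apply, LinearMap.zero_apply]

/-- **Two inputs of local Tate duality at `q` have proportional invariant maps**, with a nonzero
ratio. -/
theorem localBase_exists_inv_eq_smul (B B' : LocalBase p q) :
    ∃ c : ZMod p, c ≠ 0 ∧ B'.inv = c • B.inv := by
  have h1 := finrank_H2_muLocal B
  obtain ⟨x₀, hx₀⟩ : ∃ x₀, B.inv x₀ ≠ 0 := by
    by_contra hcon
    simp only [not_exists, not_not] at hcon
    exact localBase_inv_ne_zero B (LinearMap.ext fun x => by rw [hcon x, LinearMap.zero_apply])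
  have hx₀' : x₀ ≠ 0 := fun h => hx₀ (by rw [h, map_zero])
  have hspan := (finrank_eq_one_iff_of_nonzero' x₀ hx₀').1 h1
  have hcomp : ∀ x, B'.inv x = (B'.inv x₀ / B.inv x₀) * B.inv x := by
    intro x
    obtain ⟨a, rfl⟩ := hspan x
    rw [map_smul, map_smul, smul_eq_mul, smul_eq_mul]
    field_simp
  refine ⟨B'.inv x₀ / B.inv x₀, ?_, LinearMap.ext fun x => ?_⟩
  · intro hc
    refine localBase_inv_ne_zero B' (LinearMap.ext fun x => ?_)
    rw [hcomp x, hc, zero_mul, LinearMap.zero_apply]
  · rw [hcomp x, LinearMap.smul_apply, smul_eq_mul]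

end Line

/-! ### Independence of the choice of the local inputs -/

section Indep

/-- The pairings built from two families of local inputs differ by a nonzero scalar. -/
theorem pairingAtOf_eq_smul (B B' : ∀ q : Nat.Primes, LocalBase p q) (q : Nat.Primes) :
    ∃ c : ZMod p, c ≠ 0 ∧ ∀ M : Rep (ZMod p) Γℚ, pairingAtOf q M B' = c • pairingAtOf q M B := by
  obtain ⟨c, hc, h⟩ := localBase_exists_inv_eq_smul (B q) (B' q)
  refine ⟨c, hc, fun M => ?_⟩
  have key : ∀ z, (B' q).inv z = c • (B q).inv z := fun z => by
    rw [h, LinearMap.smul_apply]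
  refine LinearMap.ext fun x => LinearMap.ext fun y => ?_
  rw [LinearMap.smul_apply, LinearMap.smul_apply, pairingAtOf, pairingAtOf,
    LinearMap.compl₁₂_apply, LinearMap.compl₁₂_apply, lamRes_apply, lamRes_apply]
  exact key _

/-- The orthogonal complement does not change when the pairing is multiplied by a nonzero
scalar. -/
theorem orthogonal_smul {V W : Type} [AddCommGroup V] [Module (ZMod p) V] [AddCommGroup W]
    [Module (ZMod p) W] (b : V →ₗ[ZMod p] W →ₗ[ZMod p] ZMod p) (c : ZMod p) (hc : c ≠ 0)
    (L : Submodule (ZMod p) V) : orthogonal (c • b) L = orthogonal b L := by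
  ext w
  rw [mem_orthogonal_iff, mem_orthogonal_iff]
  refine forall₂_congr fun x _ => ?_
  rw [LinearMap.smul_apply, LinearMap.smul_apply, smul_eq_mul, mul_eq_zero]
  exact ⟨fun h => h.resolve_left hc, Or.inr⟩

/-- **The dual local conditions do not depend on the pairings up to nonzero scalars.** -/
theorem dualCond_eq_of_smul
    (P P' : ∀ (q : Nat.Primes) (M : Rep (ZMod p) Γℚ),
      H1 (Rep.res (primeLocalToGlobal q) M) →ₗ[ZMod p]
        H1 (Rep.res (primeLocalToGlobal q) (tateDual p M)) →ₗ[ZMod p] ZMod p)
    (h : ∀ q : Nat.Primes, ∃ c : ZMod p, c ≠ 0 ∧ ∀ M : Rep (ZMod p) Γℚ, P' q M = c • P q M)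
    (S : Finset Nat.Primes) (M : Rep (ZMod p) Γℚ)
    (L : ∀ v : extArithIndex S, Submodule (ZMod p) (H1 (Rep.res (extArithLoc S v) M))) :
    dualCond P' S M L = dualCond P S M L := by
  funext v
  rcases v with u | q
  · rfl
  · obtain ⟨c, hc, hq⟩ := h q.1
    show orthogonal (P' q.1 M) (L (Sum.inr q)) ⊓ _ = orthogonal (P q.1 M) (L (Sum.inr q)) ⊓ _
    rw [hq M]
    congr 1
    exact orthogonal_smul (P q.1 M) c hc _

/-- The dual local conditions for the pairings `pairingAtOf` do not depend on the choice of the
local inputs. -/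
theorem dualCond_pairingAtOf_eq (B B' : ∀ q : Nat.Primes, LocalBase p q)
    (S : Finset Nat.Primes) (M : Rep (ZMod p) Γℚ)
    (L : ∀ v : extArithIndex S, Submodule (ZMod p) (H1 (Rep.res (extArithLoc S v) M))) :
    dualCond (fun q M => pairingAtOf q M B') S M L = dualCond (fun q M => pairingAtOf q M B) S M L :=
  dualCond_eq_of_smul _ _ (fun q => pairingAtOf_eq_smul B B' q) S M L

end Indep

end Fermat.Agent.S56x.GW
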