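import Fermat.Agent.S56x.GW.MainOf
import Fermat.Agent.S56x.GW.EnlargeS
import Fermat.Agent.S56x.GW.ExportStd

/-!
# P-S56, block (B): the final assembly of `GWRest`, hypothesis-style

`gwRest_of` produces the two counting statements `GWRest hp2` (hence, with `gwPackageOf`, the
whole package `GWPackage p`) from three typed inputs, each owned by one file of block (B)
(the Greenberg-Wiles inequality under `TateEulerC` for the pairings of the package is
`GW/ExportStd.gw_le_std_of_tate`, helper87):

* `hEuler`  : the tame local Euler characteristic formula (`Local/EulerTame`);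
* `hEC`     : Tate's global Euler characteristic formula after enlarging `S`
              (`Euler/EC`): `∃ T ⊇ S, TateEulerC T M`;
* `F : UnramFamily hp2` : the unramified local conditions at auxiliary primes with their
              properties (`GW/UnramClass` + `Local/UnramLocal` + `Local/EulerTame`).
-/

set_option autoImplicit false

open CategoryTheory groupCohomology ExtCitation Module

namespace Fermat.Agent.S56x.GW

open Fermat.Agent.Lib.CFT.Profinite Fermat.Agent.Lib.CFT.Profinite.LevelFamily
open Fermat.Agent.Lib.CFT.Profinite.Bridge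
open Fermat.Agent.Lib.CFT.Duality Fermat.Agent.Lib.CFT.Duality.LocalTate
open Fermat.Agent.Lib.CFT.Duality.PoitouTate

local notation "Qbar" => AlgebraicClosure ℚ
local notation "Γℚ" => (AlgebraicClosure ℚ ≃ₐ[ℚ] AlgebraicClosure ℚ)

variable {p : ℕ} [Fact p.Prime]

/-! ### Good modules and discreteness -/

/-- A module which is discrete for the levels unramified outside `S` is good for `S`. -/
theorem IsGoodModule.of_isDiscrete {S : Finset Nat.Primes} {M : Rep.{0} (ZMod p) Γℚ}
    (hM : (levelsS S).IsDiscrete M) : IsGoodModule p S M := by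
  refine ⟨fun m => ?_, fun q hq A hA g hg => ?_⟩
  · obtain ⟨_, ⟨F, hF, rfl⟩, h⟩ := hM m
    exact ⟨F, hF.1, h⟩
  · refine LinearMap.ext fun m => ?_
    obtain ⟨_, ⟨F, hF, rfl⟩, h⟩ := hM m
    exact h g (hF.2 q hq A hA hg)

/-- The Tate dual of a good module is good (`p ∈ S`). -/
theorem IsGoodModule.tateDual {S : Finset Nat.Primes} {M : Rep.{0} (ZMod p) Γℚ}
    [FiniteDimensional (ZMod p) M] (hM : IsGoodModule p S M) (hpS : pPrime p ∈ S) :
    IsGoodModule p S (tateDual p M) := by
  have : Finite M := Module.finite_of_finite (ZMod p)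
  exact IsGoodModule.of_isDiscrete (hM.isDiscrete_tateDual hpS)

/-! ### The unramified conditions at auxiliary primes -/

/-- The unramified local conditions `U q M ≤ H¹(G_q, M)` with the properties used to enlarge
`S` by auxiliary primes. -/
structure UnramFamily (hp2 : p ≠ 2) where
  /-- the unramified classes at `q` -/
  U : ∀ (q : Nat.Primes) (M : Rep.{0} (ZMod p) Γℚ),
    Submodule (ZMod p) (H1 (Rep.res (primeLocalToGlobal q) M))
  /-- unramified classes are continuous -/
  le_cont : ∀ (S : Finset Nat.Primes) (M : Rep.{0} (ZMod p) Γℚ), IsGoodModule p S M →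
    ∀ t : Nat.Primes, t ∉ S →
      U t M ≤ continuousH1 (primeLocalToGlobal t) (Rep.res (primeLocalToGlobal t) M)
  /-- (U1) classes unramified outside `S` are unramified at `t ∉ S` -/
  loc_mem : ∀ (S : Finset Nat.Primes) (M : Rep.{0} (ZMod p) Γℚ), IsGoodModule p S M →
    ∀ x ∈ continuousH1S S M, ∀ t : Nat.Primes, t ∉ S →
      (locRes (fun q : Nat.Primes => primeLocalToGlobal q) M t).hom x ∈ U t M
  /-- (U2) a class unramified outside `S ∪ T` and unramified at the primes of `T \ S` is
  unramified outside `S` -/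
  mono : ∀ (S T : Finset Nat.Primes) (M : Rep.{0} (ZMod p) Γℚ), IsGoodModule p S M →
    ∀ y ∈ continuousH1S (S ∪ T) M,
      (∀ t ∈ T, t ∉ S →
        (locRes (fun q : Nat.Primes => primeLocalToGlobal q) M t).hom y ∈ U t M) →
      y ∈ continuousH1S S M
  /-- (U3) `dim H¹_unr(G_t, M) ≤ h⁰(G_t, M)` -/
  finrank_le : ∀ (S : Finset Nat.Primes) (M : Rep.{0} (ZMod p) Γℚ)
    [FiniteDimensional (ZMod p) M],
    IsGoodModule p S M → ∀ t : Nat.Primes, t ∉ S →
      finrank (ZMod p) (U t M) ≤
        finrank (ZMod p) (Rep.res (primeLocalToGlobal t) M).ρ.invariants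
  /-- (U4) the annihilator of the unramified classes of `M` consists of unramified classes of
  `M^*(1)` -/
  orth : ∀ (S : Finset Nat.Primes) (M : Rep.{0} (ZMod p) Γℚ) [FiniteDimensional (ZMod p) M],
    IsGoodModule p S M → pPrime p ∈ S → ∀ t : Nat.Primes, t ∉ S →
      orthogonal (pairingStd hp2 t M) (U t M) ⊓
        continuousH1 (primeLocalToGlobal t) (Rep.res (primeLocalToGlobal t) (tateDual p M)) ≤
      U t (tateDual p M)

/-! ### The assembly -/

/-- **The final assembly of block (B).** -/
theorem gwRest_of (hp2 : p ≠ 2) (F : UnramFamily hp2)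
    (hEuler : ∀ (S : Finset Nat.Primes) (M : Rep.{0} (ZMod p) Γℚ)
      [FiniteDimensional (ZMod p) M], IsGoodModule p S M → ∀ q : S, q.1 ≠ pPrime p →
      finrank (ZMod p) (locH1 S M (Sum.inr q)) =
        finrank (ZMod p) (locH0 S M (Sum.inr q)) +
          finrank (ZMod p) (locH0 S (tateDual p M) (Sum.inr q)))
    (hEC : ∀ (S : Finset Nat.Primes), pPrime p ∈ S → ∀ (M : Rep.{0} (ZMod p) Γℚ) [Finite M],
      (levelsS S).IsDiscrete M → ∃ T : Finset Nat.Primes, S ⊆ T ∧ TateEulerC T M) :
    GWRest hp2 where
  localEuler_ne := hEuler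
  gw_le := by
    intro S hpS M _ hM L hL
    have hfinM : Finite M := Module.finite_of_finite (ZMod p)
    obtain ⟨T, hST, hT⟩ := hEC S hpS M hM.isDiscrete
    have hTeq : S ∪ T = T := Finset.union_eq_right.2 hST
    have hpT : pPrime p ∈ T := hST hpS
    have hMT : IsGoodModule p T M := hM.mono hST
    have hM' : IsGoodModule p S (tateDual p M) := hM.tateDual hpS
    have hfin : Module.Finite (ZMod p) (continuousH1S (S ∪ T) M) := by
      rw [hTeq]
      exact finite_H1S_of T (arithGlobalInput hp2 T hpT) M hMT
    have hfin' : Module.Finite (ZMod p) (continuousH1S S (tateDual p M)) :=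
      finite_H1S_of S (arithGlobalInput hp2 S hpS) (tateDual p M) hM'
    refine gw_le_of_enlarge_of_forall (pairingStd hp2) S T M L hL (fun q => F.U q M)
      (fun q => F.U q (tateDual p M)) hfin hfin'
      (fun x hx t _ htS => F.loc_mem S M hM x hx t htS)
      (fun y hy h => F.mono S T (tateDual p M) hM' y hy h)
      (fun t _ htS => F.finrank_le S M hM t htS)
      (fun t _ htS => F.orth S M hM hpS t htS)
      (fun t _ htS => F.le_cont S M hM t htS) ?_
    rw [hTeq]
    intro L' hL'
    exact Export.gw_le_std_of_tate hp2 hpT M hMT hT L' hL'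

/-- **The package of block (B)** from the three remaining inputs. -/
noncomputable def gwPackageOfInputs (hp2 : p ≠ 2) (F : UnramFamily hp2)
    (hEuler : ∀ (S : Finset Nat.Primes) (M : Rep.{0} (ZMod p) Γℚ)
      [FiniteDimensional (ZMod p) M], IsGoodModule p S M → ∀ q : S, q.1 ≠ pPrime p →
      finrank (ZMod p) (locH1 S M (Sum.inr q)) =
        finrank (ZMod p) (locH0 S M (Sum.inr q)) +
          finrank (ZMod p) (locH0 S (tateDual p M) (Sum.inr q)))
    (hEC : ∀ (S : Finset Nat.Primes), pPrime p ∈ S → ∀ (M : Rep.{0} (ZMod p) Γℚ) [Finite M],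
      (levelsS S).IsDiscrete M → ∃ T : Finset Nat.Primes, S ⊆ T ∧ TateEulerC T M) :
    GWPackage p :=
  gwPackageOf hp2 (gwRest_of hp2 F hEuler hEC)

end Fermat.Agent.S56x.GW
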