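import Fermat.Agent.S56x.GW.UnramFamilyMain

/-!
# P-S56 block (B): the package `GWPackage p` from Tate's global Euler characteristic formula alone

(Text by helper92 — `origin/helper92:GW/UnramFamilyFinal.lean` without the duplicate term
`unramFamily`, which is `GW/UnramFamilyMain.unramFamily` (helper57); compiled and landed by
helper25.)  With `unramFamily hp2 : UnramFamily hp2` (`GW/UnramFamilyMain`) and the tame local Euler
characteristic formula `EulerTameFinal.localEuler_ne` (helper23), block (B) owes only Tate's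
global Euler characteristic formula `hEC`.
-/

set_option autoImplicit false

open CategoryTheory groupCohomology ExtCitation Module

namespace Fermat.Agent.S56x.GW

open Fermat.Agent.Lib.CFT.Profinite Fermat.Agent.Lib.CFT.Profinite.LevelFamily
open Fermat.Agent.Lib.CFT.Profinite.Bridge
open Fermat.Agent.Lib.CFT.Duality Fermat.Agent.Lib.CFT.Duality.LocalTate
open Fermat.Agent.Lib.CFT.Duality.PoitouTate
open Fermat.Agent.S56x.Local

local notation "Qbar" => AlgebraicClosure ℚ
local notation "Γℚ" => (AlgebraicClosure ℚ ≃ₐ[ℚ] AlgebraicClosure ℚ)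

variable {p : ℕ} [Fact p.Prime]

/-- The tame local Euler characteristic formula: the input `hEuler` of `gwRest_of`. -/
theorem localEuler_ne_std (hp2 : p ≠ 2) :
    ∀ (S : Finset Nat.Primes) (M : Rep.{0} (ZMod p) Γℚ)
      [FiniteDimensional (ZMod p) M], IsGoodModule p S M → ∀ q : S, q.1 ≠ pPrime p →
      finrank (ZMod p) (locH1 S M (Sum.inr q)) =
        finrank (ZMod p) (locH0 S M (Sum.inr q)) +
          finrank (ZMod p) (locH0 S (tateDual p M) (Sum.inr q)) :=
  EulerTameFinal.localEuler_ne (localBaseStd hp2)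

/-- **`GWRest` from Tate's global Euler characteristic formula alone.** -/
theorem gwRest_of_EC (hp2 : p ≠ 2)
    (hEC : ∀ (S : Finset Nat.Primes), pPrime p ∈ S → ∀ (M : Rep.{0} (ZMod p) Γℚ) [Finite M],
      (levelsS S).IsDiscrete M → ∃ T : Finset Nat.Primes, S ⊆ T ∧ TateEulerC T M) :
    GWRest hp2 :=
  gwRest_of hp2 (unramFamily hp2) (localEuler_ne_std hp2) hEC

/-- **The package of block (B) from Tate's global Euler characteristic formula alone.** -/
noncomputable def gwPackageOfEC (hp2 : p ≠ 2)
    (hEC : ∀ (S : Finset Nat.Primes), pPrime p ∈ S → ∀ (M : Rep.{0} (ZMod p) Γℚ) [Finite M],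
      (levelsS S).IsDiscrete M → ∃ T : Finset Nat.Primes, S ⊆ T ∧ TateEulerC T M) :
    GWPackage p :=
  gwPackageOf hp2 (gwRest_of_EC hp2 hEC)

@[simp]
theorem gwPackageOfEC_pairingAt (hp2 : p ≠ 2)
    (hEC : ∀ (S : Finset Nat.Primes), pPrime p ∈ S → ∀ (M : Rep.{0} (ZMod p) Γℚ) [Finite M],
      (levelsS S).IsDiscrete M → ∃ T : Finset Nat.Primes, S ⊆ T ∧ TateEulerC T M) :
    (gwPackageOfEC hp2 hEC).pairingAt = pairingStd hp2 := rfl

end Fermat.Agent.S56x.GW
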