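import Fermat.Agent.S56x.GW.Interface
import Fermat.Agent.S56x.GW.DecompSurj
import Fermat.Agent.S56x.Cheb.ValConj

/-!
# P-S56, block (B), file (F4'): unramified classes, global side

Cocycle-level forms of the facts about unramified classes used by `GW/EnlargeS.lean`:

* `exists_unramified_cocycle_of_mem_continuousH1S` (U1): the localisation at `t ∉ S` of a class
  unramified outside `S` is the class of a level-constant local cocycle vanishing on inertia;
* `mem_continuousH1S_of_locally_unramified` (U2): a class unramified outside `S ∪ T` whose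
  localisations at the primes `t ∈ T \ S` are classes of local cocycles vanishing on inertia is
  unramified outside `S` (for `M` unramified outside `S`);
* `monoStatement`: the statement `MonoStatement p` of the interface (the case of the zero cocycle).

The condition "the local class `y` at `q` is unramified" is stated without any auxiliary
definition, as: `y` is the class of a local cocycle which vanishes on every `i` with
`primeLocalToGlobal q i` in the inertia subgroup of `primeLocalPlace q`.
-/

set_option autoImplicit false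

open CategoryTheory groupCohomology ExtCitation Module

namespace Fermat.Agent.S56x.GW.UnramClass

open Fermat.Agent.Lib.CFT.Profinite.Bridge Fermat.Agent.S56x.Cheb Fermat.Agent.S56x.GW

local notation "Qbar" => AlgebraicClosure ℚ
local notation "Γℚ" => (AlgebraicClosure ℚ ≃ₐ[ℚ] AlgebraicClosure ℚ)

/-! ### Cocycle algebra -/

section Cocycle

variable {k G : Type} [CommRing k] [Group G] {M : Rep k G} (c : cocycles₁ M)

theorem cocycle_mul (g h : G) : c (g * h) = M.ρ g (c h) + c g :=
  (mem_cocycles₁_iff c).1 c.2 g h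

/-- The subgroup on which a `1`-cocycle vanishes. -/
def vanishSubgroup : Subgroup G where
  carrier := {s | c s = 0}
  one_mem' := cocycles₁_map_one c
  mul_mem' := by
    intro s t hs ht
    have hs' : c s = 0 := hs
    have ht' : c t = 0 := ht
    show c (s * t) = 0
    rw [cocycle_mul, hs', ht', map_zero, add_zero]
  inv_mem' := by
    intro s hs
    have hs' : c s = 0 := hs
    show c s⁻¹ = 0
    have h1 := cocycles₁_map_inv c s
    rw [hs', neg_zero] at h1
    have h2 := congrArg (M.ρ s⁻¹) h1
    rw [map_zero, ← Module.End.mul_apply, ← map_mul, inv_mul_cancel, map_one,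
      Module.End.one_apply] at h2
    exact h2

theorem mem_vanishSubgroup_iff (s : G) : s ∈ vanishSubgroup c ↔ c s = 0 := Iff.rfl

theorem cocycle_mul_of_mem_vanishSubgroup (g : G) {s : G} (hs : s ∈ vanishSubgroup c) :
    c (g * s) = c g := by
  have hs' : c s = 0 := hs
  rw [cocycle_mul, hs', map_zero, zero_add]

/-- A cocycle vanishing at `s₀`, where `s₀` acts trivially, vanishes at the conjugates of `s₀`. -/
theorem cocycle_conj_eq_zero {s₀ : G} (hs₀ : c s₀ = 0) (hρ : M.ρ s₀ = 1) (g : G) :
    c (g * s₀ * g⁻¹) = 0 := by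
  rw [cocycle_mul, cocycle_mul, hs₀, map_zero, zero_add, map_mul, hρ, mul_one,
    cocycles₁_map_inv, neg_add_cancel]

end Cocycle

/-! ### Open subgroups of `Γℚ` and their fixed fields -/

section Open

local instance isAlgebraicQbar_uc : Algebra.IsAlgebraic ℚ (AlgebraicClosure ℚ) :=
  AlgebraicClosure.isAlgebraic ℚ
local instance isAlgClosureQbar_uc : IsAlgClosure ℚ (AlgebraicClosure ℚ) :=
  ⟨inferInstance, inferInstance⟩
local instance normalQbar_uc : Normal ℚ (AlgebraicClosure ℚ) :=
  IsAlgClosure.normal ℚ (AlgebraicClosure ℚ)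
local instance isGaloisQbar_uc : IsGalois ℚ (AlgebraicClosure ℚ) := ⟨⟩

/-- A subgroup of `Γℚ` containing the fixing subgroup of a finite extension is the fixing subgroup
of its fixed field. -/
theorem eq_fixingSubgroup_fixedField_of_le {W : Subgroup Γℚ} {F : IntermediateField ℚ Qbar}
    [FiniteDimensional ℚ F] (hle : F.fixingSubgroup ≤ W) :
    (IntermediateField.fixedField W).fixingSubgroup = W :=
  InfiniteGalois.fixingSubgroup_fixedField
    ⟨W, W.isClosed_of_isOpen (Subgroup.isOpen_mono hle F.fixingSubgroup_isOpen)⟩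

theorem fixedField_le_of_le {W : Subgroup Γℚ} {F : IntermediateField ℚ Qbar}
    (hle : F.fixingSubgroup ≤ W) : IntermediateField.fixedField W ≤ F := by
  have h := IntermediateField.fixedField_antitone hle
  rwa [InfiniteGalois.fixedField_fixingSubgroup] at h

end Open

/-! ### Descent of the level -/

section Descent

variable {k : Type} [CommRing k] {M : Rep k Γℚ} (c : cocycles₁ M)

/-- A cocycle which is level-constant for a field unramified outside `S` vanishes on the inertia
groups at the primes outside `S`. -/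
theorem cocycle_eq_zero_of_mem_inertia {S : Finset Nat.Primes} (hc : IsLevelConstantS₁ S c)
    {q : Nat.Primes} (hq : q ∉ S) (A : ValuationSubring Qbar) (hA : A.LiesOverPrime (q : ℕ))
    {σ : Γℚ} (hσ : σ ∈ A.inertiaSubgroupIn ℚ) : c σ = 0 := by
  obtain ⟨F, hF, h⟩ := hc
  have h1 := h 1 σ (hF.2 q hq A hA hσ)
  rw [one_mul, cocycles₁_map_one] at h1
  exact h1

/-- **Descent of the level**: a cocycle which is level-constant for a field unramified outside
`S ∪ T` and vanishes on all inertia groups at the primes of `T \ S` is level-constant for a field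
unramified outside `S`. -/
theorem isLevelConstantS₁_of_vanish {S T : Finset Nat.Primes}
    (hc : IsLevelConstantS₁ (S ∪ T) c)
    (hv : ∀ t ∈ T, t ∉ S → ∀ A : ValuationSubring Qbar, A.LiesOverPrime (t : ℕ) →
      ∀ σ ∈ A.inertiaSubgroupIn ℚ, c σ = 0) :
    IsLevelConstantS₁ S c := by
  obtain ⟨F, hF, h⟩ := hc
  have := hF.1
  have hle : F.fixingSubgroup ≤ vanishSubgroup c := by
    intro s hs
    have h1 := h 1 s hs
    rw [one_mul, cocycles₁_map_one] at h1
    exact h1
  have hfix := eq_fixingSubgroup_fixedField_of_le hle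
  refine ⟨IntermediateField.fixedField (vanishSubgroup c), ⟨?_, ?_⟩, ?_⟩
  · exact (IntermediateField.IsUnramifiedOutside.of_le (fixedField_le_of_le hle) hF).1
  · intro q hq A hA σ hσ
    rw [hfix]
    by_cases hqT : q ∈ T
    · exact hv q hqT hq A hA σ hσ
    · have hqST : q ∉ S ∪ T := by
        rw [Finset.mem_union]
        tauto
      exact hle (hF.2 q hqST A hA hσ)
  · intro g s hs
    rw [hfix] at hs
    exact cocycle_mul_of_mem_vanishSubgroup c g hs

end Descent

/-! ### From the local class to the global inertia groups -/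

section LocalGlobal

variable {k : Type} [CommRing k] {M : Rep k Γℚ} (c : cocycles₁ M)

/-- The restriction of the class of `c` along `f` is the class of `c ∘ f`. -/
theorem map_H1π_eq {G H : Type} [Group G] [Group H] (f : H →* G) (N : Rep k G)
    (c : cocycles₁ N) :
    (groupCohomology.map f (𝟙 (Rep.res f N)) 1).hom ((H1π N).hom c) =
      (H1π (Rep.res f N)).hom ((mapCocycles₁ f (𝟙 (Rep.res f N))).hom c) :=
  H1π_comp_map_apply f (𝟙 (Rep.res f N)) c

theorem mapCocycles₁_id_apply {G H : Type} [Group G] [Group H] (f : H →* G) (N : Rep k G)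
    (c : cocycles₁ N) (h : H) :
    ((mapCocycles₁ f (𝟙 (Rep.res f N))).hom c) h = c (f h) := rfl

variable (q : ℕ) [Fact q.Prime]

theorem liesOverPrime_padicPlace : (padicPlace q).LiesOverPrime q := by
  show ((q : ℕ) : Qbar) ∈ (padicPlace q).nonunits
  rw [ValuationSubring.mem_nonunits_iff_or]
  right
  rw [mem_padicPlace_iff, map_inv₀, map_natCast, ← NNReal.coe_le_coe, coe_nnnorm, norm_inv,
    norm_natCast_padicAlgCl, inv_inv, NNReal.coe_one, not_le]
  exact_mod_cast (Fact.out : q.Prime).one_lt

/-- If the localisation at `q` of the class of `c` is the class of a local cocycle vanishing on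
(the preimage of) inertia, and the inertia group of `padicPlace q` acts trivially on `M`, then `c`
vanishes on the inertia group of `padicPlace q`. -/
theorem cocycle_eq_zero_of_mem_inertia_padicPlace
    (hM : ∀ g ∈ (padicPlace q).inertiaSubgroupIn ℚ, M.ρ g = 1)
    (c' : cocycles₁ (Rep.res (localGaloisToGlobal q) M))
    (hc' : ∀ i, localGaloisToGlobal q i ∈ (padicPlace q).inertiaSubgroupIn ℚ → c' i = 0)
    (hcc' : (H1π (Rep.res (localGaloisToGlobal q) M)).hom c' =
      (groupCohomology.map (localGaloisToGlobal q) (𝟙 (Rep.res (localGaloisToGlobal q) M)) 1).hom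
        ((H1π M).hom c))
    {σ : Γℚ} (hσ : σ ∈ (padicPlace q).inertiaSubgroupIn ℚ) : c σ = 0 := by
  obtain ⟨h, rfl⟩ := DecompSurj.exists_local_eq_of_mem_inertia q σ hσ
  rw [map_H1π_eq, H1π_eq_iff] at hcc'
  obtain ⟨m, hm⟩ := hcc'
  have h1 := congrFun hm h
  rw [d₀₁_hom_apply, Pi.sub_apply, hc' h hσ, zero_sub, mapCocycles₁_id_apply] at h1
  have h2 : (Rep.res (localGaloisToGlobal q) M).ρ h m = M.ρ (localGaloisToGlobal q h) m := rfl
  rw [h2, hM _ hσ, Module.End.one_apply, sub_self] at h1
  exact neg_eq_zero.mp h1.symm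

/-- A cocycle vanishing on the inertia group of `padicPlace q` vanishes on the inertia groups of
all places over `q`, provided they all act trivially on `M`. -/
theorem cocycle_eq_zero_of_mem_inertia_of_padicPlace
    (hM : ∀ g ∈ (padicPlace q).inertiaSubgroupIn ℚ, M.ρ g = 1)
    (hc : ∀ σ ∈ (padicPlace q).inertiaSubgroupIn ℚ, c σ = 0)
    (A : ValuationSubring Qbar) (hA : A.LiesOverPrime q)
    {σ : Γℚ} (hσ : σ ∈ A.inertiaSubgroupIn ℚ) : c σ = 0 := by
  have hgal : IsGalois ℚ Qbar := isGalois_qbar
  obtain ⟨τ, rfl⟩ := exists_smul_eq_of_liesOverPrime (Fact.out : q.Prime) (padicPlace q) A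
    (liesOverPrime_padicPlace q) hA
  rw [mem_inertiaSubgroupIn_smul_iff] at hσ
  have h1 := cocycle_conj_eq_zero c (hc _ hσ) (hM _ hσ) τ
  have h2 : τ * (τ⁻¹ * σ * τ) * τ⁻¹ = σ := by group
  rwa [h2] at h1

end LocalGlobal

/-! ### The statements in the formalism of the interface -/

section Final

variable {p : ℕ} [Fact p.Prime]

/-- **(U1)** The localisation at `t ∉ S` of a class unramified outside `S` is the class of a
level-constant local cocycle which vanishes on inertia. -/
theorem exists_unramified_cocycle_of_mem_continuousH1S (S : Finset Nat.Primes)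
    (M : Rep (ZMod p) Γℚ) {x : H1 M} (hx : x ∈ continuousH1S S M) {t : Nat.Primes} (ht : t ∉ S) :
    ∃ c' : cocycles₁ (Rep.res (primeLocalToGlobal t) M),
      IsLevelConstant₁ (primeLocalToGlobal t) c' ∧
      (∀ i, primeLocalToGlobal t i ∈ (primeLocalPlace t).inertiaSubgroupIn ℚ → c' i = 0) ∧
      (H1π (Rep.res (primeLocalToGlobal t) M)).hom c' =
        (locRes (fun q : Nat.Primes => primeLocalToGlobal q) M t).hom x := by
  have : Fact ((t : ℕ).Prime) := ⟨t.2⟩
  obtain ⟨c, hc, rfl⟩ := (mem_continuousH1S_iff S M x).1 hx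
  refine ⟨(mapCocycles₁ (primeLocalToGlobal t) (𝟙 (Rep.res (primeLocalToGlobal t) M))).hom c,
    ?_, ?_, ?_⟩
  · obtain ⟨F, hF, h⟩ := hc
    refine ⟨F, hF.1, fun g s hs => ?_⟩
    rw [mapCocycles₁_id_apply, mapCocycles₁_id_apply, map_mul]
    exact h _ _ hs
  · intro i hi
    rw [mapCocycles₁_id_apply]
    exact cocycle_eq_zero_of_mem_inertia c hc ht (primeLocalPlace t)
      (liesOverPrime_padicPlace (t : ℕ)) hi
  · exact (map_H1π_eq (primeLocalToGlobal t) M c).symm

/-- **(U2)** A class unramified outside `S ∪ T` whose localisations at the primes `t ∈ T \ S` are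
classes of local cocycles vanishing on inertia is unramified outside `S`, for `M` unramified
outside `S`. -/
theorem mem_continuousH1S_of_locally_unramified (S T : Finset Nat.Primes)
    (M : Rep (ZMod p) Γℚ)
    (hM : ∀ q : Nat.Primes, q ∉ S → ∀ A : ValuationSubring Qbar,
      A.LiesOverPrime (q : ℕ) → ∀ g ∈ A.inertiaSubgroupIn ℚ, M.ρ g = 1)
    {x : H1 M} (hx : x ∈ continuousH1S (S ∪ T) M)
    (hloc : ∀ t ∈ T, t ∉ S → ∃ c' : cocycles₁ (Rep.res (primeLocalToGlobal t) M),
      (∀ i, primeLocalToGlobal t i ∈ (primeLocalPlace t).inertiaSubgroupIn ℚ → c' i = 0) ∧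
      (H1π (Rep.res (primeLocalToGlobal t) M)).hom c' =
        (locRes (fun q : Nat.Primes => primeLocalToGlobal q) M t).hom x) :
    x ∈ continuousH1S S M := by
  obtain ⟨c, hc, rfl⟩ := (mem_continuousH1S_iff (S ∪ T) M x).1 hx
  refine (mem_continuousH1S_iff S M _).2 ⟨c, ?_, rfl⟩
  apply isLevelConstantS₁_of_vanish c hc
  intro t ht htS A hA σ hσ
  have : Fact ((t : ℕ).Prime) := ⟨t.2⟩
  obtain ⟨c', hc'1, hc'2⟩ := hloc t ht htS
  have hMt : ∀ g ∈ (padicPlace (t : ℕ)).inertiaSubgroupIn ℚ, M.ρ g = 1 :=
    hM t htS (padicPlace (t : ℕ)) (liesOverPrime_padicPlace (t : ℕ))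
  have h0 : ∀ σ ∈ (padicPlace (t : ℕ)).inertiaSubgroupIn ℚ, c σ = 0 := fun σ hσ =>
    cocycle_eq_zero_of_mem_inertia_padicPlace c (t : ℕ) hMt c' hc'1 hc'2 hσ
  exact cocycle_eq_zero_of_mem_inertia_of_padicPlace c (t : ℕ) hMt h0 A hA hσ

/-- **(MONO)** The statement `MonoStatement p` of the interface. -/
theorem monoStatement (p : ℕ) [Fact p.Prime] : MonoStatement p := by
  intro S Q M hM x hx hloc
  refine mem_continuousH1S_of_locally_unramified S Q M hM.unram hx ?_
  intro t ht _
  exact ⟨0, fun _ _ => rfl, by rw [map_zero, hloc t ht]⟩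

end Final

end Fermat.Agent.S56x.GW.UnramClass
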