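import Fermat.Agent.S56x.GW.MainAssembly
import Fermat.Agent.S56x.GW.UnramClass
import Fermat.Agent.S56x.Local.UnramInertia
import Fermat.Agent.S56x.Local.EulerTameFinal

/-!
# P-S56, block (B): the unramified family `unramFamily hp2 : UnramFamily hp2`

`U t M := H1unrAt t M` (`Local/UnramFinal`): the classes of level-constant local cocycles vanishing
on the inertia subgroup of the local Galois group at `t`.  The fields of `UnramFamily`
(`GW/MainAssembly`):

* `le_cont`            : `H1unrAt_le_continuousH1`;
* `loc_mem` (U1), `mono` (U2) : `GW/UnramClass` through `UnramInertia.mem_H1unrAt_iff`;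
* `finrank_le` (U3)    : `UnramFinal.finrank_H1unrAt`;
* `orth` (U4)          : a dimension count from local Tate duality (`GW/LocalFields`), the tame
  local Euler characteristic formula (`Local/EulerTameFinal`), (U3) for `M` and `M^*(1)`, and the
  orthogonality of unramified classes (`UnramFinal.pairingAtOf_eq_zero_of_mem_H1unrAt`).
-/

set_option autoImplicit false

open CategoryTheory groupCohomology ExtCitation Module

namespace Fermat.Agent.S56x.GW

open Fermat.Agent.Lib.CFT.Profinite Fermat.Agent.Lib.CFT.Profinite.LevelFamily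
open Fermat.Agent.Lib.CFT.Profinite.Bridge
open Fermat.Agent.Lib.CFT.Duality Fermat.Agent.Lib.CFT.Duality.LocalTate
open Fermat.Agent.Lib.CFT.Duality.PoitouTate
open Fermat.Agent.S56x.Local.UnramFinal Fermat.Agent.S56x.Local.UnramInertia

local notation "Qbar" => AlgebraicClosure ℚ
local notation "Γℚ" => (AlgebraicClosure ℚ ≃ₐ[ℚ] AlgebraicClosure ℚ)

variable {p : ℕ} [Fact p.Prime]

namespace UnramFamilyMain

/-! ### A dimension count for a pairing which is nondegenerate on `V × W` -/

section Count

variable {k : Type} [Field k] {X Y : Type} [AddCommGroup X] [Module k X] [AddCommGroup Y]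
  [Module k Y] (P : X →ₗ[k] Y →ₗ[k] k) (V : Submodule k X) (W : Submodule k Y)
  [FiniteDimensional k V] [FiniteDimensional k W]

theorem orthogonal_eq_orthR (A : Submodule k X) : orthogonal P A = orthR P A := by
  ext y
  rw [mem_orthogonal_iff, mem_orthR]

theorem finrank_orthogonal_inf_add
    (hleft : ∀ x ∈ V, (∀ y ∈ W, P x y = 0) → x = 0) (A : Submodule k X) (hA : A ≤ V) :
    finrank k ↥(orthogonal P A ⊓ W) + finrank k A = finrank k W := by
  have : FiniteDimensional k A := Submodule.finiteDimensional_of_le hA
  have h := finrank_inf_add_finrank P A W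
  have h1 : orthL P W ⊓ A = ⊥ := by
    rw [eq_bot_iff]
    intro x hx
    rw [Submodule.mem_bot]
    exact hleft x (hA hx.2) (fun y hy => hx.1 y hy)
  rw [h1, finrank_bot, zero_add, inf_comm, ← orthogonal_eq_orthR] at h
  exact h.symm

theorem finrank_eq_of_nondeg
    (hleft : ∀ x ∈ V, (∀ y ∈ W, P x y = 0) → x = 0)
    (hright : ∀ y ∈ W, (∀ x ∈ V, P x y = 0) → y = 0) :
    finrank k V = finrank k W := by
  have h := finrank_orthogonal_inf_add P V W hleft V le_rfl
  have h1 : orthogonal P V ⊓ W = ⊥ := by
    rw [eq_bot_iff]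
    intro y hy
    rw [Submodule.mem_bot]
    exact hright y hy.2 (fun x hx => (mem_orthogonal_iff P V y).1 hy.1 x hx)
  rw [h1, finrank_bot, zero_add] at h
  exact h

end Count

/-! ### The fields of `UnramFamily` -/

section Fields

/-- (U1) -/
theorem loc_mem_H1unrAt (S : Finset Nat.Primes) (M : Rep.{0} (ZMod p) Γℚ)
    {x : H1 M} (hx : x ∈ continuousH1S S M) {t : Nat.Primes} (ht : t ∉ S) :
    (locRes (fun q : Nat.Primes => primeLocalToGlobal q) M t).hom x ∈ H1unrAt t M :=
  (mem_H1unrAt_iff t M _).2
    (UnramClass.exists_unramified_cocycle_of_mem_continuousH1S S M hx ht)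

/-- (U2) -/
theorem mem_continuousH1S_of_loc_mem_H1unrAt (S T : Finset Nat.Primes)
    (M : Rep.{0} (ZMod p) Γℚ) (hM : IsGoodModule p S M) {y : H1 M}
    (hy : y ∈ continuousH1S (S ∪ T) M)
    (h : ∀ t ∈ T, t ∉ S →
      (locRes (fun q : Nat.Primes => primeLocalToGlobal q) M t).hom y ∈ H1unrAt t M) :
    y ∈ continuousH1S S M := by
  refine UnramClass.mem_continuousH1S_of_locally_unramified S T M hM.unram hy ?_
  intro t ht htS
  obtain ⟨c', _, hv, hcls⟩ := (mem_H1unrAt_iff t M _).1 (h t ht htS)
  exact ⟨c', hv, hcls⟩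

/-- (U4) by counting: local Tate duality, the tame Euler characteristic formula, the dimension of
the unramified classes and their orthogonality. -/
theorem orth_H1unrAt (hp2 : p ≠ 2)
    (S : Finset Nat.Primes) (M : Rep.{0} (ZMod p) Γℚ) [FiniteDimensional (ZMod p) M]
    (hM : IsGoodModule p S M) (hpS : pPrime p ∈ S) (t : Nat.Primes) (ht : t ∉ S) :
    orthogonal (pairingStd hp2 t M) (H1unrAt t M) ⊓
        continuousH1 (primeLocalToGlobal t) (Rep.res (primeLocalToGlobal t) (tateDual p M)) ≤
      H1unrAt t (tateDual p M) := by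
  have hfinM : Finite M := Module.finite_of_finite (ZMod p)
  have htp : t ≠ pPrime p := fun h => ht (h ▸ hpS)
  have htp' : (t : ℕ) ≠ p := fun h => htp (Subtype.ext h)
  -- the enlarged set `S' = insert t S`
  have htS' : t ∈ insert t S := Finset.mem_insert_self t S
  have hpS' : pPrime p ∈ insert t S := Finset.mem_insert_of_mem hpS
  have hM' : IsGoodModule p (insert t S) M := hM.mono (Finset.subset_insert t S)
  have hMd : IsGoodModule p S (tateDual p M) := hM.tateDual hpS
  have hMd' : IsGoodModule p (insert t S) (tateDual p M) := hMd.mono (Finset.subset_insert t S)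
  have hfinMd : Finite (tateDual p M) := DualTwist.finite_dualTwist (cycloChar p) M
  have hfdMd : FiniteDimensional (ZMod p) (tateDual p M) := Module.Finite.of_finite
  -- the two continuous local `H¹` are finite dimensional
  have hfinV : Module.Finite (ZMod p)
      (continuousH1 (primeLocalToGlobal t) (Rep.res (primeLocalToGlobal t) M)) :=
    finite_locH1_of (localBaseStd hp2) (insert t S) hpS' M hM' (Sum.inr ⟨t, htS'⟩)
  have hfinW : Module.Finite (ZMod p)
      (continuousH1 (primeLocalToGlobal t) (Rep.res (primeLocalToGlobal t) (tateDual p M))) :=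
    finite_locH1_of (localBaseStd hp2) (insert t S) hpS' (tateDual p M) hMd' (Sum.inr ⟨t, htS'⟩)
  -- nondegeneracy
  have hleft : ∀ x ∈ continuousH1 (primeLocalToGlobal t) (Rep.res (primeLocalToGlobal t) M),
      (∀ y ∈ continuousH1 (primeLocalToGlobal t)
          (Rep.res (primeLocalToGlobal t) (tateDual p M)),
        pairingStd hp2 t M x y = 0) → x = 0 :=
    nondeg_left_of (localBaseStd hp2) S t M hM
  have hright : ∀ y ∈ continuousH1 (primeLocalToGlobal t)
        (Rep.res (primeLocalToGlobal t) (tateDual p M)),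
      (∀ x ∈ continuousH1 (primeLocalToGlobal t) (Rep.res (primeLocalToGlobal t) M),
        pairingStd hp2 t M x y = 0) → y = 0 :=
    nondeg_right_of (localBaseStd hp2) S t M hM
  -- dimensions
  have hVW := finrank_eq_of_nondeg (pairingStd hp2 t M) _ _ hleft hright
  have hcount := finrank_orthogonal_inf_add (pairingStd hp2 t M) _
    (continuousH1 (primeLocalToGlobal t) (Rep.res (primeLocalToGlobal t) (tateDual p M)))
    hleft (H1unrAt t M) (H1unrAt_le_continuousH1 t M)
  have hE : finrank (ZMod p)
      (continuousH1 (primeLocalToGlobal t) (Rep.res (primeLocalToGlobal t) M)) =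
      finrank (ZMod p) (Rep.res (primeLocalToGlobal t) M).ρ.invariants +
        finrank (ZMod p) (Rep.res (primeLocalToGlobal t) (tateDual p M)).ρ.invariants :=
    Fermat.Agent.S56x.Local.EulerTameFinal.localEuler_ne (localBaseStd hp2) (insert t S) M hM'
      ⟨t, htS'⟩ htp
  have hdimU : finrank (ZMod p) (H1unrAt t M) =
      finrank (ZMod p) (Rep.res (primeLocalToGlobal t) M).ρ.invariants :=
    finrank_H1unrAt t hM.smooth
  have hdimU' : finrank (ZMod p) (H1unrAt t (tateDual p M)) =
      finrank (ZMod p) (Rep.res (primeLocalToGlobal t) (tateDual p M)).ρ.invariants :=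
    finrank_H1unrAt t hMd.smooth
  -- orthogonality of the unramified classes
  have hle : H1unrAt t (tateDual p M) ≤
      orthogonal (pairingStd hp2 t M) (H1unrAt t M) ⊓
        continuousH1 (primeLocalToGlobal t) (Rep.res (primeLocalToGlobal t) (tateDual p M)) := by
    intro y hy
    refine ⟨(mem_orthogonal_iff _ _ _).2 fun x hx => ?_, H1unrAt_le_continuousH1 t _ hy⟩
    exact pairingAtOf_eq_zero_of_mem_H1unrAt t htp' (localBaseStd hp2) hM.smooth hx hy
  have hfinO : Module.Finite (ZMod p) ↥(orthogonal (pairingStd hp2 t M) (H1unrAt t M) ⊓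
      continuousH1 (primeLocalToGlobal t) (Rep.res (primeLocalToGlobal t) (tateDual p M))) :=
    Submodule.finiteDimensional_of_le inf_le_right
  have heq := Submodule.eq_of_le_of_finrank_le hle (by omega)
  exact heq.ge

end Fields

end UnramFamilyMain

open UnramFamilyMain

/-- **The unramified family of block (B).** -/
noncomputable def unramFamily (hp2 : p ≠ 2) : UnramFamily hp2 where
  U := fun t M => H1unrAt t M
  le_cont := fun _ M _ t _ => H1unrAt_le_continuousH1 t M
  loc_mem := fun S M _ x hx t ht => loc_mem_H1unrAt S M hx ht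
  mono := fun S T M hM y hy h => mem_continuousH1S_of_loc_mem_H1unrAt S T M hM hy h
  finrank_le := fun _ M _ hM t _ => (finrank_H1unrAt t hM.smooth).le
  orth := fun S M _ hM hpS t ht => orth_H1unrAt hp2 S M hM hpS t ht

end Fermat.Agent.S56x.GW
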